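import Fermat.Prelude.Def_CuspForm_HeckeLocal
import Fermat.Prelude.Def_CuspForm_HeckeEvalForms
import Fermat.Prelude.Def_HeckeGalois_EichlerShimura
import Fermat.Prelude.Def_ModularCurve_ModularUnit
import Fermat.Prelude.Thm_ModularFormClass_qCoeff_heckeT
import Fermat.Prelude.Thm_ModularFormClass_qCoeff_heckeU
import Fermat.Prelude.Thm_UpperHalfPlane_eq_of_forall_qCoeff_eq
import Fermat.Prelude.Thm_CongruenceSubgroup_one_mem_strictPeriods_Gamma0

/-!
# The Eisenstein quotient of the lattice Hecke algebra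

The quotient is cyclic; its order is computed through the perfect pairing `(t, f) ↦ a₁(t f)`
between the Hecke algebra and the lattice of integral cusp forms.
-/

namespace Fermat.MF.Eisen

open CuspForm ModularCurve CongruenceSubgroup

local notation "S₂" p => CuspForm (Gamma0 p) 2

section Coeff

variable {p : ℕ}

/-- `1` is a period of `Γ₀(p)`. -/
theorem one_mem_periods (p : ℕ) :
    (1 : ℝ) ∈ (Gamma0 p : Subgroup (GL (Fin 2) ℝ)).strictPeriods :=
  CongruenceSubgroup.one_mem_strictPeriods_Gamma0 p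

/-- The coefficients are additive. -/
theorem qCoeff_form_add (f g : S₂ p) (n : ℕ) :
    ModularFormClass.qCoeff ⇑(f + g) n = ModularFormClass.qCoeff f n +
      ModularFormClass.qCoeff g n := by
  simp only [ModularFormClass.qCoeff, FunLike.coe_add]
  rw [UpperHalfPlane.qExpansion_add (ModularFormClass.analyticAt_cuspFunction_zero f one_pos
    (one_mem_periods p))
    (ModularFormClass.analyticAt_cuspFunction_zero g one_pos (one_mem_periods p)), map_add]

/-- The coefficients commute with scalars. -/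
theorem qCoeff_form_smul (a : ℂ) (f : S₂ p) (n : ℕ) :
    ModularFormClass.qCoeff ⇑(a • f) n = a * ModularFormClass.qCoeff f n := by
  simp only [ModularFormClass.qCoeff]
  rw [show ⇑(a • f) = a • ⇑f from rfl,
    UpperHalfPlane.qExpansion_smul (ModularFormClass.analyticAt_cuspFunction_zero f one_pos
      (one_mem_periods p)) a,
    PowerSeries.coeff_smul, smul_eq_mul]

/-- The coefficients of `0` vanish. -/
theorem qCoeff_form_zero (p n : ℕ) : ModularFormClass.qCoeff (0 : S₂ p) n = 0 := by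
  simp [ModularFormClass.qCoeff, UpperHalfPlane.qExpansion_zero]

/-- The constant coefficient of a cusp form vanishes. -/
theorem qCoeff_form_zero_index [NeZero p] (f : S₂ p) : ModularFormClass.qCoeff f 0 = 0 := by
  rw [ModularFormClass.qCoeff, UpperHalfPlane.qExpansion_coeff_zero one_pos
    (ModularFormClass.analyticAt_cuspFunction_zero f one_pos (one_mem_periods p))
    (SlashInvariantFormClass.periodic_comp_ofComplex f (one_mem_periods p))]
  exact (CuspFormClass.zero_at_infty f).valueAtInfty_eq_zero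

/-- A cusp form is determined by its coefficients of index `n ≥ 1`. -/
theorem eq_of_qCoeff_eq [NeZero p] {f g : S₂ p}
    (h : ∀ n, 1 ≤ n → ModularFormClass.qCoeff f n = ModularFormClass.qCoeff g n) : f = g := by
  refine DFunLike.coe_injective (UpperHalfPlane.eq_of_forall_qCoeff_eq
    (SlashInvariantFormClass.periodic_comp_ofComplex f (one_mem_periods p)) (CuspFormClass.holo f)
    (ModularFormClass.bdd_at_infty f)
    (SlashInvariantFormClass.periodic_comp_ofComplex g (one_mem_periods p)) (CuspFormClass.holo g)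
    (ModularFormClass.bdd_at_infty g) fun n => ?_)
  rcases Nat.eq_zero_or_pos n with rfl | hn
  · rw [qCoeff_form_zero_index, qCoeff_form_zero_index]
  · exact h n hn

/-- The coefficients of a form in the integral lattice are integers. -/
theorem exists_int_qCoeff [NeZero p] {f : S₂ p} (hf : f ∈ CuspForm.intLattice p 2) (n : ℕ) :
    ∃ m : ℤ, ModularFormClass.qCoeff f n = m := by
  induction hf using Submodule.span_induction with
  | mem f hf => exact hf n
  | zero => exact ⟨0, by rw [qCoeff_form_zero]; simp⟩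
  | add f g _ _ hf hg =>
    obtain ⟨a, ha⟩ := hf; obtain ⟨b, hb⟩ := hg
    exact ⟨a + b, by rw [qCoeff_form_add, ha, hb]; simp⟩
  | smul c f _ hf =>
    obtain ⟨a, ha⟩ := hf
    refine ⟨c * a, ?_⟩
    rw [← Int.cast_smul_eq_zsmul ℂ c f, qCoeff_form_smul, ha]
    simp

end Coeff

variable (p : ℕ) [hp : Fact p.Prime]

/-- The integral cusp forms. -/
abbrev Lat : Type := ↥(CuspForm.intLattice p 2)

/-- The lattice Hecke algebra. -/
abbrev HT : Type := ↥(heckeLatticeAlgebra p ∅)

/-- The evaluation of abstract Hecke operators on the lattice. -/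
noncomputable def piT : HeckeAlg →+* HT p :=
  (latticeRestrictHom p ∅).toRingHom.comp (heckeEvalForms p 2)

/-- `piT` acts on the lattice as the evaluated operator. -/
theorem coe_piT_apply (w : HeckeAlg) (f : Lat p) :
    (((piT p w : Module.End ℤ (Lat p)) f : Lat p) : S₂ p) =
      ((heckeEvalForms p 2 w : ↥(CuspForm.heckeAlgebra p 2 ∅)) : Module.End ℂ (S₂ p)) f := rfl

/-- Evaluation of the abstract Hecke operators on forms is surjective. -/
theorem heckeEvalForms_surjective : Function.Surjective (heckeEvalForms p 2) := by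
  rintro ⟨t, ht⟩
  induction ht using Algebra.adjoin_induction with
  | mem x hx =>
    rcases hx with ⟨ℓ, hℓ, hℓN, -, rfl⟩ | ⟨q, hqN, hq, -, rfl⟩
    · refine ⟨heckeGen ⟨ℓ, hℓ⟩, ?_⟩
      rw [heckeEvalForms_heckeGen_of_not_dvd (ℓ := ⟨ℓ, hℓ⟩) hℓN]; rfl
    · refine ⟨heckeGen ⟨q, hq⟩, ?_⟩
      rw [heckeEvalForms_heckeGen_of_dvd (q := ⟨q, hq⟩) hqN]; rfl
  | algebraMap a => exact ⟨MvPolynomial.C a, by rw [heckeEvalForms_C]; rfl⟩
  | add x y _ _ hx hy =>
    obtain ⟨u, hu⟩ := hx; obtain ⟨v, hv⟩ := hy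
    exact ⟨u + v, by rw [map_add, hu, hv]; rfl⟩
  | mul x y _ _ hx hy =>
    obtain ⟨u, hu⟩ := hx; obtain ⟨v, hv⟩ := hy
    exact ⟨u * v, by rw [map_mul, hu, hv]; rfl⟩

/-- The map onto the lattice Hecke algebra is surjective. -/
theorem piT_surjective : Function.Surjective (piT p) :=
  (latticeRestrictHom_surjective p ∅).comp (heckeEvalForms_surjective p)

/-- The Eisenstein character on abstract Hecke operators. -/
noncomputable def eta : HeckeAlg →+* ℤ :=
  (MvPolynomial.aeval (R := ℤ) (eisensteinSystem p)).toRingHom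

omit hp in
/-- The Eisenstein character is surjective. -/
theorem eta_surjective : Function.Surjective (eta p) := fun a => ⟨MvPolynomial.C a, by simp [eta]⟩

omit hp in
/-- The kernel of the Eisenstein character is the Eisenstein ideal. -/
theorem ker_eta : RingHom.ker (eta p) = eisensteinIdeal p := rfl

/-- The sum of the divisors prime to `p`. -/
def sigmaAway (p n : ℕ) : ℕ := ∑ d ∈ n.divisors with ¬ p ∣ d, d

/-- `σ'(1) = 1`. -/
theorem sigmaAway_one : sigmaAway p 1 = 1 := by
  rw [sigmaAway, Nat.divisors_one, Finset.filter_singleton,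
    if_pos (fun h => hp.out.ne_one (Nat.dvd_one.mp h)), Finset.sum_singleton]

/-- `σ'(m p) = σ'(m)`. -/
theorem sigmaAway_mul_self {m : ℕ} (hm : m ≠ 0) : sigmaAway p (m * p) = sigmaAway p m := by
  refine Finset.sum_congr ?_ fun _ _ => rfl
  ext d
  simp only [Finset.mem_filter, Nat.mem_divisors]
  constructor
  · rintro ⟨⟨hd, -⟩, hpd⟩
    exact ⟨⟨(((hp.out.coprime_iff_not_dvd).mpr hpd).symm).dvd_of_dvd_mul_right hd, hm⟩, hpd⟩
  · rintro ⟨⟨hd, -⟩, hpd⟩
    exact ⟨⟨hd.trans (dvd_mul_right _ _), mul_ne_zero hm hp.out.ne_zero⟩, hpd⟩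

/-- The Hecke recursion for the divisor sum prime to `p`. -/
theorem sigmaAway_mul_prime {ℓ m : ℕ} (hℓ : ℓ.Prime) (hℓp : ℓ ≠ p) (hm : m ≠ 0) :
    sigmaAway p (m * ℓ) + (if ℓ ∣ m then ℓ * sigmaAway p (m / ℓ) else 0)
      = (1 + ℓ) * sigmaAway p m := by
  classical
  set D : ℕ → Finset ℕ := fun n => n.divisors.filter (fun d => ¬ p ∣ d) with hD
  have hpl : ∀ d, p ∣ ℓ * d ↔ p ∣ d := fun d =>
    ⟨fun h => (hp.out.dvd_mul.mp h).resolve_left fun h' =>
      hℓp ((Nat.prime_dvd_prime_iff_eq hp.out hℓ).mp h').symm, fun h => dvd_mul_of_dvd_right h _⟩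
  have hinj : ∀ n, Set.InjOn (fun d => ℓ * d) (D n) := fun n a _ b _ h =>
    Nat.eq_of_mul_eq_mul_left hℓ.pos h
  -- the divisors of `m ℓ` prime to `p`
  have hunion : D (m * ℓ) = D m ∪ (D m).image (fun d => ℓ * d) := by
    ext d
    simp only [hD, Finset.mem_union, Finset.mem_image, Finset.mem_filter, Nat.mem_divisors]
    constructor
    · rintro ⟨⟨hd, -⟩, hpd⟩
      by_cases hld : ℓ ∣ d
      · obtain ⟨e, rfl⟩ := hld
        refine Or.inr ⟨e, ⟨⟨?_, hm⟩, fun h => hpd ((hpl e).mpr h)⟩, rfl⟩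
        rw [mul_comm m] at hd
        exact Nat.dvd_of_mul_dvd_mul_left hℓ.pos hd
      · exact Or.inl ⟨⟨((hℓ.coprime_iff_not_dvd.mpr hld).symm).dvd_of_dvd_mul_right hd, hm⟩, hpd⟩
    · rintro (⟨⟨hd, -⟩, hpd⟩ | ⟨e, ⟨⟨he, -⟩, hpe⟩, rfl⟩)
      · exact ⟨⟨hd.trans (dvd_mul_right _ _), mul_ne_zero hm hℓ.ne_zero⟩, hpd⟩
      · refine ⟨⟨?_, mul_ne_zero hm hℓ.ne_zero⟩, fun h => hpe ((hpl e).mp h)⟩
        rw [mul_comm ℓ e]
        exact Nat.mul_dvd_mul_right he ℓ
  have key := Finset.sum_union_inter (f := fun d => d) (s₁ := D m)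
    (s₂ := (D m).image (fun d => ℓ * d))
  rw [← hunion] at key
  have himg : ∀ n, ∑ d ∈ (D n).image (fun d => ℓ * d), d = ℓ * ∑ d ∈ D n, d := fun n => by
    rw [Finset.sum_image (hinj n), ← Finset.mul_sum]
  rw [himg m] at key
  -- the overlap of the two parts
  have hinter : ∑ d ∈ D m ∩ (D m).image (fun d => ℓ * d), d
      = if ℓ ∣ m then ℓ * sigmaAway p (m / ℓ) else 0 := by
    split_ifs with hlm
    · obtain ⟨k, rfl⟩ := hlm
      rw [Nat.mul_div_cancel_left _ hℓ.pos]
      have hk : k ≠ 0 := by rintro rfl; simp at hm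
      change _ = ℓ * ∑ d ∈ D k, d
      rw [← himg k]
      refine Finset.sum_congr ?_ fun _ _ => rfl
      ext d
      simp only [hD, Finset.mem_inter, Finset.mem_image, Finset.mem_filter, Nat.mem_divisors]
      constructor
      · rintro ⟨⟨⟨hd, -⟩, -⟩, e, ⟨⟨-, -⟩, hpe⟩, rfl⟩
        exact ⟨e, ⟨⟨Nat.dvd_of_mul_dvd_mul_left hℓ.pos hd, hk⟩, hpe⟩, rfl⟩
      · rintro ⟨e, ⟨⟨he, -⟩, hpe⟩, rfl⟩
        exact ⟨⟨⟨mul_dvd_mul_left ℓ he, hm⟩, fun h => hpe ((hpl e).mp h)⟩, e,
          ⟨⟨he.trans (dvd_mul_left _ _), hm⟩, hpe⟩, rfl⟩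
    · refine Finset.sum_eq_zero fun d hd => absurd ?_ hlm
      simp only [hD, Finset.mem_inter, Finset.mem_image, Finset.mem_filter, Nat.mem_divisors] at hd
      obtain ⟨⟨⟨hd1, -⟩, -⟩, e, -, rfl⟩ := hd
      exact dvd_trans (dvd_mul_right _ _) hd1
  -- inclusion and exclusion
  rw [hinter] at key
  change ∑ d ∈ D (m * ℓ), d + _ = (1 + ℓ) * ∑ d ∈ D m, d
  rw [key]
  ring

/-- For each `n ≥ 1` an operator picking the `n`-th coefficient, of Eisenstein value `σ'(n)`. -/
theorem exists_coeff_operator : ∀ n : ℕ, 1 ≤ n → ∃ w : HeckeAlg, eta p w = (sigmaAway p n : ℤ) ∧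
    ∀ f : S₂ p, ModularFormClass.qCoeff
      (((heckeEvalForms p 2 w : ↥(CuspForm.heckeAlgebra p 2 ∅)) : Module.End ℂ (S₂ p)) f) 1
      = ModularFormClass.qCoeff f n := by
  intro n
  induction n using Nat.strong_induction_on with
  | _ n ih =>
    intro hn
    rcases eq_or_lt_of_le hn with rfl | hn1
    · exact ⟨1, by rw [map_one, sigmaAway_one]; rfl, fun f => by rw [map_one]; rfl⟩
    -- write `n = m ℓ` with `ℓ` the least prime factor, and use the recursion of the coefficients
    set ℓ := n.minFac with hℓdef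
    have hℓ : ℓ.Prime := Nat.minFac_prime (by omega)
    obtain ⟨m, hm⟩ : ℓ ∣ n := Nat.minFac_dvd n
    have hmn : m < n := by
      rw [hm]
      exact lt_mul_left (Nat.pos_of_ne_zero fun h => by simp [h] at hm; omega) hℓ.one_lt
    have hm1 : 1 ≤ m := Nat.one_le_iff_ne_zero.mpr fun h => by simp [h] at hm; omega
    obtain ⟨w, hw, hwf⟩ := ih m hmn hm1
    have hm' : n = m * ℓ := by rw [hm, mul_comm]
    have hgen : ∀ f : S₂ p, ModularFormClass.qCoeff
        (((heckeEvalForms p 2 (w * heckeGen ⟨ℓ, hℓ⟩) : ↥(CuspForm.heckeAlgebra p 2 ∅)) :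
          Module.End ℂ (S₂ p)) f) 1 = ModularFormClass.qCoeff
        (((heckeFormsGen p 2 ⟨ℓ, hℓ⟩ : ↥(CuspForm.heckeAlgebra p 2 ∅)) :
          Module.End ℂ (S₂ p)) f) m := fun f => by
      rw [map_mul, heckeEvalForms_heckeGen]
      exact hwf _
    by_cases hlp : ℓ = p
    · have hdvd : ℓ ∣ p := hlp.symm ▸ dvd_rfl
      refine ⟨w * heckeGen ⟨ℓ, hℓ⟩, ?_, fun f => ?_⟩
      · rw [map_mul, hw]
        change (sigmaAway p m : ℤ) * MvPolynomial.aeval (eisensteinSystem p) (heckeGen ⟨ℓ, hℓ⟩) = _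
        rw [aeval_heckeGen, eisensteinSystem_of_dvd (ℓ := ⟨ℓ, hℓ⟩) hdvd, mul_one, hm', hlp,
          sigmaAway_mul_self p (by omega)]
      · rw [hgen, heckeFormsGen_of_dvd (q := ⟨ℓ, hℓ⟩) hdvd]
        change ModularFormClass.qCoeff (ModularForm.heckeU 2 ℓ ⇑f) m = _
        rw [ModularFormClass.qCoeff_heckeU f (one_mem_periods p) hℓ.ne_zero, hm']
        rfl
    · have hndvd : ¬ ℓ ∣ p := fun h => hlp ((Nat.prime_dvd_prime_iff_eq hℓ hp.out).mp h)
      have hT : ∀ f : S₂ p, ModularFormClass.qCoeff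
          (((heckeFormsGen p 2 ⟨ℓ, hℓ⟩ : ↥(CuspForm.heckeAlgebra p 2 ∅)) :
            Module.End ℂ (S₂ p)) f) m
          = ModularFormClass.qCoeff f n
            + if ℓ ∣ m then (ℓ : ℂ) * ModularFormClass.qCoeff f (m / ℓ) else 0 := fun f => by
        rw [heckeFormsGen_of_not_dvd (ℓ := ⟨ℓ, hℓ⟩) hndvd]
        change ModularFormClass.qCoeff (ModularForm.heckeT 2 ℓ ⇑f) m = _
        rw [ModularFormClass.qCoeff_heckeT f (one_mem_periods p) hℓ.ne_zero, hm',
          ModularForm.coeffHeckeT_apply]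
        norm_num
      have heta : eta p (w * heckeGen ⟨ℓ, hℓ⟩) = (sigmaAway p m : ℤ) * (1 + ℓ) := by
        rw [map_mul, hw]
        change (sigmaAway p m : ℤ) * MvPolynomial.aeval (eisensteinSystem p) (heckeGen ⟨ℓ, hℓ⟩) = _
        rw [aeval_heckeGen, eisensteinSystem_of_not_dvd (ℓ := ⟨ℓ, hℓ⟩) hndvd]
      have hsig := sigmaAway_mul_prime p hℓ hlp (Nat.one_le_iff_ne_zero.mp hm1)
      rw [← hm'] at hsig
      by_cases hlm : ℓ ∣ m
      · obtain ⟨v, hv, hvf⟩ := ih (m / ℓ) (lt_of_le_of_lt (Nat.div_le_self _ _) hmn)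
          (Nat.div_pos (Nat.le_of_dvd (by omega) hlm) hℓ.pos)
        rw [if_pos hlm] at hsig
        refine ⟨w * heckeGen ⟨ℓ, hℓ⟩ - MvPolynomial.C (ℓ : ℤ) * v, ?_, fun f => ?_⟩
        · rw [map_sub, heta, map_mul, hv, show eta p (MvPolynomial.C (ℓ : ℤ)) = ℓ by simp [eta]]
          have hsig' : ((sigmaAway p n : ℕ) : ℤ) + ℓ * sigmaAway p (m / ℓ)
              = (1 + ℓ) * sigmaAway p m := by exact_mod_cast hsig
          linear_combination -hsig'
        · rw [map_sub, map_mul (heckeEvalForms p 2) (MvPolynomial.C (ℓ : ℤ)), heckeEvalForms_C]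
          set A : Module.End ℂ (S₂ p) :=
            ((heckeEvalForms p 2 (w * heckeGen ⟨ℓ, hℓ⟩) : ↥(CuspForm.heckeAlgebra p 2 ∅)) :
              Module.End ℂ (S₂ p))
          set B : Module.End ℂ (S₂ p) :=
            ((heckeEvalForms p 2 v : ↥(CuspForm.heckeAlgebra p 2 ∅)) : Module.End ℂ (S₂ p))
          change ModularFormClass.qCoeff
            ((A - algebraMap ℤ (Module.End ℂ (S₂ p)) (ℓ : ℤ) * B) f) 1 = _
          have : (A - algebraMap ℤ (Module.End ℂ (S₂ p)) (ℓ : ℤ) * B) f
              = A f + (-(ℓ : ℂ)) • B f := by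
            simp [sub_eq_add_neg, Nat.cast_smul_eq_nsmul]
          rw [this, qCoeff_form_add, qCoeff_form_smul, hgen, hvf, hT, if_pos hlm]
          ring
      · rw [if_neg hlm, add_zero] at hsig
        refine ⟨w * heckeGen ⟨ℓ, hℓ⟩, ?_, fun f => ?_⟩
        · rw [heta, hsig]; push_cast; ring
        · rw [hgen, hT, if_neg hlm, add_zero]

/-- The integer `a₁(t f)`. -/
noncomputable def firstCoeff (f : Lat p) (t : HT p) : ℤ :=
  (exists_int_qCoeff ((t : Module.End ℤ (Lat p)) f).2 1).choose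

/-- `firstCoeff f t` is the first coefficient of `t f`. -/
theorem firstCoeff_spec (f : Lat p) (t : HT p) :
    (firstCoeff p f t : ℂ) = ModularFormClass.qCoeff
      ⇑(((t : Module.End ℤ (Lat p)) f : Lat p) : S₂ p) 1 :=
  (exists_int_qCoeff ((t : Module.End ℤ (Lat p)) f).2 1).choose_spec.symm

/-- The integral coefficient `a₁(t f)`. -/
noncomputable def pairing : Lat p →ₗ[ℤ] HT p →ₗ[ℤ] ℤ :=
  LinearMap.mk₂ ℤ (firstCoeff p)
    (fun f g t => by
      apply Int.cast_injective (α := ℂ)
      rw [Int.cast_add, firstCoeff_spec, firstCoeff_spec, firstCoeff_spec, map_add,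
        Submodule.coe_add, qCoeff_form_add])
    (fun c f t => by
      apply Int.cast_injective (α := ℂ)
      rw [smul_eq_mul, Int.cast_mul, firstCoeff_spec, firstCoeff_spec, map_zsmul,
        Submodule.coe_smul, ← Int.cast_smul_eq_zsmul ℂ c, qCoeff_form_smul])
    (fun f t u => by
      apply Int.cast_injective (α := ℂ)
      rw [Int.cast_add, firstCoeff_spec, firstCoeff_spec, firstCoeff_spec, Subalgebra.coe_add,
        LinearMap.add_apply, Submodule.coe_add, qCoeff_form_add])
    (fun c f t => by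
      apply Int.cast_injective (α := ℂ)
      rw [smul_eq_mul, Int.cast_mul, firstCoeff_spec, firstCoeff_spec]
      change ModularFormClass.qCoeff
        ⇑(c • (((t : Module.End ℤ (Lat p)) f : Lat p) : S₂ p)) 1 = _
      rw [← Int.cast_smul_eq_zsmul ℂ c, qCoeff_form_smul])

/-- The pairing is `a₁(t f)`. -/
theorem pairing_spec (f : Lat p) (t : HT p) :
    (pairing p f t : ℂ) = ModularFormClass.qCoeff
      ⇑(((t : Module.End ℤ (Lat p)) f : Lat p) : S₂ p) 1 :=
  firstCoeff_spec p f t

/-- An integral form killed by the pairing with every operator is zero. -/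
theorem pairing_injective : Function.Injective (pairing p) := by
  refine (injective_iff_map_eq_zero _).mpr fun f hf => Subtype.ext (eq_of_qCoeff_eq fun n hn => ?_)
  obtain ⟨w, -, hw⟩ := exists_coeff_operator p n hn
  have h := pairing_spec p f (piT p w)
  rw [hf, coe_piT_apply, hw] at h
  simp only [Submodule.coe_zero]
  rw [qCoeff_form_zero]
  simpa using h.symm

/-- An operator killed by the pairing with every integral form is zero. -/
theorem pairing_flip_injective : Function.Injective (pairing p).flip := by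
  refine (injective_iff_map_eq_zero _).mpr fun t ht => ?_
  obtain ⟨u, rfl⟩ := piT_surjective p t
  refine Subtype.ext (LinearMap.ext fun f => Subtype.ext (eq_of_qCoeff_eq fun n hn => ?_))
  obtain ⟨w, -, hw⟩ := exists_coeff_operator p n hn
  rw [← hw]
  have h := pairing_spec p ((piT p w : Module.End ℤ (Lat p)) f) (piT p u)
  have h0 : pairing p ((piT p w : Module.End ℤ (Lat p)) f) (piT p u) = 0 :=
    LinearMap.congr_fun ht _
  rw [h0, Int.cast_zero, coe_piT_apply, coe_piT_apply] at h
  have hc : ((heckeEvalForms p 2 w : ↥(CuspForm.heckeAlgebra p 2 ∅)) : Module.End ℂ (S₂ p))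
      (((heckeEvalForms p 2 u : ↥(CuspForm.heckeAlgebra p 2 ∅)) : Module.End ℂ (S₂ p)) f) =
      ((heckeEvalForms p 2 u : ↥(CuspForm.heckeAlgebra p 2 ∅)) : Module.End ℂ (S₂ p))
      (((heckeEvalForms p 2 w : ↥(CuspForm.heckeAlgebra p 2 ∅)) : Module.End ℂ (S₂ p)) f) := by
    have e := congrArg (fun x : HeckeAlg => ((heckeEvalForms p 2 x :
      ↥(CuspForm.heckeAlgebra p 2 ∅)) : Module.End ℂ (S₂ p)) f) (mul_comm w u)
    simp only [map_mul] at e
    exact e
  rw [coe_piT_apply, hc, ← h]
  exact (qCoeff_form_zero p n).symm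

/-- Every functional on the Hecke algebra comes from an integral form. -/
theorem pairing_surjective : Function.Surjective (pairing p) := by
  classical
  have := intLattice.moduleFinite p
  have := intLattice.moduleFree p
  intro φ
  have h1 : Module.finrank ℤ (Lat p) = Module.finrank ℤ (HT p →ₗ[ℤ] ℤ) := by
    refine le_antisymm (LinearMap.finrank_le_finrank_of_injective (pairing_injective p)) ?_
    rw [Module.finrank_linearMap_self]
    refine le_trans (LinearMap.finrank_le_finrank_of_injective (pairing_flip_injective p)) ?_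
    rw [Module.finrank_linearMap_self]
  have h2 : Module.finrank ℤ ((HT p →ₗ[ℤ] ℤ) ⧸ LinearMap.range (pairing p)) = 0 := by
    have := Submodule.finrank_quotient_add_finrank (LinearMap.range (pairing p))
    rw [LinearMap.finrank_range_of_inj (pairing_injective p)] at this
    omega
  obtain ⟨d, hd, hdφ⟩ :=
    Module.finrank_eq_zero_iff.mp h2 (Submodule.Quotient.mk φ)
  rw [← Submodule.Quotient.mk_smul, Submodule.Quotient.mk_eq_zero] at hdφ
  obtain ⟨f, hf⟩ := hdφ
  -- `f` represents `d φ`; its coefficients are divisible by `d`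
  set g : S₂ p := (d : ℂ)⁻¹ • (f : S₂ p) with hg_def
  have hgint : ∀ n : ℕ, ∃ m : ℤ, ModularFormClass.qCoeff g n = m := by
    intro n
    rcases Nat.eq_zero_or_pos n with rfl | hn
    · exact ⟨0, by rw [qCoeff_form_zero_index]; simp⟩
    obtain ⟨w, -, hw⟩ := exists_coeff_operator p n hn
    refine ⟨φ (piT p w), ?_⟩
    have h := pairing_spec p f (piT p w)
    rw [coe_piT_apply, hw, hf, LinearMap.smul_apply, smul_eq_mul] at h
    rw [hg_def, qCoeff_form_smul, ← h]
    push_cast
    rw [← mul_assoc, inv_mul_cancel₀ (Int.cast_ne_zero.mpr hd), one_mul]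
  refine ⟨⟨g, Submodule.subset_span hgint⟩, ?_⟩
  have hdg : (d • (⟨g, Submodule.subset_span hgint⟩ : Lat p)) = f := Subtype.ext (by
    change d • g = (f : S₂ p)
    rw [← Int.cast_smul_eq_zsmul ℂ d, hg_def, smul_smul,
      mul_inv_cancel₀ (Int.cast_ne_zero.mpr hd), one_smul])
  rw [← hdg, map_smul] at hf
  exact smul_right_injective _ hd hf

/-- The order of the Eisenstein quotient, as the generator of `η (ker π)`. -/
theorem exists_card_quotient :
    ∃ m : ℕ, (∀ w, piT p w = 0 → (m : ℤ) ∣ eta p w) ∧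
      (∀ d : ℤ, (∀ w, piT p w = 0 → d ∣ eta p w) → d ∣ (m : ℤ)) ∧
      Nat.card (HT p ⧸ Ideal.map (piT p) (eisensteinIdeal p)) = m := by
  set J := RingHom.ker (piT p) with hJ
  set a : ℤ := Submodule.IsPrincipal.generator (Ideal.map (eta p) J) with ha
  have hspan : Ideal.map (eta p) J = Ideal.span {(a.natAbs : ℤ)} := by
    rw [Int.span_natAbs, ha, Ideal.span_singleton_generator]
  refine ⟨a.natAbs, fun w hw => ?_, fun d hd => ?_, ?_⟩
  · rw [← Ideal.mem_span_singleton, ← hspan]
    exact Ideal.mem_map_of_mem _ (RingHom.mem_ker.mpr hw)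
  · have : Ideal.map (eta p) J ≤ Ideal.span {d} :=
      Ideal.map_le_iff_le_comap.mpr fun w hw =>
        Ideal.mem_comap.mpr (Ideal.mem_span_singleton.mpr (hd w (RingHom.mem_ker.mp hw)))
    rw [hspan, Ideal.span_singleton_le_span_singleton] at this
    exact this
  · have e1 : Function.Surjective
        ((Ideal.Quotient.mk (Ideal.map (piT p) (eisensteinIdeal p))).comp (piT p)) :=
      Ideal.Quotient.mk_surjective.comp (piT_surjective p)
    have e2 : Function.Surjective
        ((Ideal.Quotient.mk (Ideal.span {(a.natAbs : ℤ)})).comp (eta p)) :=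
      Ideal.Quotient.mk_surjective.comp (eta_surjective p)
    have hk : RingHom.ker ((Ideal.Quotient.mk (Ideal.map (piT p) (eisensteinIdeal p))).comp (piT p))
        = RingHom.ker ((Ideal.Quotient.mk (Ideal.span {(a.natAbs : ℤ)})).comp (eta p)) := by
      rw [← RingHom.comap_ker, ← RingHom.comap_ker, Ideal.mk_ker, Ideal.mk_ker, ← hspan,
        Ideal.comap_map_of_surjective _ (piT_surjective p),
        Ideal.comap_map_of_surjective _ (eta_surjective p), ← RingHom.ker_eq_comap_bot,
        ← RingHom.ker_eq_comap_bot, ker_eta, sup_comm]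
    have e : (HT p ⧸ Ideal.map (piT p) (eisensteinIdeal p)) ≃+* (ℤ ⧸ Ideal.span {(a.natAbs : ℤ)}) :=
      ((RingHom.quotientKerEquivOfSurjective e1).symm.trans (Ideal.quotEquivOfEq hk)).trans
        (RingHom.quotientKerEquivOfSurjective e2)
    rw [Nat.card_congr e.toEquiv, Nat.card_congr (Int.quotientSpanNatEquivZMod a.natAbs).toEquiv,
      Nat.card_zmod]

/-- An Eisenstein congruence: an integral cusp form congruent to `∑ σ'(n) qⁿ` modulo `m`. -/
theorem exists_congruent_form {m : ℕ} (hm : ∀ w, piT p w = 0 → (m : ℤ) ∣ eta p w) :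
    ∃ (g : S₂ p) (a : ℕ → ℤ), (∀ n, ModularFormClass.qCoeff g n = a n) ∧
      ∀ n, 1 ≤ n → (m : ℤ) ∣ a n - sigmaAway p n := by
  classical
  have hker : ∀ u v, piT p u = piT p v → (m : ℤ) ∣ eta p u - eta p v := fun u v h => by
    rw [← map_sub]; exact hm _ (by rw [map_sub, h, sub_self])
  set b := Module.Free.chooseBasis ℤ (HT p)
  choose lift hlift using piT_surjective p
  -- a functional on the Hecke algebra congruent to `η` modulo `m`, hence given by a form
  set φ : HT p →ₗ[ℤ] ℤ := b.constr ℤ fun i => eta p (lift (b i))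
  have hφ : ∀ t, (m : ℤ) ∣ φ t - eta p (lift t) := by
    intro t
    set u : HeckeAlg := ∑ i, MvPolynomial.C (b.repr t i) * lift (b i) with hu
    have hu1 : piT p u = t := by
      rw [hu, map_sum]
      conv_rhs => rw [← b.sum_repr t]
      refine Finset.sum_congr rfl fun i _ => ?_
      rw [map_mul, hlift, zsmul_eq_mul]
      congr 1
      exact map_intCast ((piT p).comp MvPolynomial.C) _
    have hu2 : eta p u = φ t := by
      rw [hu, map_sum]
      simp [φ, Module.Basis.constr_apply_fintype, eta]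
    rw [← hu2]
    exact hker _ _ (hu1.trans (hlift t).symm)
  obtain ⟨f, hf⟩ := pairing_surjective p φ
  choose a ha using exists_int_qCoeff f.2
  refine ⟨f, a, ha, fun n hn => ?_⟩
  obtain ⟨w, hw, hwf⟩ := exists_coeff_operator p n hn
  have h := pairing_spec p f (piT p w)
  rw [coe_piT_apply, hwf, ha, hf] at h
  rw [← (Int.cast_injective (α := ℂ) h), ← hw]
  have h1 := hker (lift (piT p w)) w (hlift _)
  have h2 := hφ (piT p w)
  have : φ (piT p w) - eta p w
      = (φ (piT p w) - eta p (lift (piT p w))) + (eta p (lift (piT p w)) - eta p w) := by ring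
  rw [this]
  exact dvd_add h2 h1

end Fermat.MF.Eisen
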