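import Fermat.Agent.MF.Eisen.ModSeries

/-!
# Consequences of an Eisenstein congruence tested on the discriminant

`dvd_of_congPair` and, with the weights of `ModSeries`, `false_of_congPair_five`: the part prime to
`6` of the upper bound (`Upper`).
-/

namespace Fermat.MF.Eisen

open UpperHalfPlane hiding I
open Fermat.MC
open scoped MatrixGroups Manifold

local notation "Δ" => ModularForm.discriminant

/-- The discriminant as a modular form. -/
noncomputable def deltaForm : ModularForm 𝒮ℒ ((12 : ℕ) : ℤ) :=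
  levelOneForm _ Δ bddPer_discriminant.1
    (fun γ z => smul_eq_denom_zpow CuspForm.discriminant γ z) bddPer_discriminant.2.2

/-- The q-series of `Δ`. -/
theorem qE_deltaForm : qE ⇑deltaForm = PowerSeries.map (Int.castRingHom ℂ) deltaSer := qE_Delta

/-- Powers of a level one form. -/
theorem exists_powForm {k : ℕ} (A : ModularForm 𝒮ℒ (k : ℤ)) (α : PowerSeries ℤ)
    (hα : qE ⇑A = PowerSeries.map (Int.castRingHom ℂ) α) (n : ℕ) :
    ∃ F : ModularForm 𝒮ℒ ((k * n : ℕ) : ℤ),
      qE ⇑F = PowerSeries.map (Int.castRingHom ℂ) (α ^ n) := by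
  refine ⟨levelOneForm _ ((⇑A) ^ n) ((bddPer_levelOne A).pow n).1 (fun γ z => ?_)
    ((bddPer_levelOne A).pow n).2.2, ?_⟩
  · simp only [Pi.pow_apply, smul_eq_denom_zpow A γ z, mul_pow, Nat.cast_mul,
      zpow_mul, zpow_natCast]
  · rw [coe_levelOneForm, qE_pow (bddPer_levelOne A), hα, map_pow]

/-- A level one form of weight twelve with two vanishing coefficients is zero. -/
theorem qE_eq_zero_of_weight_twelve {f : ModularForm 𝒮ℒ ((12 : ℕ) : ℤ)} (h0 : (qE ⇑f).coeff 0 = 0)
    (h1 : (qE ⇑f).coeff 1 = 0) : qE ⇑f = 0 := by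
  have h := mem_monoSpan ⊤ 12 f (mem_serRing_iff.mpr fun n => trivial)
  have hle : monoSpan (⊤ : Subring ℂ) 12 ≤ Submodule.span _ {monoF 1 0 0, monoF 0 3 0} :=
    Submodule.span_le.mpr (by
      rintro g ⟨i, a, b, hw, rfl⟩
      have : (i = 1 ∧ a = 0 ∧ b = 0) ∨ (i = 0 ∧ a = 3 ∧ b = 0) ∨ (i = 0 ∧ a = 0 ∧ b = 2) := by omega
      rcases this with ⟨rfl, rfl, rfl⟩ | ⟨rfl, rfl, rfl⟩ | ⟨rfl, rfl, rfl⟩
      · exact Submodule.subset_span (by simp)
      · exact Submodule.subset_span (by simp)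
      · have e : monoF 0 0 2 = monoF 0 3 0 + (⟨-1728, trivial⟩ : (⊤ : Subring ℂ)) •
            monoF 1 0 0 := by
          funext z
          simp [monoF, Subring.smul_def, ModularForm.discriminant_eq_E₄_cube_sub_E₆_sq]
          ring
        rw [e]
        exact add_mem (Submodule.subset_span (by simp))
          (Submodule.smul_mem _ _ (Submodule.subset_span (by simp))))
  obtain ⟨a, b, hab⟩ := Submodule.mem_span_pair.mp (hle h)
  rw [Subring.smul_def, Subring.smul_def] at hab
  have e : qE ⇑f = (a : ℂ) • PowerSeries.map (Int.castRingHom ℂ) deltaSer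
      + (b : ℂ) • PowerSeries.map (Int.castRingHom ℂ) (e4Ser ^ 3) := by
    rw [← hab, qE_add (bddPer_smul (bddPer_monoF _ _ _) _) (bddPer_smul (bddPer_monoF _ _ _) _),
      qE_smul (bddPer_monoF _ _ _), qE_smul (bddPer_monoF _ _ _), qE_monoF, qE_monoF]
    simp [deltaSer]
  have hb : (b : ℂ) = 0 := by
    rw [e, map_add, PowerSeries.coeff_smul, PowerSeries.coeff_smul, PowerSeries.coeff_map,
      PowerSeries.coeff_map, coeff_zero_deltaSer, PowerSeries.coeff_zero_eq_constantCoeff_apply,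
      map_pow PowerSeries.constantCoeff, constantCoeff_e4Ser] at h0
    simpa using h0
  have ha : (a : ℂ) = 0 := by
    rw [e, hb, zero_smul, add_zero, PowerSeries.coeff_smul, PowerSeries.coeff_map,
      coeff_one_deltaSer] at h1
    simpa using h1
  rw [e, ha, hb]
  simp

variable (p : ℕ) [hp : Fact p.Prime]

/-- `φ(qᵖ)` has no term in `q`. -/
theorem coeff_spreadSer_one {R : Type*} [Semiring R] (φ : PowerSeries R) :
    (spreadSer p φ).coeff 1 = 0 := by
  simp [spreadSer, spread, hp.out.ne_one]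

omit hp in
/-- `φ(qᵖ)` has the constant term of `φ`. -/
theorem coeff_spreadSer_zero {R : Type*} [Semiring R] (φ : PowerSeries R) :
    (spreadSer p φ).coeff 0 = φ.coeff 0 := by
  simp [spreadSer, spread]

/-- The coefficient of `qᵖ` in `φ(qᵖ)` is the linear coefficient of `φ`. -/
theorem coeff_spreadSer_self {R : Type*} [Semiring R] (φ : PowerSeries R) :
    (spreadSer p φ).coeff p = φ.coeff 1 := by
  simp [spreadSer, spread, Nat.div_self hp.out.pos]

/-- `τ(p²) = τ(p)² - p¹¹`. -/
theorem coeff_deltaSer_sq :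
    deltaSer.coeff (p * p) = deltaSer.coeff p ^ 2 - (p : ℤ) ^ 11 := by
  obtain ⟨F, hF⟩ := exists_heckeT p (by norm_num) deltaForm deltaSer qE_deltaForm
  set ξ := uSer p deltaSer + PowerSeries.C ((p : ℤ) ^ (12 - 1)) * spreadSer p deltaSer
    - PowerSeries.C (deltaSer.coeff p) * deltaSer with hξ
  set G : ModularForm 𝒮ℒ ((12 : ℕ) : ℤ) := F - ((deltaSer.coeff p : ℤ) : ℂ) • deltaForm with hG
  have hGq : qE ⇑G = PowerSeries.map (Int.castRingHom ℂ) ξ := by
    rw [hG, FunLike.coe_sub, FunLike.coe_smul, qE_sub (bddPer_levelOne F)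
      (bddPer_smul (bddPer_levelOne deltaForm) _), qE_smul (bddPer_levelOne deltaForm), hF,
      qE_deltaForm, hξ, map_sub, map_mul _ (PowerSeries.C (deltaSer.coeff p)), PowerSeries.map_C,
      PowerSeries.smul_eq_C_mul]
    rfl
  have h := qE_eq_zero_of_weight_twelve (f := G)
    (by rw [hGq, PowerSeries.coeff_map, hξ, map_sub, map_add, PowerSeries.coeff_C_mul,
          PowerSeries.coeff_C_mul, coeff_spreadSer_zero, coeff_zero_deltaSer, uSer,
          PowerSeries.coeff_mk, zero_mul, coeff_zero_deltaSer]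
        simp)
    (by rw [hGq, PowerSeries.coeff_map, hξ, map_sub, map_add, PowerSeries.coeff_C_mul,
          PowerSeries.coeff_C_mul, coeff_spreadSer_one, coeff_one_deltaSer]
        simp [uSer])
  have hp' := congrArg (PowerSeries.coeff p) h
  rw [hGq, PowerSeries.coeff_map, map_zero, eq_intCast, Int.cast_eq_zero, hξ, map_sub, map_add,
    PowerSeries.coeff_C_mul, PowerSeries.coeff_C_mul, coeff_spreadSer_self, coeff_one_deltaSer,
    uSer, PowerSeries.coeff_mk] at hp'
  linear_combination hp'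

/-- An Eisenstein congruence modulo `M` forces `M ∣ (p - 1) p¹¹ (p + 1)`. -/
theorem dvd_of_congPair {M : ℕ} (P : CongPair p M) :
    (M : ℤ) ∣ ((p : ℤ) - 1) * (p : ℤ) ^ 11 * ((p : ℤ) + 1) := by
  obtain ⟨Z, ζ, hζ, hdvd⟩ := exists_twist p P deltaForm deltaSer qE_deltaForm
  rw [C_dvd_iff_coeff] at hdvd
  set c := (p : ℤ) - 1
  have hmono : ζ = PowerSeries.C (ζ.coeff 0) * (e4Ser ^ 2 * eisenstein6 ^ 1) := by
    apply map_int_injective
    have h := levelOne_low (k := 2 + 12) (a := 2) (b := 1) Z (by omega)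
    have h' := congrArg qE h
    rw [qE_smul (bddPer_monoF 0 2 1), qE_monoF, pow_zero, one_mul, hζ, PowerSeries.coeff_map] at h'
    rw [map_mul, PowerSeries.map_C, ← PowerSeries.smul_eq_C_mul]
    exact h'
  have h0 : (M : ℤ) ∣ ζ.coeff 0 := by
    have := hdvd 0
    rw [map_sub, PowerSeries.coeff_C_mul, map_sub, PowerSeries.coeff_C_mul, coeff_spreadSer_zero,
      uSer, PowerSeries.coeff_mk, zero_mul, coeff_zero_deltaSer] at this
    simpa using this
  have hn : ∀ n, (M : ℤ) ∣ ζ.coeff n := fun n => by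
    rw [hmono, PowerSeries.coeff_C_mul]; exact h0.mul_right _
  have h1 : (M : ℤ) ∣ c * deltaSer.coeff p := by
    have := (hn 1).sub (hdvd 1)
    rw [map_sub, sub_sub_cancel, PowerSeries.coeff_C_mul, map_sub, PowerSeries.coeff_C_mul,
      coeff_spreadSer_one, uSer, PowerSeries.coeff_mk, one_mul, mul_zero, zero_sub, mul_neg,
      dvd_neg] at this
    exact this
  have h2 : (M : ℤ) ∣ c * ((p : ℤ) ^ 12 - deltaSer.coeff (p * p)) := by
    have := (hn p).sub (hdvd p)
    rw [map_sub, sub_sub_cancel, PowerSeries.coeff_C_mul, map_sub, PowerSeries.coeff_C_mul,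
      coeff_spreadSer_self, uSer, PowerSeries.coeff_mk, coeff_one_deltaSer, mul_one] at this
    exact this
  rw [coeff_deltaSer_sq] at h2
  have := h2.add (h1.mul_right (deltaSer.coeff p))
  rwa [show c * (p : ℤ) ^ 11 * ((p : ℤ) + 1) =
    c * ((p : ℤ) ^ 12 - (deltaSer.coeff p ^ 2 - (p : ℤ) ^ 11)) +
      c * deltaSer.coeff p * deltaSer.coeff p by ring]

/-- No prime `ℓ ≥ 5` dividing `p (p + 1)` is a congruence prime. -/
theorem false_of_congPair_five {M ℓ : ℕ} [Fact ℓ.Prime] (P : CongPair p M) (h5 : 5 ≤ ℓ) (hM : ℓ ∣ M)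
    (hℓp : ℓ ∣ p * (p + 1)) : False := by
  obtain ⟨F, hF⟩ := exists_powForm deltaForm deltaSer qE_deltaForm p
  have hj : 1 ≤ 12 * p := by have := hp.out.pos; omega
  obtain ⟨T, hT⟩ := exists_heckeT p hj F _ hF
  obtain ⟨Z, ζ, hζ, hdvd⟩ := exists_twist p P F _ hF
  set α := deltaSer ^ p with hα
  set ξ := uSer p α + PowerSeries.C ((p : ℤ) ^ (12 * p - 1)) * spreadSer p α with hξ
  set c := (p : ℤ) - 1 with hc
  have hp0 : ((p : ℕ) : ZMod ℓ) * ((p : ZMod ℓ) + 1) = 0 := by
    have := (ZMod.natCast_eq_zero_iff (p * (p + 1)) ℓ).mpr hℓp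
    push_cast at this
    exact this
  -- modulo `ℓ` the twist is a multiple of the Hecke transform
  have hred : red ℓ ζ = PowerSeries.C (-(c : ZMod ℓ)) * red ℓ ξ := by
    rw [red_eq_of_C_dvd ℓ hM hdvd, hξ, map_mul, red_C, map_sub, map_add, map_mul, map_mul, red_C,
      red_C, map_neg]
    have hpow : PowerSeries.C (((p : ℤ) ^ (12 * p) : ℤ) : ZMod ℓ) +
        PowerSeries.C (((p : ℤ) ^ (12 * p - 1) : ℤ) : ZMod ℓ) = 0 := by
      rw [← map_add]
      convert map_zero (PowerSeries.C (R := ZMod ℓ)) using 2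
      push_cast
      rw [show 12 * p = (12 * p - 2) + 1 + 1 by omega, Nat.add_sub_cancel, pow_succ, pow_succ]
      linear_combination (p : ZMod ℓ) ^ (12 * p - 2) * hp0
    linear_combination (PowerSeries.C (c : ZMod ℓ) * red ℓ (spreadSer p α)) * hpow
  have hcu : (c : ZMod ℓ) ≠ 0 := by
    intro h
    have hp1 : (p : ZMod ℓ) = 1 := by
      rw [hc] at h; push_cast at h; exact sub_eq_zero.mp h
    rw [hp1] at hp0
    exact small_ne_zero h5 (a := 2) (by norm_num) (by rw [← hp0]; push_cast; ring)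
  have hα1 : α.coeff p = 1 := by
    rw [hα, deltaSer, mul_pow]
    have h := PowerSeries.coeff_X_pow_mul (ModularCurve.dedekindEtaUnit ^ p) p 0
    rw [zero_add] at h
    rw [h, PowerSeries.coeff_zero_eq_constantCoeff_apply, map_pow,
      ModularCurve.constantCoeff_dedekindEtaUnit,
      one_pow]
  -- which is nonzero
  have hne : red ℓ ζ ≠ 0 := fun h => by
    rw [hred] at h
    have h1 := congrArg (PowerSeries.coeff 1) h
    rw [PowerSeries.coeff_C_mul, red, PowerSeries.coeff_map, hξ, map_add, PowerSeries.coeff_C_mul,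
      coeff_spreadSer_one, uSer, PowerSeries.coeff_mk, one_mul, hα1] at h1
    simp at h1
    exact hcu h1
  -- so the weights agree modulo `ℓ - 1`
  have := weight_modEq_of_forms h5 Z T ζ ξ hζ hT _ hred hne
  have h2 : ℓ - 1 ∣ 2 := by
    have h' := (Nat.modEq_iff_dvd.mp this.symm)
    push_cast at h'
    have h'' : ((ℓ - 1 : ℕ) : ℤ) ∣ ((2 : ℕ) : ℤ) := by simpa using h'
    exact Int.natCast_dvd_natCast.mp h''
  have := Nat.le_of_dvd (by norm_num) h2
  omega

end Fermat.MF.Eisen
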