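import Fermat.Agent.MF.Eisen.Discriminant

/-!
# The prime `3` in an Eisenstein congruence

Modulo `9` forms of weight `k` are `R(Δ) E₄^(k % 3)`; together with `Δ ≡ S - S³ (mod 3)`,
`S = ∑ σ₃(n) qⁿ`, this excludes a congruence modulo `9` when `9 ∣ p + 1`.
-/

namespace Fermat.MF.Eisen

open UpperHalfPlane hiding I
open Fermat.MC
open scoped MatrixGroups Manifold

/-- `∑ σ_k(n) qⁿ`. -/
noncomputable def sigSer (k : ℕ) : PowerSeries ℤ :=
  PowerSeries.mk fun n => ∑ d ∈ n.divisors, (d : ℤ) ^ k

/-- The series of `E₄` is `1 + 240 σ₃`. -/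
theorem e4Ser_eq : e4Ser = 1 + 240 * sigSer 3 := by
  ext n
  rw [show (240 : PowerSeries ℤ) = PowerSeries.C 240 from (map_ofNat _ _).symm, map_add,
    PowerSeries.coeff_C_mul, sigSer, PowerSeries.coeff_mk, PowerSeries.coeff_one]
  rcases eq_or_ne n 0 with rfl | hn <;>
    simp [e4Ser, ModularCurve.eisenstein4, PowerSeries.coeff_mk,
      -PowerSeries.coeff_zero_eq_constantCoeff, *]

/-- The series of `E₆` is `1 - 504 σ₅`. -/
theorem eisenstein6_eq : eisenstein6 = 1 - 504 * sigSer 5 := by
  ext n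
  rw [show (504 : PowerSeries ℤ) = PowerSeries.C 504 from (map_ofNat _ _).symm, map_sub,
    PowerSeries.coeff_C_mul, sigSer, PowerSeries.coeff_mk, PowerSeries.coeff_one]
  rcases eq_or_ne n 0 with rfl | hn <;>
    simp [eisenstein6, PowerSeries.coeff_mk, -PowerSeries.coeff_zero_eq_constantCoeff, *]

/-- `120 S₃² = S₇ - S₃` for the series of `σ₃` and `σ₇`. -/
theorem sigSer_three_sq : 120 * sigSer 3 ^ 2 = sigSer 7 - sigSer 3 := by
  have h := levelOne_low (k := 8) (a := 2) (b := 0)
    (ModularForm.E (k := 8) (by norm_num)) (by omega)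
  have h' := congrArg qE h
  rw [qE_smul (bddPer_monoF 0 2 0), qE_monoF, qE,
    EisensteinSeries.E_qExpansion_coeff_zero (by norm_num) ⟨4, rfl⟩, one_smul, pow_zero, pow_zero,
    one_mul, mul_one] at h'
  have e : e4Ser ^ 2 = 1 + 480 * sigSer 7 := by
    apply map_int_injective
    rw [← h']
    ext n
    rw [EisensteinSeries.E_qExpansion_coeff (by norm_num) ⟨4, rfl⟩,
      show bernoulli 8 = -1 / 30 by decide +kernel, PowerSeries.coeff_map,
      show (480 : PowerSeries ℤ) = PowerSeries.C 480 from (map_ofNat _ _).symm, map_add,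
      PowerSeries.coeff_C_mul, sigSer, PowerSeries.coeff_mk, PowerSeries.coeff_one]
    rcases eq_or_ne n 0 with rfl | hn
    · simp
    · simp [hn, ArithmeticFunction.sigma_apply]
      norm_num
  rw [e4Ser_eq] at e
  have h480 : (480 : PowerSeries ℤ) ≠ 0 := fun h0 => by
    have := congrArg (PowerSeries.constantCoeff) h0
    rw [map_ofNat, map_zero] at this
    norm_num at this
  apply mul_left_cancel₀ h480
  linear_combination e

/-- `12 Δ` in terms of the divisor series. -/
theorem twelve_deltaSer :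
    12 * deltaSer = 5 * sigSer 3 + 7 * sigSer 5 + 1200 * sigSer 3 ^ 2 + 96000 * sigSer 3 ^ 3
      - 1764 * sigSer 5 ^ 2 := by
  have h := e4Ser_cube_sub_sq
  rw [e4Ser_eq, eisenstein6_eq] at h
  have h144 : (144 : PowerSeries ℤ) ≠ 0 := fun h0 => by
    have := congrArg (PowerSeries.constantCoeff) h0
    rw [map_ofNat, map_zero] at this
    norm_num at this
  apply mul_left_cancel₀ h144
  linear_combination -h

/-- The series `3` is nonzero. -/
private theorem three_ne_zero_series : (3 : PowerSeries ℤ) ≠ 0 := fun h0 => by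
  have := congrArg (PowerSeries.constantCoeff) h0
  rw [map_ofNat, map_zero] at this
  norm_num at this

/-- A series divisible by `3` vanishes modulo `3`. -/
private theorem red_three_eq_zero {φ : PowerSeries ℤ} (h : PowerSeries.C (3 : ℤ) ∣ φ) :
    red 3 φ = 0 := by
  obtain ⟨χ, rfl⟩ := h
  rw [map_mul, red_C, show ((3 : ℤ) : ZMod 3) = 0 from rfl, map_zero, zero_mul]

/-- Reduction fixes numerals. -/
theorem red_ofNat (ℓ : ℕ) [Fact ℓ.Prime] (n : ℕ) [n.AtLeastTwo] :
    red ℓ (OfNat.ofNat n) = OfNat.ofNat n := map_ofNat _ _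

/-- `Δ ≡ S - S³` modulo `3`. -/
theorem red_three_deltaSer :
    red 3 deltaSer = red 3 (sigSer 3) - red 3 (sigSer 3) ^ 3 := by
  set S := sigSer 3
  set T := sigSer 5
  set W := sigSer 7
  -- from the formulas for `12 Δ` and the square of the series of weight four
  have hkey : 12 * (deltaSer - S + S ^ 3) = (S - 2 * T + W)
      + 9 * (-S + T + 120 * S ^ 2 + 10668 * S ^ 3 - 196 * T ^ 2) := by
    linear_combination twelve_deltaSer + sigSer_three_sq
  -- `d ^ 3 - 2 d ^ 5 + d ^ 7` is divisible by `9`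
  have hd : PowerSeries.C (9 : ℤ) ∣ S - 2 * T + W := by
    rw [C_dvd_iff_coeff]
    intro n
    rw [show (2 : PowerSeries ℤ) = PowerSeries.C 2 from (map_ofNat _ _).symm, map_add, map_sub,
      PowerSeries.coeff_C_mul]
    simp only [S, T, W, sigSer, PowerSeries.coeff_mk, Finset.mul_sum, ← Finset.sum_sub_distrib,
      ← Finset.sum_add_distrib]
    refine Finset.dvd_sum fun d _ => ?_
    rw [show (d : ℤ) ^ 3 - 2 * (d : ℤ) ^ 5 + (d : ℤ) ^ 7 = (d : ℤ) ^ 3 *
      ((d : ℤ) ^ 2 - 1) ^ 2 by ring]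
    rcases Nat.lt_or_ge (d % 3) 1 with hd3 | hd3
    · obtain ⟨e, rfl⟩ : 3 ∣ d := Nat.dvd_of_mod_eq_zero (by omega)
      refine dvd_mul_of_dvd_left ⟨3 * (e : ℤ) ^ 3, ?_⟩ _
      push_cast; ring
    · have h3 : (3 : ℤ) ∣ (d : ℤ) ^ 2 - 1 := by
        refine (ZMod.intCast_zmod_eq_zero_iff_dvd _ 3).mp ?_
        push_cast
        have hcases : (d : ZMod 3) = 1 ∨ (d : ZMod 3) = 2 := by
          rcases (show d % 3 = 1 ∨ d % 3 = 2 by omega) with h | h <;> [left; right] <;>
            rw [← ZMod.natCast_mod, h] <;> rfl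
        rcases hcases with h | h <;> rw [h] <;> decide
      exact dvd_mul_of_dvd_right (dvd_trans ⟨1, by norm_num⟩ (pow_dvd_pow_of_dvd h3 2)) _
  have h9 : PowerSeries.C (9 : ℤ) ∣ 12 * (deltaSer - S + S ^ 3) := by
    rw [hkey]; exact hd.add (dvd_mul_of_dvd_left (by rw [map_ofNat]) _)
  -- divide by `3` and reduce
  have h3 : red 3 (4 * (deltaSer - S + S ^ 3)) = 0 := by
    obtain ⟨X, hX⟩ := h9
    have : 4 * (deltaSer - S + S ^ 3) = 3 * X := by
      apply mul_left_cancel₀ three_ne_zero_series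
      rw [map_ofNat] at hX
      linear_combination hX
    rw [this, map_mul, red_ofNat, ← map_ofNat (PowerSeries.C (R := ZMod 3)) 3,
      show (3 : ZMod 3) = 0 from rfl, map_zero, zero_mul]
  rw [map_mul, red_ofNat, ← map_ofNat (PowerSeries.C (R := ZMod 3)) 4,
    show (4 : ZMod 3) = 1 from rfl, map_one, one_mul, map_add, map_sub, map_pow] at h3
  linear_combination h3

/-- Modulo `9`, forms of weight `k` are `R(Δ) E₄^(k % 3)`. -/
theorem exists_poly_nine {k : ℕ} (f : ModularForm 𝒮ℒ (k : ℤ)) (ζ : PowerSeries ℤ)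
    (hζ : qE ⇑f = PowerSeries.map (Int.castRingHom ℂ) ζ) :
    ∃ R : Polynomial ℤ, PowerSeries.C (9 : ℤ) ∣ ζ - Polynomial.aeval deltaSer R *
      e4Ser ^ (k % 3) := by
  have hmem := mem_monoSpan (Int.castRingHom ℂ).range k f (mem_serRing_iff.mpr fun n => by
    rw [hζ]; simp)
  -- induction on the span of the monomials
  have key : ∀ g ∈ monoSpan (Int.castRingHom ℂ).range k, BddPer g ∧ ∃ ξ : PowerSeries ℤ,
      qE g = PowerSeries.map (Int.castRingHom ℂ) ξ ∧ ∃ R : Polynomial ℤ,
        PowerSeries.C (9 : ℤ) ∣ ξ - Polynomial.aeval deltaSer R * e4Ser ^ (k % 3) := by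
    intro g hg
    induction hg using Submodule.span_induction with
    | mem g hg =>
      obtain ⟨i, a, b, hw, rfl⟩ := hg
      refine ⟨bddPer_monoF i a b, _, qE_monoF i a b, Polynomial.X ^ i, ?_⟩
      rw [map_pow, Polynomial.aeval_X, ← deltaSer]
      have h3 : PowerSeries.C (9 : ℤ) ∣ e4Ser ^ 3 - 1 := by
        rw [e4Ser_eq, map_ofNat]
        exact ⟨80 * sigSer 3 + 19200 * sigSer 3 ^ 2 + 1536000 * sigSer 3 ^ 3, by ring⟩
      have h6 : PowerSeries.C (9 : ℤ) ∣ eisenstein6 - 1 := by
        rw [eisenstein6_eq, map_ofNat]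
        exact ⟨-56 * sigSer 5, by ring⟩
      obtain ⟨A, hA⟩ := h3.trans (sub_one_dvd_pow_sub_one (e4Ser ^ 3) (a / 3))
      obtain ⟨B, hB⟩ := h6.trans (sub_one_dvd_pow_sub_one eisenstein6 b)
      have ha : e4Ser ^ a = (e4Ser ^ 3) ^ (a / 3) * e4Ser ^ (k % 3) := by
        rw [← pow_mul, ← pow_add]
        congr 1
        omega
      refine ⟨deltaSer ^ i * e4Ser ^ (k % 3) * (A + B + PowerSeries.C 9 * A * B), ?_⟩
      change deltaSer ^ i * e4Ser ^ a * eisenstein6 ^ b - _ = _
      rw [ha, eq_add_of_sub_eq hA, eq_add_of_sub_eq hB]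
      ring
    | zero => exact ⟨bddPer_zero, 0, by rw [qE_zero, map_zero], 0, by simp⟩
    | add x y _ _ hx hy =>
      obtain ⟨hbx, ξ, hξ, R, hR⟩ := hx
      obtain ⟨hby, ξ', hξ', R', hR'⟩ := hy
      refine ⟨hbx.add hby, ξ + ξ', by rw [qE_add hbx hby, hξ, hξ', map_add], R + R', ?_⟩
      convert hR.add hR' using 1
      rw [map_add]; ring
    | smul c x _ hx =>
      obtain ⟨hbx, ξ, hξ, R, hR⟩ := hx
      obtain ⟨m, hm⟩ := c.2
      refine ⟨bddPer_smul hbx _, PowerSeries.C m * ξ, ?_, Polynomial.C m * R, ?_⟩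
      · rw [Subring.smul_def, qE_smul hbx, hξ, map_mul, PowerSeries.map_C,
          PowerSeries.smul_eq_C_mul, hm]
      · convert hR.mul_left (PowerSeries.C m) using 1
        rw [map_mul, Polynomial.aeval_C]
        simp
        ring
  -- apply it to `f`
  obtain ⟨-, ξ, hξ, R, hR⟩ := key _ hmem
  exact ⟨R, by rwa [map_int_injective (hζ.symm.trans hξ)]⟩

/-- No nonzero polynomial vanishes at `q` times a unit series. -/
theorem aeval_eq_zero_of_monic_series {R : Type*} [CommRing R] {u : PowerSeries R}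
    (hu : PowerSeries.constantCoeff u = 1) {P : Polynomial R}
    (h : Polynomial.aeval (PowerSeries.X * u) P = 0) : P = 0 := by
  by_contra hP
  have hc := congrArg (PowerSeries.coeff P.natTrailingDegree) h
  rw [Polynomial.aeval_eq_sum_range, map_sum, map_zero,
    Finset.sum_eq_single P.natTrailingDegree] at hc
  · rw [PowerSeries.coeff_smul, mul_pow] at hc
    have h0 := PowerSeries.coeff_X_pow_mul (u ^ P.natTrailingDegree) P.natTrailingDegree 0
    rw [zero_add] at h0
    rw [h0, PowerSeries.coeff_zero_eq_constantCoeff_apply, map_pow, hu, one_pow, smul_eq_mul,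
      mul_one] at hc
    exact Polynomial.coeff_natTrailingDegree_ne_zero.mpr hP hc
  · intro i _ hi
    rw [PowerSeries.coeff_smul]
    rcases lt_or_gt_of_ne hi with hlt | hlt
    · rw [Polynomial.coeff_eq_zero_of_lt_natTrailingDegree hlt, zero_smul]
    · rw [mul_pow, PowerSeries.coeff_X_pow_mul', if_neg (not_le.mpr hlt), smul_zero]
  · intro h'
    exact absurd (Finset.mem_range.mpr (Nat.lt_succ_of_le P.natTrailingDegree_le_natDegree)) h'

/-- Reduction commutes with evaluating an integral polynomial. -/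
theorem map_intCast_aeval (ℓ : ℕ) [Fact ℓ.Prime] (φ : PowerSeries ℤ) (R : Polynomial ℤ) :
    red ℓ (Polynomial.aeval φ R)
      = Polynomial.aeval (red ℓ φ) (R.map (Int.castRingHom (ZMod ℓ))) := by
  induction R using Polynomial.induction_on with
  | C a => simp [red]
  | add p q hp hq => simp [hp, hq]
  | monomial n a _ => simp [red]

variable (p : ℕ) [hp : Fact p.Prime]

/-- The unit in `Δ = q u` is `1 + O(q)` modulo `3`. -/
private theorem constantCoeff_etaUnit_three :
    PowerSeries.constantCoeff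
      (ModularCurve.dedekindEtaUnit.map (Int.castRingHom (ZMod 3))) = 1 := by
  rw [← PowerSeries.coeff_zero_eq_constantCoeff_apply, PowerSeries.coeff_map,
    PowerSeries.coeff_zero_eq_constantCoeff_apply,
      ModularCurve.constantCoeff_dedekindEtaUnit, map_one]

/-- A polynomial in `Δ` vanishing modulo `3` has all its coefficients divisible by `3`. -/
private theorem map_eq_zero_of_red_aeval_deltaSer {R : Polynomial ℤ}
    (hR : red 3 (Polynomial.aeval deltaSer R) = 0) : R.map (Int.castRingHom (ZMod 3)) = 0 := by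
  rw [map_intCast_aeval, deltaSer, map_mul, red, PowerSeries.map_X] at hR
  exact aeval_eq_zero_of_monic_series constantCoeff_etaUnit_three hR

/-- Modulo `3` a relation `A(Δ) + S B(Δ) = 0` forces `B = 0`, since `Δ = S - S³`. -/
private theorem eq_zero_of_aeval_deltaSer_three {A B : Polynomial (ZMod 3)}
    (heq : Polynomial.aeval (red 3 deltaSer) A
      = -(red 3 (sigSer 3) * Polynomial.aeval (red 3 deltaSer) B)) : B = 0 := by
  set D := red 3 deltaSer with hD
  set S := sigSer 3
  by_contra hB0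
  have hpoly : A ^ 3 - A * B ^ 2 - Polynomial.X * B ^ 3 = 0 := by
    have hDS : D = red 3 S - red 3 S ^ 3 := red_three_deltaSer
    refine aeval_eq_zero_of_monic_series constantCoeff_etaUnit_three ?_
    rw [show (PowerSeries.X * ModularCurve.dedekindEtaUnit.map (Int.castRingHom (ZMod 3))) = D by
      rw [hD, deltaSer, map_mul, red, PowerSeries.map_X]]
    simp only [map_sub, map_mul, map_pow, Polynomial.aeval_X, heq]
    rw [hDS]
    ring
  by_cases hA0 : A = 0
  · rw [hA0] at hpoly
    simp [pow_eq_zero_iff, hB0] at hpoly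
  have hdeg := congrArg Polynomial.natDegree
    (show A ^ 3 = A * B ^ 2 + Polynomial.X * B ^ 3 by linear_combination hpoly)
  have d1 : (A * B ^ 2).natDegree = A.natDegree + 2 * B.natDegree := by
    rw [Polynomial.natDegree_mul hA0 (pow_ne_zero _ hB0), Polynomial.natDegree_pow]
  have d2 : (Polynomial.X * B ^ 3).natDegree = 1 + 3 * B.natDegree := by
    rw [Polynomial.natDegree_mul Polynomial.X_ne_zero (pow_ne_zero _ hB0), Polynomial.natDegree_pow,
      Polynomial.natDegree_X]
  rw [Polynomial.natDegree_pow] at hdeg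
  rcases le_or_gt A.natDegree B.natDegree with hle | hlt
  · rw [Polynomial.natDegree_add_eq_right_of_natDegree_lt (by omega), d2] at hdeg
    omega
  · have := Polynomial.natDegree_add_le (A * B ^ 2) (Polynomial.X * B ^ 3)
    omega

/-- The weight `12 p` Hecke image of `Δ ^ p` has first coefficient one. -/
private theorem coeff_one_hecke_deltaSer_pow (a : ℤ) :
    (uSer p (deltaSer ^ p) + PowerSeries.C a * spreadSer p (deltaSer ^ p)).coeff 1 = 1 := by
  rw [map_add, PowerSeries.coeff_C_mul, coeff_spreadSer_one, uSer, PowerSeries.coeff_mk,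
    one_mul, deltaSer, mul_pow]
  have h := PowerSeries.coeff_X_pow_mul (ModularCurve.dedekindEtaUnit ^ p) p 0
  rw [zero_add] at h
  rw [h, PowerSeries.coeff_zero_eq_constantCoeff_apply, map_pow,
    ModularCurve.constantCoeff_dedekindEtaUnit]
  simp

/-- There is no Eisenstein congruence modulo `9` when `9 ∣ p + 1`. -/
theorem false_of_congPair_three {M : ℕ} (P : CongPair p M) (hM : 9 ∣ M)
    (h9 : 9 ∣ p + 1) : False := by
  obtain ⟨F, hF⟩ := exists_powForm deltaForm deltaSer qE_deltaForm p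
  have hj : 1 ≤ 12 * p := by have := hp.out.pos; omega
  obtain ⟨T, hT⟩ := exists_heckeT p hj F _ hF
  obtain ⟨Z, ζ, hζ, hdvd⟩ := exists_twist p P F _ hF
  set α := deltaSer ^ p with hα
  set ξ := uSer p α + PowerSeries.C ((p : ℤ) ^ (12 * p - 1)) * spreadSer p α with hξ
  set c := (p : ℤ) - 1 with hc
  obtain ⟨R0, hR0⟩ := exists_poly_nine T ξ hT
  obtain ⟨R2, hR2⟩ := exists_poly_nine Z ζ hζ
  rw [show (12 * p) % 3 = 0 by omega, pow_zero, mul_one] at hR0
  rw [show (2 + 12 * p) % 3 = 2 by omega] at hR2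
  have h1 : PowerSeries.C (9 : ℤ) ∣ ζ + PowerSeries.C c * ξ := by
    have hM' : PowerSeries.C (9 : ℤ) ∣ PowerSeries.C (M : ℤ) :=
      map_dvd PowerSeries.C (Int.natCast_dvd_natCast.mpr hM)
    have h2 := hM'.trans hdvd
    have h9' : PowerSeries.C (9 : ℤ) ∣
        PowerSeries.C ((p : ℤ) ^ (12 * p) + (p : ℤ) ^ (12 * p - 1)) := by
      refine map_dvd PowerSeries.C ?_
      rw [show 12 * p = (12 * p - 1) + 1 by omega, Nat.add_sub_cancel, pow_succ, ← mul_add_one]
      exact dvd_mul_of_dvd_right (by exact_mod_cast h9) _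
    have := h2.add ((h9'.mul_right (spreadSer p α)).mul_left (PowerSeries.C c))
    convert this using 1
    rw [hξ, map_add]
    ring
  set W := R2 + Polynomial.C c * R0 with hW
  set S := sigSer 3 with hS
  set D2 := Polynomial.aeval deltaSer R2 with hD2
  have hCc : Polynomial.aeval deltaSer (Polynomial.C c : Polynomial ℤ) = PowerSeries.C c := by
    rw [Polynomial.aeval_C]; rfl
  have h2 : PowerSeries.C (9 : ℤ) ∣ Polynomial.aeval deltaSer W + 3 * S * D2 := by
    have := ((h1.sub hR2).sub (hR0.mul_left (PowerSeries.C c))).sub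
      (dvd_mul_right (PowerSeries.C (9 : ℤ)) (D2 * (53 * S + 6400 * S ^ 2)))
    convert this using 1
    rw [hW, map_add, map_mul, hCc, e4Ser_eq, ← hS, ← hD2, map_ofNat]
    ring
  have hc3 : PowerSeries.C (3 : ℤ) ∣ PowerSeries.C (9 : ℤ) := map_dvd PowerSeries.C (by norm_num)
  have hWmap : W.map (Int.castRingHom (ZMod 3)) = 0 := by
    apply map_eq_zero_of_red_aeval_deltaSer
    have := red_three_eq_zero (hc3.trans h2)
    rw [map_add, map_mul, map_mul, red_ofNat, ← map_ofNat (PowerSeries.C (R := ZMod 3)) 3,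
      show (3 : ZMod 3) = 0 from rfl, map_zero, zero_mul, zero_mul, add_zero] at this
    exact this
  obtain ⟨W1, hW1⟩ : ∃ W1, W = Polynomial.C 3 * W1 := by
    refine (Polynomial.C_dvd_iff_dvd_coeff _ _).mpr fun i => ?_
    have := congrArg (fun q => q.coeff i) hWmap
    simp only [Polynomial.coeff_map, Polynomial.coeff_zero, eq_intCast] at this
    exact (ZMod.intCast_zmod_eq_zero_iff_dvd _ 3).mp this
  have h3 : PowerSeries.C (3 : ℤ) ∣ Polynomial.aeval deltaSer W1 + S * D2 := by
    obtain ⟨χ, hχ⟩ := h2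
    refine ⟨χ, mul_left_cancel₀ three_ne_zero_series ?_⟩
    rw [hW1, map_mul, Polynomial.aeval_C, map_ofNat, map_ofNat] at hχ
    rw [map_ofNat]
    linear_combination hχ
  -- reduction modulo `3`
  set D := red 3 deltaSer with hD
  set A := W1.map (Int.castRingHom (ZMod 3)) with hA
  set B := R2.map (Int.castRingHom (ZMod 3)) with hB
  have heq : Polynomial.aeval D A = -(red 3 S * Polynomial.aeval D B) := by
    have := red_three_eq_zero h3
    rw [map_add, map_mul, map_intCast_aeval, hD2, map_intCast_aeval] at this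
    exact eq_neg_of_add_eq_zero_left this
  have hB0 : B ≠ 0 := by
    intro hB0
    have hcu : (c : ZMod 3) ≠ 0 := by
      rw [hc, ne_eq, ZMod.intCast_zmod_eq_zero_iff_dvd]
      intro hd
      have : (3 : ℤ) ∣ (p : ℤ) + 1 := (by norm_num : (3 : ℤ) ∣ 9).trans (by exact_mod_cast h9)
      omega
    have hR0m : R0.map (Int.castRingHom (ZMod 3)) = 0 := by
      have := hWmap
      rw [hW, Polynomial.map_add, Polynomial.map_mul, Polynomial.map_C, ← hB, hB0, zero_add,
        mul_eq_zero] at this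
      exact this.resolve_left (by simpa [Polynomial.C_eq_zero, -map_intCast] using hcu)
    have hξ3 := red_three_eq_zero (hc3.trans hR0)
    rw [map_sub, map_intCast_aeval, hR0m, map_zero, sub_zero] at hξ3
    have := congrArg (PowerSeries.coeff 1) hξ3
    rw [red, PowerSeries.coeff_map, hξ, hα, coeff_one_hecke_deltaSer_pow, map_one, map_zero] at this
    exact one_ne_zero this
  exact hB0 (eq_zero_of_aeval_deltaSer_three heq)

end Fermat.MF.Eisen
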