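import Fermat.Agent.MF.Eisen.Twist
import Fermat.Agent.MF.Eisen.Three
import Mathlib.RingTheory.Valuation.LocalSubring
import Mathlib.Analysis.Complex.Polynomial.Basic
import Mathlib.FieldTheory.IsAlgClosed.Basic

/-!
# Level one forms at the points of a one-parameter family of curves

The curve `y² + π x y + y = x³` has invariants `c₄ = π⁴ - 24 π`, `c₆ = π⁶ - 36 π³ + 216`,
`Δ = π³ - 27`. A level one form with coefficients in a subring gives a polynomial in `π` with
coefficients in the subring.
-/

namespace Fermat.MF.Eisen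

open UpperHalfPlane hiding I
open Fermat.MC Filter Topology
open ModularForm (E₄ E₆)
open scoped MatrixGroups Manifold

local notation "Δ" => ModularForm.discriminant

/-- A valuation ring of `ℂ` over `2`. -/
theorem exists_dyadic : ∃ O : Subring ℂ, (∀ z : ℂ, ∀ n, 0 < n → z ^ n = 1 → z ∈ O) ∧
    (∀ a : ℤ, Odd a → (a : ℂ)⁻¹ ∈ O) ∧ (2 : ℂ)⁻¹ ∉ O := by
  set A : Subring ℂ := (Int.castRingHom ℂ).range
  set e : ℤ →+* A := (Int.castRingHom ℂ).rangeRestrict
  -- `2` is not a unit in the integers, so some valuation ring lies over it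
  have hI : (Ideal.map e (Ideal.span {2})) ≠ ⊤ := by
    intro h
    have hinj : Function.Injective e := fun a b hab => Int.cast_injective (α := ℂ)
      (congrArg Subtype.val hab)
    have := congrArg (Ideal.comap e) h
    rw [Ideal.comap_map_of_surjective e (RingHom.rangeRestrict_surjective _), Ideal.comap_top,
      ← RingHom.ker_eq_comap_bot, (RingHom.injective_iff_ker_eq_bot e).mp hinj, sup_bot_eq,
      Ideal.span_singleton_eq_top] at this
    exact absurd (Int.isUnit_iff.mp this) (by norm_num)
  obtain ⟨V, hAV, hIV⟩ := Ideal.image_subset_nonunits_valuationSubring _ hI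
  have hint : ∀ a : ℤ, (a : ℂ) ∈ V := fun a => hAV ⟨a, rfl⟩
  have h2 : (2 : ℂ) ∈ V.nonunits := by
    apply hIV
    exact ⟨e 2, Ideal.mem_map_of_mem e
      (Ideal.mem_span_singleton_self 2), by show ((2 : ℤ) : ℂ) = 2; norm_num⟩
  refine ⟨V.toSubring, fun z n hn hz => ?_, fun a ha => ?_, ?_⟩
  -- roots of unity are integral
  · rcases V.mem_or_inv_mem z with h | h
    · exact h
    · have e' : z = (z⁻¹) ^ (n - 1) := by
        rw [inv_pow, eq_comm, inv_eq_iff_eq_inv, eq_comm, inv_eq_of_mul_eq_one_right]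
        rw [← pow_succ', Nat.sub_add_cancel hn, hz]
      rw [e']
      exact pow_mem h _
  -- an odd integer is one more than a nonunit, so a unit
  · by_contra hna
    have hnu : (a : ℂ) ∈ V.nonunits := V.mem_nonunits_iff_or.mpr (Or.inr hna)
    obtain ⟨b, rfl⟩ := ha
    have hb : ((b : ℤ) : ℂ) * 2 ∈ V.nonunits := by
      rw [ValuationSubring.mem_nonunits_iff, map_mul]
      exact lt_of_le_of_lt (mul_le_of_le_one_left' ((V.valuation_le_one_iff _).mpr (hint b)))
        (V.mem_nonunits_iff.mp h2)
    have h1 : (1 : ℂ) ∈ V.nonunits := by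
      have := sub_mem hnu hb
      push_cast at this
      ring_nf at this
      exact this
    rw [ValuationSubring.mem_nonunits_iff, map_one] at h1
    exact lt_irrefl _ h1
  · rcases V.mem_nonunits_iff_or.mp h2 with h | h
    · norm_num at h
    · exact h

/-- `c₄` of the family. -/
noncomputable def famA : Polynomial ℂ := Polynomial.X ^ 4 - 24 * Polynomial.X

/-- `c₆` of the family. -/
noncomputable def famB : Polynomial ℂ := Polynomial.X ^ 6 - 36 * Polynomial.X ^ 3 + 216

/-- The discriminant of the family. -/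
noncomputable def famD : Polynomial ℂ := Polynomial.X ^ 3 - 27

/-- The point `x` of the family is realised by `τ` with scale `lam`. -/
def Realises (x lam : ℂ) (τ : ℍ) : Prop :=
  lam ^ 4 * E₄ τ = famA.eval x ∧ lam ^ 6 * E₆ τ = famB.eval x ∧ lam ^ 12 * Δ τ = famD.eval x

/-- Infinitely many points of the family are realised. -/
theorem exists_realises (s : Finset ℂ) : ∃ x, x ∉ s ∧ ∃ lam τ, Realises x lam τ := by
  have h4 := tendsto_E₄
  have h6 := tendsto_E₆
  have hd : Tendsto Δ atImInfty (𝓝 0) := ModularForm.discriminant_isZeroAtImInfty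
  -- high in the half plane the `j`-invariant avoids the finitely many values
  have hs : ∀ᶠ τ in atImInfty, ∀ x ∈ s, famD.eval x * E₄ τ ^ 3 ≠ famA.eval x ^ 3 * Δ τ ∨
      famD.eval x = 0 := by
    rw [eventually_all_finset]
    intro x _
    by_cases hx : famD.eval x = 0
    · exact Eventually.of_forall fun τ => Or.inr hx
    · have := ((h4.pow 3).const_mul (famD.eval x)).sub (hd.const_mul (famA.eval x ^ 3))
      simp only [one_pow, mul_one, mul_zero, sub_zero] at this
      exact (this.eventually_ne hx).mono fun τ h => Or.inl (sub_ne_zero.mp h)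
  obtain ⟨τ, hτs, hτ4, hτ6⟩ := (hs.and ((h4.eventually_ne one_ne_zero).and
    (h6.eventually_ne one_ne_zero))).exists
  -- a parameter with that `j`-invariant
  set j := E₄ τ ^ 3 / Δ τ with hj
  have hΔ : Δ τ ≠ 0 := ModularForm.discriminant_ne_zero τ
  have hj0 : j ≠ 0 := div_ne_zero (pow_ne_zero _ hτ4) hΔ
  have hdeg : (famA ^ 3 - Polynomial.C j * famD).natDegree = 12 := by
    unfold famA famD; compute_degree!
  obtain ⟨x, hx⟩ := IsAlgClosed.exists_root (famA ^ 3 - Polynomial.C j * famD)
    (fun h => by rw [Polynomial.natDegree_eq_zero_iff_degree_le_zero.mpr h.le] at hdeg; omega)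
  simp only [Polynomial.IsRoot, Polynomial.eval_sub, Polynomial.eval_pow, Polynomial.eval_mul,
    Polynomial.eval_C, sub_eq_zero] at hx
  have hD : famD.eval x ≠ 0 := by
    intro h0
    have hA : famA.eval x = 0 := by
      have : famA.eval x ^ 3 = 0 := by rw [hx, h0, mul_zero]
      exact pow_eq_zero_iff three_ne_zero |>.mp this
    simp [famD] at h0
    simp [famA] at hA
    have : (3 : ℂ) * x = 0 := by linear_combination hA - x * h0
    have hx0 : x = 0 := by simpa using this
    rw [hx0] at h0
    norm_num at h0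
  have hA0 : famA.eval x ≠ 0 := fun h => mul_ne_zero hj0 hD (by rw [← hx, h]; simp)
  refine ⟨x, fun hxs => ?_, ?_⟩
  · rcases hτs x hxs with h | h
    · apply h
      rw [hx, hj]
      field_simp
    · exact hD h
  -- the scaling `λ`, fixed up to `i` by the sign of the weight six value
  obtain ⟨lam, hlam⟩ := IsAlgClosed.exists_pow_nat_eq (famA.eval x / E₄ τ) (n := 4) (by norm_num)
  have e4 : lam ^ 4 * E₄ τ = famA.eval x := by rw [hlam]; field_simp
  have e12 : lam ^ 12 * Δ τ = famD.eval x := by
    refine mul_left_cancel₀ hj0 ?_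
    rw [← hx, ← e4, hj]
    field_simp
  have hE := ModularForm.discriminant_eq_E₄_cube_sub_E₆_sq τ
  have e6 : (lam ^ 6 * E₆ τ) ^ 2 = famB.eval x ^ 2 := by
    have hAB : famA.eval x ^ 3 - 1728 * famD.eval x = famB.eval x ^ 2 := by
      simp [famA, famB, famD]; ring
    rw [← hAB, ← e4, ← e12, hE]
    ring
  rcases sq_eq_sq_iff_eq_or_eq_neg.mp e6 with h | h
  · exact ⟨lam, τ, e4, h, e12⟩
  · have hI : Complex.I ^ 2 = -1 := Complex.I_sq
    refine ⟨Complex.I * lam, τ, ?_, ?_, ?_⟩
    · rw [mul_pow, show Complex.I ^ 4 =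
        1 by rw [show (4 : ℕ) = 2 * 2 from rfl, pow_mul, hI]; norm_num,
        one_mul]
      exact e4
    · rw [mul_pow, show Complex.I ^ 6 =
        -1 by rw [show (6 : ℕ) = 2 * 3 from rfl, pow_mul, hI]; norm_num,
        neg_one_mul, neg_mul, h, neg_neg]
    · rw [mul_pow, show Complex.I ^ 12 =
        1 by rw [show (12 : ℕ) = 2 * 6 from rfl, pow_mul, hI]; norm_num,
        one_mul]
      exact e12

/-- A polynomial vanishing at all realised points is zero. -/
theorem eq_zero_of_realises {R : Polynomial ℂ}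
    (h : ∀ x lam τ, Realises x lam τ → R.eval x = 0) : R = 0 := by
  by_contra hR
  obtain ⟨x, hx, lam, τ, hr⟩ := exists_realises R.roots.toFinset
  exact hx (Multiset.mem_toFinset.mpr ((Polynomial.mem_roots hR).mpr (h x lam τ hr)))

/-- Polynomials with coefficients in `O`. -/
noncomputable def polyRing (O : Subring ℂ) : Subring (Polynomial ℂ) :=
  (Polynomial.mapRingHom O.subtype).range

/-- The variable is in `polyRing`. -/
theorem X_mem_polyRing (O : Subring ℂ) : Polynomial.X ∈ polyRing O :=
  ⟨Polynomial.X, by simp⟩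

/-- The constants of `O` are in `polyRing`. -/
theorem C_mem_polyRing {O : Subring ℂ} {c : ℂ} (hc : c ∈ O) : Polynomial.C c ∈ polyRing O :=
  ⟨Polynomial.C ⟨c, hc⟩, by simp⟩

/-- Polynomials in `polyRing` have coefficients in `O`. -/
theorem coeff_mem_of_mem_polyRing {O : Subring ℂ} {R : Polynomial ℂ} (h : R ∈ polyRing O) (n : ℕ) :
    R.coeff n ∈ O := by
  obtain ⟨Q, rfl⟩ := h
  simp

/-- `c₄` of the family has integral coefficients. -/
theorem famA_mem (O : Subring ℂ) : famA ∈ polyRing O :=
  sub_mem (pow_mem (X_mem_polyRing O) 4) (mul_mem (natCast_mem _ 24) (X_mem_polyRing O))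

/-- `c₆` of the family has integral coefficients. -/
theorem famB_mem (O : Subring ℂ) : famB ∈ polyRing O :=
  add_mem (sub_mem (pow_mem (X_mem_polyRing O) 6) (mul_mem (natCast_mem _ 36)
    (pow_mem (X_mem_polyRing O) 3))) (natCast_mem _ 216)

/-- The discriminant of the family has integral coefficients. -/
theorem famD_mem (O : Subring ℂ) : famD ∈ polyRing O :=
  sub_mem (pow_mem (X_mem_polyRing O) 3) (natCast_mem _ 27)

/-- The values of an integral level one form on the family. -/
theorem exists_famValue (O : Subring ℂ) {k : ℕ} (f : ModularForm 𝒮ℒ (k : ℤ))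
    (hf : qE ⇑f ∈ serRing O) : ∃ R ∈ polyRing O,
      ∀ x lam τ, Realises x lam τ → R.eval x = lam ^ k * f τ := by
  have hmem := mem_monoSpan O k f hf
  refine Submodule.span_induction (p := fun g _ => ∃ R ∈ polyRing O,
      ∀ x lam τ, Realises x lam τ → R.eval x = lam ^ k * g τ) ?_ ?_ ?_ ?_ hmem
  · rintro g ⟨i, a, b, hw, rfl⟩
    refine ⟨famD ^ i * famA ^ a * famB ^ b, mul_mem (mul_mem (pow_mem (famD_mem O) i)
      (pow_mem (famA_mem O) a)) (pow_mem (famB_mem O) b), fun x lam τ hr => ?_⟩
    simp only [Polynomial.eval_mul, Polynomial.eval_pow, ← hr.1, ← hr.2.1, ← hr.2.2, monoF,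
      Pi.mul_apply, Pi.pow_apply, ← hw, pow_add, pow_mul]
    ring
  · exact ⟨0, zero_mem _, by simp⟩
  · rintro g g' _ _ ⟨R, hR, h⟩ ⟨R', hR', h'⟩
    exact ⟨R + R', add_mem hR hR', fun x lam τ hr => by simp [h x lam τ hr, h' x lam τ hr, mul_add]⟩
  · rintro c g _ ⟨R, hR, h⟩
    refine ⟨Polynomial.C (c : ℂ) * R, mul_mem (C_mem_polyRing c.2) hR, fun x lam τ hr => ?_⟩
    simp [h x lam τ hr, Subring.smul_def]
    ring

end Fermat.MF.Eisen
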