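import Fermat.Agent.MF.Eisen.Series
import Fermat.Agent.MF.Cosets
import Fermat.Agent.MF.DedekindPsi

/-!
# The trace from `Γ₀(p)` to level one

Level one forms slashed by `diag (p, 1)` are forms on `Γ₀(p)` with known expansions at both cusps;
`Eisenstein` and `EisHom` compare with them.
-/

namespace Fermat.MF.Eisen

open UpperHalfPlane hiding I
open Fermat.MC CongruenceSubgroup ModularForm
open scoped MatrixGroups ModularForm Manifold

variable {p : ℕ}

/-- Invariance of a function under `Γ₀(p)` in weight `k`. -/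
def IsInv (p : ℕ) (k : ℤ) (f : ℍ → ℂ) : Prop :=
  ∀ γ ∈ Gamma0 p, (f ∣[k] γ) = f

/-- Invariance is stable under products, with the weights added. -/
theorem IsInv.mul {k l : ℤ} {f g : ℍ → ℂ} (hf : IsInv p k f) (hg : IsInv p l g) :
    IsInv p (k + l) (f * g) := fun γ hγ => by
  rw [ModularForm.mul_slash_SL2, hf γ hγ, hg γ hγ]

/-- Invariance is stable under scalars. -/
theorem IsInv.smul {k : ℤ} {f : ℍ → ℂ} (hf : IsInv p k f) (c : ℂ) :
    IsInv p k (c • f) := fun γ hγ => by rw [ModularForm.SL_smul_slash, hf γ hγ]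

variable [hp : Fact p.Prime]

/-- Representatives of the cosets: `1` and `(S T^j)⁻¹`. -/
def cosetRep : Option (Fin p) → SL(2, ℤ)
  | none => 1
  | some j => (ModularGroup.S * ModularGroup.T ^ (j : ℕ))⁻¹

omit hp in
/-- The first column of a representative. -/
theorem cosetRep_col (j : Fin p) :
    cosetRep (some j) 0 0 = (j : ℕ) ∧ cosetRep (some j) 1 0 = -1 := by
  simp [cosetRep, ← zpow_natCast, Matrix.SpecialLinearGroup.coe_inv, ModularGroup.coe_S,
    ModularGroup.coe_T_zpow, Matrix.adjugate_fin_two, Matrix.mul_apply, Fin.sum_univ_two]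

/-- The representatives of the cosets of `Γ₀(p)`. -/
theorem cosetRep_bijective :
    Function.Bijective fun o : Option (Fin p) => (QuotientGroup.mk (cosetRep o) : CosetX p) := by
  classical
  have : NeZero p := ⟨hp.out.ne_zero⟩
  have : Fintype (CosetX p) := Fintype.ofFinite _
  rw [Fintype.bijective_iff_injective_and_card]
  refine ⟨?_, ?_⟩
  · rintro (_ | i) (_ | j) h <;> simp only [mk_eq_mk_iff] at h
    · rfl
    · simp [(cosetRep_col j).1, (cosetRep_col j).2] at h
      simp [cosetRep] at h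
      exact absurd (Int.eq_one_of_dvd_one (Int.natCast_nonneg p) h)
        (by exact_mod_cast hp.out.ne_one)
    · simp [(cosetRep_col i).1, (cosetRep_col i).2] at h
      simp [cosetRep] at h
      exact absurd (Int.eq_one_of_dvd_one (Int.natCast_nonneg p) h)
        (by exact_mod_cast hp.out.ne_one)
    · rw [(cosetRep_col i).1, (cosetRep_col i).2, (cosetRep_col j).1, (cosetRep_col j).2] at h
      have h' : (p : ℤ) ∣ ((j : ℕ) : ℤ) - ((i : ℕ) : ℤ) := by
        simpa [sub_eq_add_neg, add_comm] using h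
      have h2 : ((i : ℕ) : ℤ) = (j : ℕ) := by
        have := Int.eq_zero_of_abs_lt_dvd h' (by
          rw [abs_lt]; constructor <;> omega)
        omega
      exact congrArg some (Fin.ext (by exact_mod_cast h2))
  · rw [Fintype.card_option, Fintype.card_fin, ← Nat.card_eq_fintype_card, card_cosetX]
    have := dedekindPsi_prime_pow hp.out 0
    simpa using this.symm

omit hp in
/-- The slash by the inverse of a representative depends only on the coset. -/
theorem slash_rep_congr {k : ℤ} {f : ℍ → ℂ} (hf : IsInv p k f) {a b : SL(2, ℤ)}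
    (h : (QuotientGroup.mk a : CosetX p) = QuotientGroup.mk b) :
    (f ∣[k] a⁻¹) = f ∣[k] b⁻¹ := by
  have h' : a⁻¹ * b ∈ Gamma0 p := QuotientGroup.eq.mp h
  have e : a⁻¹ = (a⁻¹ * b) * b⁻¹ := by group
  rw [e, SlashAction.slash_mul, hf _ h']

/-- The trace of `f` to level one. -/
noncomputable def traceFn (p : ℕ) (k : ℤ) (f : ℍ → ℂ) : ℍ → ℂ :=
  f + ∑ j ∈ Finset.range p, f ∣[k] (ModularGroup.S * ModularGroup.T ^ j)

omit hp in
/-- The trace as a sum over the representatives. -/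
theorem traceFn_eq_sum (k : ℤ) (f : ℍ → ℂ) :
    traceFn p k f = ∑ o : Option (Fin p), f ∣[k] (cosetRep o)⁻¹ := by
  rw [Fintype.sum_option, traceFn, ← Fin.sum_univ_eq_sum_range]
  simp [cosetRep]

/-- The trace is invariant under level one. -/
theorem traceFn_slash {k : ℤ} {f : ℍ → ℂ} (hf : IsInv p k f) (δ : SL(2, ℤ)) :
    (traceFn p k f ∣[k] δ) = traceFn p k f := by
  set e := Equiv.ofBijective _ (cosetRep_bijective (p := p))
  set F : CosetX p → ℍ → ℂ := fun x => f ∣[k] (cosetRep (e.symm x))⁻¹ with hF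
  have hFmk : ∀ g : SL(2, ℤ), F (QuotientGroup.mk g) = f ∣[k] g⁻¹ := fun g =>
    slash_rep_congr hf (e.apply_symm_apply _)
  have : NeZero p := ⟨hp.out.ne_zero⟩
  have : Fintype (CosetX p) := Fintype.ofFinite _
  have hsum : traceFn p k f = ∑ x : CosetX p, F x := by
    rw [traceFn_eq_sum, ← e.sum_comp]
    exact Finset.sum_congr rfl fun o _ => (hFmk _).symm
  rw [hsum, SlashAction.sum_slash]
  refine Fintype.sum_equiv (MulAction.toPerm δ⁻¹) _ _ fun x => ?_
  induction x using QuotientGroup.induction_on with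
  | H g =>
    change _ = F (QuotientGroup.mk (δ⁻¹ * g))
    rw [hFmk, hFmk, ← SlashAction.slash_mul, mul_inv_rev, inv_inv]

/-- `heckeMatrix p 0` times a power of `T` is `heckeMatrix p j`. -/
theorem heckeMatrix_zero_mul_T_pow (j : ℕ) :
    heckeMatrix p 0 * ((ModularGroup.T ^ j : SL(2, ℤ)) : GL (Fin 2) ℝ) = heckeMatrix p j := by
  apply Matrix.GeneralLinearGroup.ext
  intro a b
  have e : ((ModularGroup.T ^ j : SL(2, ℤ)) : Matrix (Fin 2) (Fin 2) ℤ) = !![1, (j : ℤ); 0, 1] := by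
    rw [← zpow_natCast, ModularGroup.coe_T_zpow]
  fin_cases a <;> fin_cases b <;>
    simp [val_heckeMatrix hp.out.ne_zero, e, Matrix.mul_apply, Fin.sum_univ_two, -map_pow]

/-- The trace as a level one form, with its q-series. -/
theorem exists_trace {k : ℕ} {f f' : ℍ → ℂ} (hinv : IsInv p k f) (hf : BddPer f)
    (hf' : BddPer f') (c : ℂ)
    (hS : (f ∣[(k : ℤ)] ModularGroup.S) = c • (f' ∣[(k : ℤ)] heckeMatrix p 0)) :
    ∃ F : ModularForm 𝒮ℒ (k : ℤ),
      qE F = qE f + c • qE (heckeU k p f') := by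
  have : NeZero p := ⟨hp.out.ne_zero⟩
  have hfun : traceFn p k f = f + c • heckeU k p f' := by
    rw [traceFn, heckeU_def, Finset.smul_sum]
    congr 1
    refine Finset.sum_congr rfl fun j _ => ?_
    rw [SlashAction.slash_mul, hS, ModularForm.SL_smul_slash, ModularForm.SL_slash,
      ← SlashAction.slash_mul, heckeMatrix_zero_mul_T_pow]
  have hb : BddPer (f + c • heckeU k p f') := hf.add (bddPer_smul (bddPer_heckeU p hf' k) c)
  refine ⟨levelOneForm k (f + c • heckeU k p f') hb.1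
    (fun γ z => slash_eq_iff_smul.mp (by rw [← hfun]; exact traceFn_slash hinv γ) z) hb.2.2, ?_⟩
  rw [coe_levelOneForm, qE_add hf (bddPer_smul (bddPer_heckeU p hf' k) c),
    qE_smul (bddPer_heckeU p hf' k)]

/-- `diag (p, 1)` conjugates `Γ₀(p)` into `SL(2, ℤ)`. -/
theorem diag_mul_SL {γ : SL(2, ℤ)} (hγ : γ ∈ Gamma0 p) : ∃ δ : SL(2, ℤ),
    heckeDiagMatrix p * (γ : GL (Fin 2) ℝ) = (δ : GL (Fin 2) ℝ) * heckeDiagMatrix p ∧
      δ 0 1 = p * γ 0 1 ∧ δ 1 0 * p = γ 1 0 ∧ δ 1 1 = γ 1 1 := by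
  rw [Gamma0_mem, ZMod.intCast_zmod_eq_zero_iff_dvd] at hγ
  obtain ⟨c, hc⟩ := hγ
  have hdet : γ 0 0 * γ 1 1 - γ 0 1 * γ 1 0 = 1 := by
    have := γ.det_coe; rwa [Matrix.det_fin_two] at this
  obtain ⟨δ, hδ⟩ : ∃ δ : SL(2, ℤ),
      (δ : Matrix (Fin 2) (Fin 2) ℤ) = !![γ 0 0, (p : ℤ) * γ 0 1; c, γ 1 1] :=
    ⟨⟨_, by rw [Matrix.det_fin_two_of]; linear_combination hdet + γ 0 1 * hc⟩, rfl⟩
  refine ⟨δ, ?_, by simp [hδ], by simp [hδ, hc, mul_comm], by simp [hδ]⟩
  apply Matrix.GeneralLinearGroup.ext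
  intro a b
  fin_cases a <;> fin_cases b <;>
    simp [val_heckeDiagMatrix hp.out.ne_zero, Matrix.mul_apply, Fin.sum_univ_two, hc, hδ, mul_comm]

/-- `diag (p, 1) S = S · heckeMatrix p 0`. -/
theorem diag_mul_S : heckeDiagMatrix p * ((ModularGroup.S : SL(2, ℤ)) : GL (Fin 2) ℝ) =
    ((ModularGroup.S : SL(2, ℤ)) : GL (Fin 2) ℝ) * heckeMatrix p 0 := by
  apply Matrix.GeneralLinearGroup.ext
  intro a b
  fin_cases a <;> fin_cases b <;>
    simp [val_heckeMatrix hp.out.ne_zero, val_heckeDiagMatrix hp.out.ne_zero,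
      ModularGroup.coe_S, Matrix.mul_apply, Fin.sum_univ_two]

/-- A form of level one is invariant. -/
theorem levelOne_slash {k : ℤ} (A : ModularForm 𝒮ℒ k) (γ : SL(2, ℤ)) :
    (⇑A ∣[k] γ) = ⇑A := by
  rw [ModularForm.SL_slash]
  exact SlashInvariantFormClass.slash_action_eq A _ ⟨γ, rfl⟩

/-- A form of level one slashed by `diag (p, 1)` is invariant under `Γ₀(p)`. -/
theorem isInv_diag {k : ℤ} (A : ModularForm 𝒮ℒ k) :
    IsInv p k (⇑A ∣[k] heckeDiagMatrix p) := fun γ hγ => by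
  obtain ⟨δ, hδ, -⟩ := diag_mul_SL hγ
  rw [ModularForm.SL_slash, ← SlashAction.slash_mul, hδ, SlashAction.slash_mul,
    ← ModularForm.SL_slash, levelOne_slash]

/-- A form of level one slashed by `diag (p, 1)`, at the cusp `0`. -/
theorem diag_slash_S {k : ℤ} (A : ModularForm 𝒮ℒ k) :
    ((⇑A ∣[k] heckeDiagMatrix p) ∣[k] ModularGroup.S) = ⇑A ∣[k] heckeMatrix p 0 := by
  rw [ModularForm.SL_slash, ← SlashAction.slash_mul, diag_mul_S, SlashAction.slash_mul,
    ← ModularForm.SL_slash, levelOne_slash]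

/-- The slash by `diag (p, 1)` is a multiple of `f (p τ)`. -/
theorem diag_slash_eq (k : ℤ) (f : ℍ → ℂ) :
    haveI : NeZero p := ⟨hp.out.ne_zero⟩
    (f ∣[k] heckeDiagMatrix p) = ((p : ℂ) ^ (k - 1)) • scaleF p f := by
  have : NeZero p := ⟨hp.out.ne_zero⟩
  funext τ
  rw [slash_heckeDiagMatrix_apply k hp.out.ne_zero, Pi.smul_apply, smul_eq_mul, scaleF,
    Function.comp_apply]
  congr 2
  ext
  rw [coe_heckeDiagMatrix_smul hp.out.ne_zero, coe_scalePoint]

end Fermat.MF.Eisen
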