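import Fermat.Agent.MF.ParabolicDim
import Fermat.Agent.MF.Eisen.Trace
import Fermat.Prelude.Def_ModularCurve_ModularUnit
import Mathlib.RingTheory.IntegralDomain
import Mathlib.GroupTheory.SpecificGroups.Cyclic
import Mathlib.Data.ZMod.Basic

/-!
# The Eisenstein homomorphism of `Γ₀(p)` and its integral parabolic lift

`γ ↦ log (a mod p)`, reduced modulo the numerator of `(p - 1) / 12`, is parabolic and vanishes on
elliptic elements, hence lifts to an integral parabolic homomorphism.
-/

namespace Fermat.MF.Eisen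

open CongruenceSubgroup ModularGroup ModularCurve ModularCurve.Period Fermat.MF
open scoped MatrixGroups

variable {p : ℕ} [hp : Fact p.Prime]

/-- The reduction of the upper left entry, as a homomorphism. -/
def upperEntry (p : ℕ) : Gamma0 p →* ZMod p where
  toFun γ := ((γ : SL(2, ℤ)) 0 0 : ℤ)
  map_one' := by simp
  map_mul' γ δ := by
    have h : (((δ : SL(2, ℤ)) 1 0 : ℤ) : ZMod p) = 0 := Gamma0_mem.mp δ.2
    simp [Matrix.SpecialLinearGroup.coe_mul, Matrix.mul_apply, Fin.sum_univ_two, h]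

/-- The value of `upperEntry`. -/
theorem upperEntry_apply (γ : Gamma0 p) :
    upperEntry p γ = (((γ : SL(2, ℤ)) 0 0 : ℤ) : ZMod p) := rfl

/-- The upper left entry as a unit. -/
noncomputable def upperUnit (p : ℕ) : Gamma0 p →* (ZMod p)ˣ :=
  (Units.map (upperEntry p)).comp toUnits.toMonoidHom

omit hp in
/-- The unit `upperUnit` is the upper left entry. -/
theorem coe_upperUnit (γ : Gamma0 p) : (upperUnit p γ : ZMod p) = upperEntry p γ := rfl

/-- The units modulo `p` are the powers of one of them. -/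
theorem exists_generator_log (p : ℕ) [hp : Fact p.Prime] :
    ∃ g : (ZMod p)ˣ, ∀ u, ∃ k : ℕ, g ^ k = u := by
  obtain ⟨g, hg⟩ := IsCyclic.exists_generator (α := (ZMod p)ˣ)
  exact ⟨g, fun u => mem_powers_iff_mem_zpowers.mpr (hg u)⟩

/-- A generator of the units modulo `p`. -/
noncomputable def gen (p : ℕ) [Fact p.Prime] : (ZMod p)ˣ := (exists_generator_log p).choose

/-- The generator has order `p - 1`. -/
theorem orderOf_gen (p : ℕ) [hp : Fact p.Prime] : orderOf (gen p) = p - 1 := by
  have h : ∀ x, x ∈ Subgroup.zpowers (gen p) := fun x => by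
    obtain ⟨k, hk⟩ := (exists_generator_log p).choose_spec x
    exact ⟨k, by simp only [zpow_natCast]; exact hk⟩
  rw [orderOf_eq_card_of_forall_mem_zpowers h, Nat.card_eq_fintype_card, ZMod.card_units_eq_totient,
    Nat.totient_prime hp.out]

/-- The logarithm of a unit modulo `p`. -/
noncomputable def unitLog (p : ℕ) [Fact p.Prime] (u : (ZMod p)ˣ) : ℕ :=
  ((exists_generator_log p).choose_spec u).choose

/-- The generator to the power of the logarithm is the unit. -/
theorem gen_pow_unitLog (u : (ZMod p)ˣ) : gen p ^ unitLog p u = u :=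
  ((exists_generator_log p).choose_spec u).choose_spec

variable {n : ℕ}

/-- Any exponent gives the logarithm modulo a divisor of `p - 1`. -/
theorem unitLog_cast_eq (hn : n ∣ p - 1) {u : (ZMod p)ˣ} {k : ℕ} (h : gen p ^ k = u) :
    (unitLog p u : ZMod n) = k := by
  rw [ZMod.natCast_eq_natCast_iff]
  have e : gen p ^ unitLog p u = gen p ^ k := by rw [gen_pow_unitLog, h]
  rw [pow_eq_pow_iff_modEq, orderOf_gen] at e
  exact e.of_dvd hn

/-- The Eisenstein homomorphism modulo `n`. -/
noncomputable def eisPhi (n : ℕ) (γ : Gamma0 p) : ZMod n := (unitLog p (upperUnit p γ) : ZMod n)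

/-- `eisPhi` turns products into sums. -/
theorem eisPhi_mul (hn : n ∣ p - 1) (γ δ : Gamma0 p) :
    eisPhi n (γ * δ) = eisPhi n γ + eisPhi n δ := by
  rw [eisPhi, eisPhi, eisPhi, ← Nat.cast_add]
  exact unitLog_cast_eq hn (by rw [pow_add, gen_pow_unitLog, gen_pow_unitLog, map_mul])

/-- `eisPhi 1 = 0`. -/
theorem eisPhi_one (hn : n ∣ p - 1) : eisPhi n (1 : Gamma0 p) = 0 := by
  rw [eisPhi, map_one]
  simpa using unitLog_cast_eq hn (u := 1) (k := 0) (pow_zero _)

/-- For `n k ∣ p - 1`, `eisPhi` vanishes where the `k`-th power of the upper left entry is one. -/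
theorem eisPhi_eq_zero_of_pow {k : ℕ} (hk : n * k ∣ p - 1) {γ : Gamma0 p}
    (h : upperEntry p γ ^ k = 1) : eisPhi n γ = 0 := by
  have h1 : upperUnit p γ ^ k = 1 :=
    Units.ext (by rw [Units.val_pow_eq_pow_val, coe_upperUnit, h]; rfl)
  rw [← gen_pow_unitLog (upperUnit p γ), ← pow_mul, ← orderOf_dvd_iff_pow_eq_one, orderOf_gen] at h1
  rcases Nat.eq_zero_or_pos k with rfl | hk0
  · exfalso
    rw [mul_zero, zero_dvd_iff] at hk
    have := hp.out.two_le
    omega
  rw [eisPhi, ZMod.natCast_eq_zero_iff]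
  exact Nat.dvd_of_mul_dvd_mul_right hk0 (hk.trans h1)

/-- `eisPhi` takes the value one. -/
theorem exists_eisPhi_eq_one (hn : n ∣ p - 1) : ∃ γ : Gamma0 p, eisPhi n γ = 1 := by
  obtain ⟨a, ha⟩ := ZMod.intCast_surjective (gen p : ZMod p)
  have hcop : IsCoprime a (p : ℤ) := by
    rw [isCoprime_comm, (Nat.prime_iff_prime_int.mp hp.out).coprime_iff_not_dvd]
    intro h
    have := (ZMod.intCast_zmod_eq_zero_iff_dvd a p).mpr h
    exact (gen p).ne_zero (ha ▸ this)
  obtain ⟨u, v, huv⟩ := hcop
  refine ⟨⟨⟨!![a, -v; (p : ℤ), u], by rw [Matrix.det_fin_two_of]; linear_combination huv⟩,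
    Gamma0_mem.mpr (by simp)⟩, ?_⟩
  rw [eisPhi, unitLog_cast_eq hn (k := 1)]
  · simp
  · rw [pow_one]
    exact Units.ext ha.symm

/-- The upper left entry `a` satisfies `a² + 1 = a · trace`. -/
theorem upperEntry_sq_eq {γ : Gamma0 p} :
    upperEntry p γ * upperEntry p γ + 1
      = upperEntry p γ * ((((γ : SL(2, ℤ)) : Matrix (Fin 2) (Fin 2) ℤ).trace : ℤ) : ZMod p) := by
  have hdet := Matrix.SpecialLinearGroup.det_coe (γ : SL(2, ℤ))
  rw [Matrix.det_fin_two] at hdet
  have h' := congrArg (Int.cast : ℤ → ZMod p) hdet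
  push_cast at h'
  have hc : (((γ : SL(2, ℤ)) 1 0 : ℤ) : ZMod p) = 0 := Gamma0_mem.mp γ.2
  rw [Matrix.trace_fin_two]
  push_cast
  rw [upperEntry_apply]
  rw [hc] at h'
  linear_combination -h'

/-- Numerics of the elliptic elements. -/
theorem elliptic_dvd (h5 : 5 ≤ p) :
    ModularCurve.eisensteinNumerator p * 2 ∣ p - 1 ∧
    (p % 4 = 1 → ModularCurve.eisensteinNumerator p * 4 ∣ p - 1) ∧
    (p % 3 = 1 → ModularCurve.eisensteinNumerator p * 6 ∣ p - 1) := by
  have hn : ModularCurve.eisensteinNumerator p * Nat.gcd (p - 1) 12 = p - 1 :=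
    Nat.div_mul_cancel (Nat.gcd_dvd_left _ _)
  have hodd : p % 2 = 1 := hp.out.eq_two_or_odd.resolve_left (by omega)
  have key : ∀ k, k ∣ p - 1 → k ∣ 12 → ModularCurve.eisensteinNumerator p * k ∣ p - 1 := by
    intro k hk hk'
    conv_rhs => rw [← hn]
    exact mul_dvd_mul_left _ (Nat.dvd_gcd hk hk')
  exact ⟨key 2 (by omega) (by norm_num), fun h => key 4 (by omega) (by norm_num),
    fun h => key 6 (by omega) (by norm_num)⟩

/-- The Eisenstein homomorphism vanishes on elliptic and parabolic elements. -/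
theorem eisPhi_eq_zero_of_trace (h5 : 5 ≤ p) {γ : Gamma0 p} {t : ℤ}
    (ht : ((γ : SL(2, ℤ)) : Matrix (Fin 2) (Fin 2) ℤ).trace = t)
    (hsmall : t * t = 4 ∨ t = 0 ∨ t = 1 ∨ t = -1) :
    eisPhi (ModularCurve.eisensteinNumerator p) γ = 0 := by
  obtain ⟨h2, h4, h6⟩ := elliptic_dvd (p := p) h5
  set d := upperEntry p γ with hd
  have hq : d * d + 1 = d * (t : ZMod p) := by rw [← ht]; exact upperEntry_sq_eq
  have hp4 : ∀ m : ℕ, m < 5 → 0 < m → ((m : ℕ) : ZMod p) ≠ 0 := fun m h1 h2 h => by
    rw [ZMod.natCast_eq_zero_iff] at h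
    have := Nat.le_of_dvd h2 h
    omega
  have hd0 : d ≠ 0 := fun h => by rw [h] at hq; simp at hq
  -- the order of `d` divides `p - 1`
  have hord : orderOf d ∣ p - 1 := orderOf_dvd_of_pow_eq_one (ZMod.pow_card_sub_one_eq_one hd0)
  rcases hsmall with h | rfl | rfl | rfl
  · refine eisPhi_eq_zero_of_pow (k := 2) h2 ?_
    have h' : (t : ZMod p) * t = 4 := by exact_mod_cast congrArg (Int.cast : ℤ → ZMod p) h
    have e : (2 * d - t) * (2 * d - t) = 0 := by linear_combination 4 * hq + h'
    have e' : 2 * d = t := sub_eq_zero.mp (mul_self_eq_zero.mp e)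
    have e'' : 4 * (d ^ 2 - 1) = 0 := by linear_combination (2 * d + t) * e' + h'
    exact sub_eq_zero.mp ((mul_eq_zero.mp e'').resolve_left
      (by exact_mod_cast hp4 4 (by norm_num) (by norm_num)))
  · rw [Int.cast_zero, mul_zero] at hq
    have hpow : d ^ 4 = 1 := by linear_combination (d * d - 1) * hq
    have h2ne : d ^ 2 ≠ 1 := fun e => hp4 2 (by norm_num) (by norm_num)
      (by push_cast; linear_combination hq - e)
    have horder : orderOf d = 2 ^ (1 + 1) :=
      orderOf_eq_prime_pow (p := 2) (n := 1) (by simpa using h2ne) (by simpa using hpow)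
    rw [horder] at hord
    exact eisPhi_eq_zero_of_pow (k := 4) (h4 (by omega)) hpow
  · rw [Int.cast_one, mul_one] at hq
    have h3 : d ^ 3 = -1 := by linear_combination (d + 1) * hq
    have hne : -d ≠ 1 := fun e => hp4 3 (by norm_num) (by norm_num) (by
      push_cast; linear_combination hq + (d - 2) * e)
    have horder : orderOf (-d) = 3 :=
      orderOf_eq_prime (by rw [neg_pow, h3]; ring) hne
    have hord' : orderOf (-d) ∣ p - 1 :=
      orderOf_dvd_of_pow_eq_one (ZMod.pow_card_sub_one_eq_one (neg_ne_zero.mpr hd0))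
    rw [horder] at hord'
    refine eisPhi_eq_zero_of_pow (k := 6) (h6 (by omega)) ?_
    rw [show (6 : ℕ) = 3 * 2 from rfl, pow_mul, h3]; ring
  · rw [Int.cast_neg, Int.cast_one, mul_neg, mul_one] at hq
    have h3 : d ^ 3 = 1 := by linear_combination (d - 1) * hq
    have hne : d ≠ 1 := fun e => hp4 3 (by norm_num) (by norm_num) (by
      push_cast; linear_combination hq - (d + 2) * e)
    have horder : orderOf d = 3 := orderOf_eq_prime h3 hne
    rw [horder] at hord
    refine eisPhi_eq_zero_of_pow (k := 6) (h6 (by omega)) ?_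
    rw [show (6 : ℕ) = 3 * 2 from rfl, pow_mul, h3]; ring

omit hp in
/-- At a fixed coset the transfer keeps the trace. -/
theorem transfer_trace (g : SL(2, ℤ)) {x : CosetX p} (h : g • x = x) :
    ((transfer g x : SL(2, ℤ)) : Matrix (Fin 2) (Fin 2) ℤ).trace
      = (g : Matrix (Fin 2) (Fin 2) ℤ).trace := by
  simp only [transfer, h, Matrix.SpecialLinearGroup.coe_mul]
  rw [Matrix.trace_mul_comm, mul_assoc, ← Matrix.SpecialLinearGroup.coe_mul x.out, mul_inv_cancel,
    Matrix.SpecialLinearGroup.coe_one, mul_one]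

omit hp in
/-- The transfer of `-1` is `-1`. -/
theorem transfer_neg_one (x : CosetX p) : ((transfer (-1) x : Gamma0 p) : SL(2, ℤ)) = -1 := by
  change ((-1 : SL(2, ℤ)) • x).out⁻¹ * (-1 * x.out) = -1
  rw [SL2.neg_one_smul_coset (SL2.neg_one_mem_Gamma0 _)]
  apply Subtype.ext
  simp

/-- The coset fixed by `T`. -/
def xInf (p : ℕ) : CosetX p := QuotientGroup.mk 1

/-- Every other coset is a translate of that of the cusp `0` by a power of `T`. -/
theorem exists_T_pow_smul {x : CosetX p} (h : x ≠ xInf p) :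
    ∃ j : ℤ, x = T ^ j • mkX p 0 (-1) isCoprime_one_right.neg_right := by
  obtain ⟨o, ho⟩ := (cosetRep_bijective (p := p)).2 x
  cases o with
  | none => exact absurd ho.symm h
  | some j =>
    refine ⟨-(j : ℕ), ?_⟩
    rw [T_zpow_smul_mkX, ← ho, eq_comm, mkX_eq_mk, (cosetRep_col j).1, (cosetRep_col j).2]
    simp

omit hp in
/-- `Γ₀(p)` fixes the coset `∞`. -/
theorem smul_xInf (γ : Gamma0 p) : (γ : SL(2, ℤ)) • xInf p = xInf p := by
  change (γ : SL(2, ℤ)) • (QuotientGroup.mk 1 : CosetX p) = QuotientGroup.mk 1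
  rw [MulAction.Quotient.smul_mk, smul_eq_mul, mul_one, eq_comm, QuotientGroup.eq]
  simp

omit hp in
/-- `T` fixes the coset `∞`. -/
theorem T_smul_xInf : T • xInf p = xInf p := smul_xInf ⟨T, by simp [Gamma0_mem, coe_T]⟩

/-- `S` moves the coset `∞`. -/
theorem S_smul_xInf_ne : S • xInf p ≠ xInf p := fun h => by
  rw [xInf, MulAction.Quotient.smul_mk, smul_eq_mul, mul_one, eq_comm, QuotientGroup.eq] at h
  simp [Gamma0_mem, coe_S] at h

/-- The Eisenstein homomorphism of the transfers is a cocycle. -/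
theorem eisPhi_transfer_mul (hn : n ∣ p - 1) (g h : SL(2, ℤ)) (x : CosetX p) :
    eisPhi n (transfer (g * h) x) = eisPhi n (transfer g (h • x)) + eisPhi n (transfer h x) := by
  rw [transfer_mul, eisPhi_mul hn]

/-- The cocycle vanishes at `1`. -/
theorem eisPhi_transfer_one (hn : n ∣ p - 1) (x : CosetX p) : eisPhi n (transfer 1 x) = 0 := by
  have := eisPhi_transfer_mul hn 1 1 x
  rw [one_smul, one_mul] at this
  linear_combination -this

/-- The cocycle vanishes at `-1`. -/
theorem eisPhi_transfer_neg_one (h5 : 5 ≤ p) (x : CosetX p) :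
    eisPhi (eisensteinNumerator p) (transfer (-1) x) = 0 := by
  refine eisPhi_eq_zero_of_trace h5 (t := -2) ?_ (Or.inl (by norm_num))
  rw [transfer_neg_one]
  simp

/-- The cocycle at `S` is antisymmetric on the orbits of `S`. -/
theorem eisPhi_transfer_S_add (h5 : 5 ≤ p) (x : CosetX p) :
    eisPhi (eisensteinNumerator p) (transfer S x)
      + eisPhi (eisensteinNumerator p) (transfer S (S • x)) = 0 := by
  have := eisPhi_transfer_mul (eisensteinNumerator_dvd p) S S x
  rw [SL2.S_mul_S, eisPhi_transfer_neg_one h5] at this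
  rw [add_comm]; exact this.symm

/-- The cocycle at `genR` sums to zero on the orbits of `genR`. -/
theorem eisPhi_transfer_genR_add (h5 : 5 ≤ p) (x : CosetX p) :
    eisPhi (eisensteinNumerator p) (transfer genR x)
      + eisPhi (eisensteinNumerator p) (transfer genR (genR • x))
      + eisPhi (eisensteinNumerator p) (transfer genR (genR • genR • x)) = 0 := by
  have hn := eisensteinNumerator_dvd p
  have h1 := eisPhi_transfer_mul hn genR (genR * genR) x
  rw [← pow_three genR, genR_cube, eisPhi_transfer_neg_one h5, eisPhi_transfer_mul hn, mul_smul]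
    at h1
  linear_combination -h1

/-- At `∞` the cocycle at `genR` is minus that at `S`, as `T` is parabolic. -/
theorem eisPhi_transfer_xInf (h5 : 5 ≤ p) :
    eisPhi (eisensteinNumerator p) (transfer genR (xInf p))
      + eisPhi (eisensteinNumerator p) (transfer S (genR • xInf p)) = 0 := by
  have hn := eisensteinNumerator_dvd p
  have hcT : eisPhi (eisensteinNumerator p) (transfer T (xInf p)) = 0 := by
    refine eisPhi_eq_zero_of_trace h5 (t := 2) ?_ (Or.inl (by norm_num))
    rw [transfer_trace _ T_smul_xInf]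
    decide
  have h1 : T = (-1) * (S * genR) := by rw [S_mul_genR]; simp
  have h2 := eisPhi_transfer_mul hn (-1) (S * genR) (xInf p)
  rw [← h1, eisPhi_transfer_neg_one h5, zero_add, eisPhi_transfer_mul hn, hcT] at h2
  linear_combination -h2

/-- A family modulo `n` that is antisymmetric under an involution and zero at the fixed points
lifts to an antisymmetric integral family. -/
theorem exists_antisymm_lift {X : Type*} [Finite X] {σ : X → X} (hσ : ∀ x, σ (σ x) = x)
    {c : X → ZMod n} (hc : ∀ x, c x + c (σ x) = 0) (hfix : ∀ x, σ x = x → c x = 0) :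
    ∃ u : X → ℤ, (∀ x, (u x : ZMod n) = c x) ∧ ∀ x, u x + u (σ x) = 0 := by
  obtain ⟨m, ⟨em⟩⟩ := Finite.exists_equiv_fin X
  set e : X → ℕ := fun x => (em x : ℕ)
  have hinj : Function.Injective e := fun x y h => em.injective (Fin.ext h)
  choose li hlis using fun a : ZMod n => ZMod.intCast_surjective a
  refine ⟨fun x => if e x < e (σ x) then li (c x) else if e (σ x) < e x then -li (c (σ x)) else 0,
    fun x => ?_, fun x => ?_⟩
  · dsimp only
    split_ifs with h1 h2
    · rw [hlis]
    · rw [Int.cast_neg, hlis]; linear_combination -hc x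
    · rw [Int.cast_zero, hfix x (hinj (by omega))]
  · simp only [hσ]
    split_ifs <;> omega

/-- A family modulo `n` that sums to zero on the cycles of a map of order three lifts to an
integral family with the same property, with a prescribed value at a point that moves. -/
theorem exists_threeCycle_lift {X : Type*} [Finite X] {ρ : X → X} (hρ : ∀ x, ρ (ρ (ρ x)) = x)
    {x₀ : X} (h₀ : ρ x₀ ≠ x₀) {c : X → ZMod n} (hc : ∀ x, c x + c (ρ x) + c (ρ (ρ x)) = 0)
    (hfix : ∀ x, ρ x = x → c x = 0) {m : ℤ} (hm : (m : ZMod n) = c x₀) :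
    ∃ v : X → ℤ, (∀ x, (v x : ZMod n) = c x) ∧ (∀ x, v x + v (ρ x) + v (ρ (ρ x)) = 0) ∧
      v x₀ = m := by
  classical
  -- an enumeration in which `x₀` comes first; on each cycle the last element is determined
  obtain ⟨k, ⟨ek⟩⟩ := Finite.exists_equiv_fin X
  set e : X → ℕ := fun x => if x = x₀ then 0 else (ek x : ℕ) + 1 with he
  have hinj : Function.Injective e := by
    intro x y h
    simp only [he] at h
    split_ifs at h with h1 h2
    · exact h1.trans h2.symm
    · exact ek.injective (Fin.ext (by omega))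
  have hρinj : Function.Injective ρ := fun x y h => by rw [← hρ x, h, hρ]
  choose li hlis using fun a : ZMod n => ZMod.intCast_surjective a
  set w : X → ℤ := fun x => if x = x₀ then m else li (c x) with hw
  have hwc : ∀ x, (w x : ZMod n) = c x := by
    intro x
    simp only [hw]
    split_ifs with h
    · rw [h, hm]
    · rw [hlis]
  set v : X → ℤ := fun x =>
    if ρ x = x then 0
    else if e (ρ x) < e x ∧ e (ρ (ρ x)) < e x then -w (ρ x) - w (ρ (ρ x))
    else w x with hv
  refine ⟨v, fun x => ?_, fun x => ?_, ?_⟩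
  · simp only [hv]
    split_ifs with h1 h2
    · rw [Int.cast_zero, hfix x h1]
    · rw [Int.cast_sub, Int.cast_neg, hwc, hwc]; linear_combination -hc x
    · exact hwc x
  · by_cases hx : ρ x = x
    · simp [hv, hx]
    have hx1 : ¬ ρ (ρ x) = ρ x := fun h => hx (hρinj h)
    have hx2 : ¬ x = ρ (ρ x) := fun h => hx (by
      have h' := congrArg ρ h
      rwa [hρ] at h')
    have d1 : e (ρ x) ≠ e x := fun h => hx (hinj h)
    have d2 : e (ρ (ρ x)) ≠ e (ρ x) := fun h => hx1 (hinj h)
    have d3 : e x ≠ e (ρ (ρ x)) := fun h => hx2 (hinj h)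
    simp only [hv, hρ, if_neg hx, if_neg hx1, if_neg hx2]
    split_ifs <;> omega
  · have h2 : e x₀ = 0 := by simp [he]
    simp only [hv, if_neg h₀, h2, Nat.not_lt_zero, false_and, if_false, hw, if_true]

/-- A pair whose two values cancel at `∞` is orthogonal to the cusp pairing. -/
theorem mem_dualCoannihilator_cuspPairing [NeZero p] {U : spaceS p} {V : spaceR p}
    (h : V.1 (xInf p) = -U.1 (genR • xInf p)) :
    (U, V) ∈ (LinearMap.range (cuspPairing p)).dualCoannihilator := by
  classical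
  rw [Submodule.mem_dualCoannihilator]
  rintro _ ⟨l, rfl⟩
  change ∑ x, l (Quotient.mk'' x) * (U.1 (genR • x) + V.1 x) = 0
  set f : CosetX p → ℂ := fun x => U.1 (genR • x) + V.1 x with hf
  set o : CosetX p := mkX p 0 (-1) isCoprime_one_right.neg_right
  -- `l` is constant away from `∞`, where `f` vanishes
  have hl : ∀ x, x ≠ xInf p → l (Quotient.mk'' x) = l (Quotient.mk'' o) := fun x hx => by
    obtain ⟨j, rfl⟩ := exists_T_pow_smul hx
    exact congrArg l ((cuspOrbit_eq_iff _ _).mpr ⟨j, rfl⟩)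
  have hfinf : f (xInf p) = 0 := by simp [hf, h]
  -- the sum of all values of `f` is zero
  have hsumu : ∑ x, U.1 x = 0 := by
    have h1 := Fintype.sum_equiv (MulAction.toPerm (S : SL(2, ℤ))) (fun x => U.1 (S • x)) U.1
      (fun _ => rfl)
    have h2 : ∑ x, (U.1 x + U.1 (S • x)) = 0 :=
      Finset.sum_eq_zero fun x _ => mem_spaceS.mp U.2 x
    rw [Finset.sum_add_distrib, h1] at h2
    linear_combination (1 / 2 : ℂ) * h2
  have hsumv : ∑ x, V.1 x = 0 := by
    have h1 := Fintype.sum_equiv (MulAction.toPerm (genR : SL(2, ℤ))) (fun x => V.1 (genR • x)) V.1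
      (fun _ => rfl)
    have h1' := Fintype.sum_equiv (MulAction.toPerm (genR * genR : SL(2, ℤ)))
      (fun x => V.1 (genR • genR • x)) V.1 (fun x => by rw [MulAction.toPerm_apply, mul_smul])
    have h2 : ∑ x, (V.1 x + V.1 (genR • x) + V.1 (genR • genR • x)) = 0 :=
      Finset.sum_eq_zero fun x _ => mem_spaceR.mp V.2 x
    rw [Finset.sum_add_distrib, Finset.sum_add_distrib, h1, h1'] at h2
    linear_combination (1 / 3 : ℂ) * h2
  have hsum : ∑ x, f x = 0 := by
    simp only [hf, Finset.sum_add_distrib]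
    rw [Fintype.sum_equiv (MulAction.toPerm (genR : SL(2, ℤ))) (fun x => U.1 (genR • x)) U.1
      (fun _ => rfl), hsumu, hsumv, add_zero]
  calc ∑ x, l (Quotient.mk'' x) * f x = ∑ x, l (Quotient.mk'' o) * f x := by
        refine Finset.sum_congr rfl fun x _ => ?_
        by_cases hx : x = xInf p
        · rw [hx, hfinf, mul_zero, mul_zero]
        · rw [hl x hx]
    _ = 0 := by rw [← Finset.mul_sum, hsum, mul_zero]

/-- A cocycle that is integral at `S` and `genR`, with the Eisenstein reduction, is so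
everywhere. -/
theorem exists_cocycle_eq_intCast (hn : n ∣ p - 1) {φ : Additive (Gamma0 p) →+ ℂ}
    {b : CosetX p → ℂ} (h : ∀ g ∈ ({S, genR} : Set SL(2, ℤ)), ∀ x, ∃ m : ℤ,
      cocycle φ b g x = m ∧ (m : ZMod n) = eisPhi n (transfer g x)) (g : SL(2, ℤ)) :
    ∀ x, ∃ m : ℤ, cocycle φ b g x = m ∧ (m : ZMod n) = eisPhi n (transfer g x) := by
  have hg : g ∈ Subgroup.closure ({S, genR} : Set SL(2, ℤ)) := closure_S_genR ▸ Subgroup.mem_top g
  induction hg using Subgroup.closure_induction with
  | mem g hg => exact h g hg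
  | one =>
    intro x
    exact ⟨0, by rw [cocycle_one]; simp, by rw [Int.cast_zero, eisPhi_transfer_one hn]⟩
  | mul a d _ _ ha hd =>
    intro x
    obtain ⟨m, hm, hm'⟩ := ha (d • x)
    obtain ⟨k, hk, hk'⟩ := hd x
    exact ⟨m + k, by rw [cocycle_mul, hm, hk]; simp,
      by rw [eisPhi_transfer_mul hn, Int.cast_add, hm', hk']⟩
  | inv a _ ha =>
    intro x
    obtain ⟨m, hm, hm'⟩ := ha (a⁻¹ • x)
    refine ⟨-m, ?_, ?_⟩
    · have := cocycle_mul φ b a a⁻¹ x
      rw [mul_inv_cancel, cocycle_one, hm] at this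
      push_cast; linear_combination -this
    · have := eisPhi_transfer_mul hn a a⁻¹ x
      rw [mul_inv_cancel, eisPhi_transfer_one hn] at this
      rw [Int.cast_neg, hm']
      linear_combination this

/-- An integral cocycle with the Eisenstein reduction comes from an integral homomorphism with
that reduction: read it off at `∞`. -/
theorem exists_eq_intCast_of_cocycle (hn : n ∣ p - 1) {φ : Additive (Gamma0 p) →+ ℂ}
    {b : CosetX p → ℂ} (h : ∀ g x, ∃ m : ℤ,
      cocycle φ b g x = m ∧ (m : ZMod n) = eisPhi n (transfer g x)) (γ : Gamma0 p) :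
    ∃ m : ℤ, φ (Additive.ofMul γ) = m ∧ (m : ZMod n) = eisPhi n γ := by
  set x₀ : CosetX p := xInf p with hx₀
  have he0 : x₀.out ∈ Gamma0 p := by
    have h1 : (QuotientGroup.mk 1 : CosetX p) = QuotientGroup.mk x₀.out := by
      rw [QuotientGroup.out_eq']; rfl
    simpa using QuotientGroup.eq.mp h1
  set ee : Gamma0 p := ⟨x₀.out, he0⟩
  have hfix : (γ : SL(2, ℤ)) • x₀ = x₀ := smul_xInf γ
  have ht : transfer (γ : SL(2, ℤ)) x₀ = ee⁻¹ * (γ * ee) := by
    apply Subtype.ext
    simp [transfer, hfix, ee]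
  obtain ⟨m, hm, hm'⟩ := h γ x₀
  refine ⟨m, ?_, ?_⟩
  · rw [cocycle, hfix, sub_self, add_zero, ht, ofMul_mul, ofMul_mul, map_add, map_add, ofMul_inv,
      map_neg] at hm
    rw [← hm]; ring
  · have h0 := eisPhi_mul hn ee⁻¹ ee
    rw [inv_mul_cancel, eisPhi_one hn] at h0
    rw [hm', ht, eisPhi_mul hn, eisPhi_mul hn]
    linear_combination -h0

/-- The integral parabolic lift of the Eisenstein homomorphism. -/
theorem exists_eisenstein_lift (h5 : 5 ≤ p)
    (hdim : haveI : NeZero p := ⟨hp.out.ne_zero⟩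
      genusFormula p ≤ (Module.finrank ℂ (CuspForm (Gamma0 p) 2) : ℚ)) :
    ∃ Ψ : Additive (Gamma0 p) →+ ℂ, Ψ ∈ parabolicHoms ℂ (Gamma0 p) ℂ ∧
      ∀ γ : Gamma0 p, ∃ m : ℤ, Ψ (Additive.ofMul γ) = m ∧
        (m : ZMod (ModularCurve.eisensteinNumerator p)) =
          eisPhi (ModularCurve.eisensteinNumerator p) γ := by
  have : NeZero p := ⟨hp.out.ne_zero⟩
  -- integral lifts at the two generators
  obtain ⟨u, huc, huanti⟩ := exists_antisymm_lift (σ := fun x : CosetX p => S • x) S_smul_S_smul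
    (eisPhi_transfer_S_add h5) fun x hx => eisPhi_eq_zero_of_trace h5 (t := 0)
      (by rw [transfer_trace _ hx]; decide) (Or.inr (Or.inl rfl))
  obtain ⟨v, hvc, hvsum, hvinf⟩ := exists_threeCycle_lift (ρ := fun x : CosetX p => genR • x)
    genR_smul_cube (x₀ := xInf p) (by
      show genR • xInf p ≠ xInf p
      rw [genR, mul_smul, T_smul_xInf]; exact S_smul_xInf_ne)
    (eisPhi_transfer_genR_add h5) (fun x hx => eisPhi_eq_zero_of_trace h5 (t := 1)
      (by rw [transfer_trace _ hx]; decide) (Or.inr (Or.inr (Or.inl rfl))))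
    (m := -u (genR • xInf p))
    (by rw [Int.cast_neg, huc]; linear_combination -eisPhi_transfer_xInf h5)
  -- the pair is admissible
  let U : spaceS p := ⟨fun x => (u x : ℂ), mem_spaceS.mpr fun x => by exact_mod_cast huanti x⟩
  let V : spaceR p := ⟨fun x => (v x : ℂ), mem_spaceR.mpr fun x => by exact_mod_cast hvsum x⟩
  have hUV : (U, V) ∈ LinearMap.range (cocycleMap p) := by
    rw [range_cocycleMap_eq p hdim]
    refine mem_dualCoannihilator_cuspPairing ?_
    change (v (xInf p) : ℂ) = -(u (genR • xInf p) : ℂ)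
    rw [hvinf, Int.cast_neg]
  obtain ⟨⟨⟨ψ, hψ⟩, b⟩, hψb⟩ := hUV
  have hn := ModularCurve.eisensteinNumerator_dvd p
  refine ⟨ψ, hψ, exists_eq_intCast_of_cocycle hn (exists_cocycle_eq_intCast hn (b := b.1) ?_)⟩
  rintro g (rfl | rfl) x
  · exact ⟨u x, congrFun (congrArg Subtype.val (congrArg Prod.fst hψb)) x, huc x⟩
  · exact ⟨v x, congrFun (congrArg Subtype.val (congrArg Prod.snd hψb)) x, hvc x⟩

end Fermat.MF.Eisen
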