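import Fermat.Agent.MF.Eisen.Series

/-!
# Level one forms with coefficients in a subring

Such a form is a combination of `Δ^i E₄^a E₆^b` with coefficients in the subring.
-/

namespace Fermat.MF.Eisen

open UpperHalfPlane hiding I
open Fermat.MC
open ModularForm (E₄ E₆)
open scoped MatrixGroups Manifold

local notation "Δ" => ModularForm.discriminant

/-- Power series with coefficients in `R`. -/
noncomputable def serRing (R : Subring ℂ) : Subring (PowerSeries ℂ) :=
  (PowerSeries.map R.subtype).range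

/-- Membership in `serRing`, coefficientwise. -/
theorem mem_serRing_iff {R : Subring ℂ} {φ : PowerSeries ℂ} :
    φ ∈ serRing R ↔ ∀ n, φ.coeff n ∈ R := by
  constructor
  · rintro ⟨ψ, rfl⟩ n
    simp
  · intro h
    exact ⟨PowerSeries.mk fun n => ⟨φ.coeff n, h n⟩, by ext; simp⟩

/-- An integral series lies in every `serRing`. -/
theorem map_int_mem_serRing (R : Subring ℂ) (φ : PowerSeries ℤ) :
    PowerSeries.map (Int.castRingHom ℂ) φ ∈ serRing R :=
  mem_serRing_iff.mpr fun n => by simp

/-- A constant of `R` lies in `serRing R`. -/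
theorem C_mem_serRing {R : Subring ℂ} {c : ℂ} (hc : c ∈ R) : PowerSeries.C c ∈ serRing R :=
  mem_serRing_iff.mpr fun n => by
    rw [PowerSeries.coeff_C]; split <;> simp [hc]

/-- `serRing R` is stable under the scalars of `R`. -/
theorem smul_mem_serRing {R : Subring ℂ} {c : ℂ} (hc : c ∈ R) {φ : PowerSeries ℂ}
    (hφ : φ ∈ serRing R) : c • φ ∈ serRing R :=
  mem_serRing_iff.mpr fun n => by
    simpa using mul_mem hc (mem_serRing_iff.mp hφ n)

/-- The function `Δ^i E₄^a E₆^b`. -/
noncomputable def monoF (i a b : ℕ) : ℍ → ℂ := Δ ^ i * (⇑E₄) ^ a * (⇑E₆) ^ b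

/-- The `R`-combinations of `Δ^i E₄^a E₆^b` of weight `k`. -/
noncomputable def monoSpan (R : Subring ℂ) (k : ℕ) : Submodule R (ℍ → ℂ) :=
  Submodule.span R {g | ∃ i a b, 12 * i + 4 * a + 6 * b = k ∧ g = monoF i a b}

/-- The monomials are periodic and bounded at `∞`. -/
theorem bddPer_monoF (i a b : ℕ) : BddPer (monoF i a b) :=
  ((bddPer_discriminant.pow i).mul (bddPer_E₄.pow a)).mul (bddPer_E₆.pow b)

/-- The q-series of a monomial. -/
theorem qE_monoF (i a b : ℕ) : qE (monoF i a b) = PowerSeries.map (Int.castRingHom ℂ)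
    ((PowerSeries.X * ModularCurve.dedekindEtaUnit) ^ i * ModularCurve.eisenstein4 ^ a
      * eisenstein6 ^ b) := by
  rw [monoF, qE_mul ((bddPer_discriminant.pow i).mul (bddPer_E₄.pow a)) (bddPer_E₆.pow b),
    qE_mul (bddPer_discriminant.pow i) (bddPer_E₄.pow a), qE_pow bddPer_discriminant,
    qE_pow bddPer_E₄, qE_pow bddPer_E₆]
  simp only [qE, qExpansion_discriminant, qExpansion_E₄, qExpansion_E₆, map_mul, map_pow,
    PowerSeries.map_X]

/-- Multiplying a monomial by `Δ` raises the exponent of `Δ`. -/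
theorem discriminant_mul_monoF (i a b : ℕ) : Δ * monoF i a b = monoF (i + 1) a b := by
  simp only [monoF, pow_succ']
  ring

/-- Dividing by `Δ` preserves integrality of the coefficients. -/
theorem mem_serRing_of_discriminant_mul {R : Subring ℂ} {g : ℍ → ℂ} (hg : BddPer g)
    (h : qE (Δ * g) ∈ serRing R) : qE g ∈ serRing R := by
  rw [qE_mul bddPer_discriminant hg, qE, qExpansion_discriminant, mul_assoc] at h
  have h' : PowerSeries.map (Int.castRingHom ℂ) ModularCurve.dedekindEtaUnit * qE g ∈ serRing R :=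
    mem_serRing_iff.mpr fun n => by
      have := mem_serRing_iff.mp h (n + 1)
      rwa [PowerSeries.coeff_succ_X_mul] at this
  have hinv := PowerSeries.invOfUnit_mul ModularCurve.dedekindEtaUnit 1
    (by rw [ModularCurve.constantCoeff_dedekindEtaUnit]; rfl)
  have := mul_mem (map_int_mem_serRing R (PowerSeries.invOfUnit ModularCurve.dedekindEtaUnit 1)) h'
  rwa [← mul_assoc, ← map_mul, hinv, map_one, one_mul] at this

/-- A form of level one is periodic and bounded at `∞`. -/
theorem bddPer_levelOne {k : ℤ} (f : ModularForm 𝒮ℒ k) : BddPer f :=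
  bddPer_of_modularFormClass f one_mem_strictPeriods_SL

/-- A level one form with coefficients in `R` is an `R`-combination of `Δ^i E₄^a E₆^b`. -/
theorem mem_monoSpan (R : Subring ℂ) : ∀ (k : ℕ) (f : ModularForm 𝒮ℒ (k : ℤ)),
    qE f ∈ serRing R → (⇑f : ℍ → ℂ) ∈ monoSpan R k := by
  intro k
  induction k using Nat.strong_induction_on with | _ k ih => ?_
  intro f hf
  -- odd weight, weight `2` and weight `0`
  rcases Nat.even_or_odd k with hk2 | hk2
  swap
  · rw [ModularForm.levelOne_odd_weight_eq_zero (mod_cast hk2) f]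
    exact zero_mem _
  rcases eq_or_ne k 2 with rfl | hk22
  · rw [rank_zero_iff_forall_zero.mp ModularForm.levelOne_weight_two_rank_zero f]
    exact zero_mem _
  rcases eq_or_ne k 0 with rfl | hk0
  · obtain ⟨c, hc⟩ := ModularFormClass.levelOne_weight_zero_const (F := ModularForm 𝒮ℒ 0) f
    have e : (⇑f : ℍ → ℂ) = c • monoF 0 0 0 := by funext z; simp [hc, monoF]
    have hcR : c ∈ R := by
      have h0 := mem_serRing_iff.mp hf 0
      rw [e, qE_smul (bddPer_monoF 0 0 0), qE_monoF] at h0
      simpa using h0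
    rw [e]
    exact Submodule.smul_mem _ (⟨c, hcR⟩ : R) (Submodule.subset_span ⟨0, 0, 0, by simp, rfl⟩)
  -- subtract a monomial with the same constant term
  obtain ⟨a, b, hab⟩ : ∃ a b : ℕ, 4 * a + 6 * b = k := by
    obtain ⟨m, rfl⟩ := hk2
    rcases Nat.even_or_odd m with ⟨t, rfl⟩ | ⟨t, rfl⟩
    · exact ⟨t, 0, by omega⟩
    · exact ⟨t - 1, 1, by omega⟩
  have hkab : (a : ℤ) * 4 + (b : ℤ) * 6 = (k : ℤ) := by omega
  set μ : ModularForm 𝒮ℒ (k : ℤ) := ModularForm.mcast hkab ((E₄.pow a).mul (E₆.pow b)) with hμ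
  have hμc : (⇑μ : ℍ → ℂ) = monoF 0 a b := by
    simp [μ, ModularForm.coe_mcast, ModularForm.coe_pow, monoF]
  have hμq : qE μ = PowerSeries.map (Int.castRingHom ℂ)
      (ModularCurve.eisenstein4 ^ a * eisenstein6 ^ b) := by
    rw [hμc, qE_monoF, pow_zero, one_mul]
  have hμ0 : (qE μ).coeff 0 = 1 := by
    rw [hμq, PowerSeries.coeff_map, PowerSeries.coeff_zero_eq_constantCoeff_apply, map_mul, map_pow,
      map_pow, ← PowerSeries.coeff_zero_eq_constantCoeff_apply,
      ← PowerSeries.coeff_zero_eq_constantCoeff_apply]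
    simp [ModularCurve.eisenstein4, eisenstein6, PowerSeries.coeff_mk,
      -PowerSeries.coeff_zero_eq_constantCoeff]
  set c := (qE f).coeff 0 with hc
  have hcR : c ∈ R := mem_serRing_iff.mp hf 0
  have hcμ : BddPer (c • (⇑μ : ℍ → ℂ)) := bddPer_smul (bddPer_levelOne μ) c
  have hsub : qE ⇑(f - c • μ) = qE f - c • qE μ := by
    rw [FunLike.coe_sub, FunLike.coe_smul, qE_sub (bddPer_levelOne f) hcμ,
      qE_smul (bddPer_levelOne μ)]
  have hcusp : (qExpansion 1 (f - c • μ)).coeff 0 = 0 := by
    change (qE ⇑(f - c • μ)).coeff 0 = 0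
    rw [hsub, map_sub, PowerSeries.coeff_smul, hμ0]
    simp [c]
  -- the difference is `Δ` times a form of lower weight
  set φ := ModularForm.toCuspForm (f - c • μ) hcusp
  have hφ : (⇑(f - c • μ) : ℍ → ℂ) = Δ * (CuspForm.discriminantEquiv φ : ℍ → ℂ) := by
    rw [ModularForm.discriminant_mul_discriminantEquiv]
    rfl
  have hmem : (⇑(f - c • μ) : ℍ → ℂ) ∈ monoSpan R k := by
    rw [hφ]
    rcases lt_or_ge k 12 with h12 | h12
    · rw [ModularFormClass.levelOne_neg_weight_eq_zero (by omega) (CuspForm.discriminantEquiv φ),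
        mul_zero]
      exact zero_mem _
    · have hG : qE ⇑(CuspForm.discriminantEquiv φ) ∈ serRing R := by
        refine mem_serRing_of_discriminant_mul (bddPer_levelOne _) ?_
        rw [← hφ, hsub, hμq]
        exact sub_mem hf (smul_mem_serRing hcR (map_int_mem_serRing R _))
      have := ih (k - 12) (by omega) (ModularForm.mcast (by omega) (CuspForm.discriminantEquiv φ))
        (by rwa [ModularForm.coe_mcast])
      rw [ModularForm.coe_mcast] at this
      refine Submodule.span_induction (p := fun g _ => Δ * g ∈ monoSpan R k) ?_ ?_ ?_ ?_ this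
      · rintro g ⟨i, a', b', hab', rfl⟩
        rw [discriminant_mul_monoF]
        exact Submodule.subset_span ⟨i + 1, a', b', by omega, rfl⟩
      · simp
      · intro x y _ _ hx hy; rw [mul_add]; exact add_mem hx hy
      · intro t x _ hx; rw [mul_smul_comm]; exact Submodule.smul_mem _ _ hx
  -- put the two parts together
  have e : (⇑f : ℍ → ℂ) = ⇑(f - c • μ) + (⟨c, hcR⟩ : R) • monoF 0 a b := by
    rw [Subring.smul_def, ← hμc, FunLike.coe_sub, FunLike.coe_smul, sub_add_cancel]
  rw [e]
  exact add_mem hmem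
    (Submodule.smul_mem _ _ (Submodule.subset_span ⟨0, a, b, by omega, rfl⟩))

end Fermat.MF.Eisen
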