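import Fermat.Agent.MF.Eisen.Trace
import Fermat.Agent.MF.Eisen.LevelOneInt
import Fermat.Agent.MF.Eisen.Duality
import Fermat.Agent.MF.Primitive
import Mathlib.NumberTheory.LSeries.HurwitzZetaValues

/-!
# The Eisenstein series of weight two on `Γ₀(p)` and a congruent cusp form

From an integral cusp form congruent to `∑ σ'(n) qⁿ` we obtain a form with constant q-series
modulo `24 m`, together with its behaviour under `S`.

`exists_congPair` packages this as a `CongPair`, which `Discriminant`, `Three` and `Two` show to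
have small modulus.
-/

namespace Fermat.MF.Eisen

open UpperHalfPlane hiding I
open Fermat.MC CongruenceSubgroup ModularForm Complex
open scoped MatrixGroups ModularForm Manifold Real

local notation "E2" => EisensteinSeries.E2

/-- The correction term `c / (2 π i (c z + d))` in the transformation law of `E₂`. -/
noncomputable def uTerm (γ : SL(2, ℤ)) : ℍ → ℂ := fun z =>
  (2 * π * I)⁻¹ * ((γ 1 0 : ℂ) / denom γ z)

/-- The transformation law of `E₂`. -/
theorem E2_slash (γ : SL(2, ℤ)) : (E2 ∣[(2 : ℤ)] γ) = E2 + (12 : ℂ) • uTerm γ := by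
  rw [EisensteinSeries.E2_slash_action]
  funext z
  simp only [Pi.sub_apply, Pi.add_apply, Pi.smul_apply, EisensteinSeries.D2, uTerm, smul_eq_mul,
    riemannZeta_two]
  have hπ : (π : ℂ) ≠ 0 := ofReal_ne_zero.mpr Real.pi_ne_zero
  have hd : denom (γ : GL (Fin 2) ℝ) z ≠ 0 := denom_ne_zero _ z
  field_simp
  ring_nf
  simp

/-- The slash of a difference. -/
theorem sub_slash {G : Type*} [Monoid G] {α : Type*} [AddGroup α] [SlashAction ℤ G α] (k : ℤ)
    (g : G) (a b : α) : (a - b) ∣[k] g = a ∣[k] g - b ∣[k] g := by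
  rw [sub_eq_add_neg, SlashAction.add_slash, SlashAction.neg_slash, sub_eq_add_neg]

/-- The denominator of an element of `SL(2, ℤ)`. -/
theorem denom_SL (g : SL(2, ℤ)) (w : ℂ) :
    denom (g : GL (Fin 2) ℝ) w = (g 1 0 : ℂ) * w + (g 1 1 : ℂ) := by
  simp [denom]

variable (p : ℕ) [hp : Fact p.Prime]

/-- `p E₂(pτ) - E₂(τ)`. -/
noncomputable def eisBase : ℍ → ℂ := (E2 ∣[(2 : ℤ)] heckeDiagMatrix p) - E2

/-- The correction term of `δ`, slashed by `diag (p, 1)`, is that of the conjugate `γ`. -/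
theorem uTerm_slash_diag {γ δ : SL(2, ℤ)} (h1 : δ 1 0 * (p : ℤ) = γ 1 0) (h2 : δ 1 1 = γ 1 1) :
    (uTerm δ ∣[(2 : ℤ)] heckeDiagMatrix p) = uTerm γ := by
  funext z
  rw [slash_heckeDiagMatrix_apply 2 hp.out.ne_zero, uTerm, uTerm]
  have e : denom (δ : GL (Fin 2) ℝ) (heckeDiagMatrix p • z : ℍ) = denom (γ : GL (Fin 2) ℝ) z := by
    rw [denom_SL, denom_SL, coe_heckeDiagMatrix_smul hp.out.ne_zero, ← h1, h2]; push_cast; ring
  rw [e, ← h1]
  push_cast
  norm_num
  ring

/-- `p E₂(pτ) - E₂(τ)` is invariant under `Γ₀(p)`. -/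
theorem isInv_eisBase : IsInv p 2 (eisBase p) := fun γ hγ => by
  obtain ⟨δ, hδ, -, h1, h2⟩ := diag_mul_SL hγ
  rw [eisBase, sub_slash, E2_slash γ]
  have e : ((E2 ∣[(2 : ℤ)] heckeDiagMatrix p) ∣[(2 : ℤ)] γ)
      = (E2 ∣[(2 : ℤ)] heckeDiagMatrix p) + (12 : ℂ) • uTerm γ := by
    rw [ModularForm.SL_slash, ← SlashAction.slash_mul, hδ, SlashAction.slash_mul,
      ← ModularForm.SL_slash, E2_slash, SlashAction.add_slash, ModularForm.smul_slash,
      uTerm_slash_diag p h1 h2]
    simp [σ_heckeDiagMatrix]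
  rw [e]
  abel

/-- The slash by `diag (p, 1)` then by `heckeMatrix p 0` is the identity in weight two. -/
theorem slash_diag_slash_zero (f : ℍ → ℂ) :
    ((f ∣[(2 : ℤ)] heckeDiagMatrix p) ∣[(2 : ℤ)] heckeMatrix p 0) = f := by
  funext z
  rw [slash_heckeMatrix_apply 2 hp.out.ne_zero, slash_heckeDiagMatrix_apply 2 hp.out.ne_zero]
  have hp0 : (p : ℂ) ≠ 0 := by exact_mod_cast hp.out.ne_zero
  have e : heckeDiagMatrix p • heckeMatrix p 0 • z = z := by
    ext
    rw [coe_heckeDiagMatrix_smul hp.out.ne_zero, coe_heckeMatrix_smul hp.out.ne_zero]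
    field_simp
    simp
  rw [e]
  norm_num
  field_simp

/-- The correction term of `S` is fixed by `heckeMatrix p 0`. -/
theorem uTerm_S_slash_zero :
    (uTerm ModularGroup.S ∣[(2 : ℤ)] heckeMatrix p 0) = uTerm ModularGroup.S := by
  funext z
  rw [slash_heckeMatrix_apply 2 hp.out.ne_zero, uTerm]
  rw [denom_SL, coe_heckeMatrix_smul hp.out.ne_zero]
  have hp0 : (p : ℂ) ≠ 0 := by exact_mod_cast hp.out.ne_zero
  rw [uTerm, denom_SL]
  simp [ModularGroup.coe_S]
  field_simp

/-- The companion of `p E₂(pτ) - E₂(τ)` at the cusp `0`. -/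
theorem eisBase_slash_S :
    (eisBase p ∣[(2 : ℤ)] ModularGroup.S) = -(eisBase p ∣[(2 : ℤ)] heckeMatrix p 0) := by
  have e : ((E2 ∣[(2 : ℤ)] heckeDiagMatrix p) ∣[(2 : ℤ)] ModularGroup.S)
      = (E2 ∣[(2 : ℤ)] heckeMatrix p 0) + (12 : ℂ) • uTerm ModularGroup.S := by
    rw [ModularForm.SL_slash, ← SlashAction.slash_mul, diag_mul_S, SlashAction.slash_mul,
      ← ModularForm.SL_slash, E2_slash, SlashAction.add_slash, ModularForm.smul_slash,
      uTerm_S_slash_zero]
    simp [σ_heckeMatrix]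
  rw [eisBase, sub_slash, sub_slash, slash_diag_slash_zero, e, E2_slash]
  abel

/-- `p E₂(pτ) - E₂(τ)` is periodic and bounded at `∞`. -/
theorem bddPer_eisBase : BddPer (eisBase p) := by
  have : NeZero p := ⟨hp.out.ne_zero⟩
  rw [eisBase, diag_slash_eq]
  exact bddPer_sub (bddPer_smul (bddPer_scaleF p bddPer_E2) _) bddPer_E2

/-- The divisor sum split at `p`. -/
theorem sum_divisors_eq_sigmaAway (n : ℕ) :
    ∑ d ∈ n.divisors, d = sigmaAway p n + if p ∣ n then p * ∑ e ∈ (n / p).divisors, e else 0 := by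
  classical
  rw [sigmaAway, ← Finset.sum_filter_add_sum_filter_not n.divisors (fun d => ¬ p ∣ d)]
  congr 1
  simp only [not_not]
  split_ifs with h
  · obtain ⟨k, rfl⟩ := h
    rw [Nat.mul_div_cancel_left _ hp.out.pos, Finset.mul_sum]
    refine (Finset.sum_nbij (fun e => p * e) ?_ ?_ ?_ fun _ _ => rfl).symm
    · intro e he
      simp only [Nat.mem_divisors] at he
      simp [Finset.mem_filter, Nat.mem_divisors, mul_dvd_mul_left p he.1, he.2, hp.out.ne_zero]
    · intro a _ b _ hab
      exact Nat.eq_of_mul_eq_mul_left hp.out.pos hab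
    · intro d hd
      simp only [Finset.coe_filter, Set.mem_ofPred_eq, Nat.mem_divisors] at hd
      obtain ⟨⟨hdk, hne⟩, e, rfl⟩ := hd
      exact ⟨e, by
          simp [Nat.dvd_of_mul_dvd_mul_left hp.out.pos hdk, (mul_ne_zero_iff.mp hne).2], rfl⟩
  · refine Finset.sum_eq_zero fun d hd => ?_
    simp only [Finset.mem_filter, Nat.mem_divisors] at hd
    exact absurd (hd.2.trans hd.1.1) h

/-- The q-series of `eisBase p`. -/
noncomputable def eisBaseSer : PowerSeries ℤ :=
  PowerSeries.mk fun n => if n = 0 then (p : ℤ) - 1 else 24 * sigmaAway p n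

/-- The expansion of the Eisenstein series of level `p`. -/
theorem qE_eisBase : qE (eisBase p) = PowerSeries.map (Int.castRingHom ℂ) (eisBaseSer p) := by
  have : NeZero p := ⟨hp.out.ne_zero⟩
  ext n
  rw [eisBase, diag_slash_eq, qE_sub (bddPer_smul (bddPer_scaleF p bddPer_E2) _) bddPer_E2,
    qE_smul (bddPer_scaleF p bddPer_E2), map_sub, PowerSeries.coeff_smul,
    coeff_qE_scaleF p bddPer_E2, qE_E2]
  simp only [spread, PowerSeries.coeff_map, eisenstein2, eisBaseSer, PowerSeries.coeff_mk,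
    eq_intCast, smul_eq_mul]
  norm_num
  rcases eq_or_ne n 0 with rfl | hn
  · simp
  simp only [if_neg hn]
  have hs : (∑ d ∈ n.divisors, (d : ℂ)) = (sigmaAway p n : ℂ)
      + if p ∣ n then (p : ℂ) * ∑ e ∈ (n / p).divisors, (e : ℂ) else 0 := by
    have := congrArg (Nat.cast : ℕ → ℂ) (sum_divisors_eq_sigmaAway p n)
    push_cast at this
    exact this
  split_ifs at hs ⊢ with h h'
  · exact absurd (h'.resolve_left hp.out.ne_zero)
      (not_lt.mpr (Nat.le_of_dvd (Nat.pos_of_ne_zero hn) h))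
  · linear_combination 24 * hs
  · linear_combination 24 * hs

section Cusp

variable {p} (g : CuspForm (Gamma0 p) 2)

/-- The image of a cusp form under the Fricke involution. -/
noncomputable def frickeFn : ℍ → ℂ :=
  (⇑g ∣[(2 : ℤ)] ModularGroup.S) ∣[(2 : ℤ)] heckeDiagMatrix p

/-- A cusp form on `Γ₀(p)` is invariant. -/
theorem isInv_cusp : IsInv p 2 g := fun γ hγ => by
  have : NeZero p := ⟨hp.out.ne_zero⟩
  exact Fermat.MF.slash_of_mem_Gamma0 g hγ

omit hp in
/-- A cusp form is periodic and bounded at `∞`. -/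
theorem bddPer_cusp : BddPer (⇑g) :=
  bddPer_of_modularFormClass g (one_mem_periods p)

/-- The Fricke image is invariant under `Γ₀(p)`. -/
theorem isInv_fricke : IsInv p 2 (frickeFn g) := fun γ hγ => by
  have : NeZero p := ⟨hp.out.ne_zero⟩
  obtain ⟨δ, hδ, h01, h10, h11⟩ := diag_mul_SL hγ
  have hmem : ModularGroup.S * δ * ModularGroup.S⁻¹ ∈ Gamma0 p := by
    rw [Gamma0_mem, ZMod.intCast_zmod_eq_zero_iff_dvd]
    refine ⟨-γ 0 1, ?_⟩
    simp [Matrix.SpecialLinearGroup.coe_mul, Matrix.SpecialLinearGroup.coe_inv,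
      ModularGroup.coe_S, Matrix.adjugate_fin_two, Matrix.mul_apply, Matrix.vecMul, dotProduct,
      Fin.sum_univ_two, h01]
  rw [frickeFn, ModularForm.SL_slash, ← SlashAction.slash_mul, hδ, SlashAction.slash_mul,
    ← ModularForm.SL_slash, ← SlashAction.slash_mul,
    show ModularGroup.S * δ = ModularGroup.S * δ * ModularGroup.S⁻¹ * ModularGroup.S by group,
    SlashAction.slash_mul, isInv_cusp g _ hmem]

/-- The Fricke image is periodic and bounded at `∞`. -/
theorem bddPer_fricke : BddPer (frickeFn g) := by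
  have : NeZero p := ⟨hp.out.ne_zero⟩
  have hm : MDiff (frickeFn g) :=
    (Fermat.MF.slash_mdifferentiable g _).slash _ _
  refine ⟨hm, ext_add_one _ fun z => ?_, ?_⟩
  · have h := congrFun (isInv_fricke g _ (T_mem_Gamma0 p)) z
    rw [ModularForm.SL_slash_apply] at h
    have hd : denom ((ModularGroup.T : SL(2, ℤ)) : GL (Fin 2) ℝ) z = 1 := by
      simp [denom, ModularGroup.coe_T]
    rw [hd, one_zpow, mul_one] at h
    exact h
  · rw [frickeFn, diag_slash_eq]
    exact Filter.BoundedAtFilter.smul _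
      ((CuspFormClass.zero_at_infty_slash g _).isBoundedAtImInfty.comp_tendsto (tendsto_affH _ _))

/-- The Fricke image at the cusp `0`. -/
theorem fricke_slash_S :
    (frickeFn g ∣[(2 : ℤ)] ModularGroup.S) = ⇑g ∣[(2 : ℤ)] heckeMatrix p 0 := by
  have e : (⇑g ∣[(2 : ℤ)] (ModularGroup.S * ModularGroup.S)) = ⇑g := by
    have : NeZero p := ⟨hp.out.ne_zero⟩
    apply isInv_cusp g
    simp [Gamma0_mem, ModularGroup.coe_S, Matrix.mul_apply, Fin.sum_univ_two]
  rw [frickeFn, ModularForm.SL_slash (f := (⇑g ∣[(2 : ℤ)] ModularGroup.S) ∣[(2 : ℤ)]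
    heckeDiagMatrix p), ← SlashAction.slash_mul _ (heckeDiagMatrix p), diag_mul_S,
    SlashAction.slash_mul,
    ← ModularForm.SL_slash, ← SlashAction.slash_mul, e]

/-- In weight two the Fricke image is `-U_p`, as no form of level one exists. -/
theorem fricke_eq_neg_heckeU : frickeFn g = -(heckeU 2 p ⇑g) := by
  have : NeZero p := ⟨hp.out.ne_zero⟩
  obtain ⟨F, hF⟩ := exists_trace (k := 2) (isInv_fricke g) (bddPer_fricke g) (bddPer_cusp g) 1
    (by rw [one_smul]; exact fricke_slash_S g)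
  rw [rank_zero_iff_forall_zero.mp ModularForm.levelOne_weight_two_rank_zero F, FunLike.coe_zero,
    qE_zero, one_smul] at hF
  have hU : BddPer (heckeU 2 p ⇑g) := bddPer_heckeU p (bddPer_cusp g) 2
  have h0 : frickeFn g + heckeU 2 p ⇑g = 0 := eq_of_qE_eq ((bddPer_fricke g).add hU) bddPer_zero
    (by rw [qE_add (bddPer_fricke g) hU, qE_zero]; exact hF.symm)
  exact eq_neg_of_add_eq_zero_left h0

/-- A cusp form at the cusp `0` is minus its `U_p`, slashed by `heckeMatrix p 0`. -/
theorem cusp_slash_S :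
    (⇑g ∣[(2 : ℤ)] ModularGroup.S) = -(heckeU 2 p ⇑g ∣[(2 : ℤ)] heckeMatrix p 0) := by
  rw [← SlashAction.neg_slash, ← fricke_eq_neg_heckeU, frickeFn, slash_diag_slash_zero]

end Cusp

/-- A weight two form on `Γ₀(p)` with q-series `≡ p - 1` modulo `M`, together with its companion
at the cusp `0`. -/
structure CongPair (M : ℕ) where
  /-- The form of weight two on `Γ₀(p)`. -/
  H : ℍ → ℂ
  /-- The companion of the form, giving its slash at the cusp `0`. -/
  H' : ℍ → ℂ
  /-- The integral q-series of the form. -/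
  ser : PowerSeries ℤ
  /-- The integral q-series of the companion. -/
  ser' : PowerSeries ℤ
  /-- The form is invariant of weight two under `Γ₀(p)`. -/
  isInv : IsInv p 2 H
  /-- The form is holomorphic, periodic and bounded at infinity. -/
  bdd : BddPer H
  /-- The companion is holomorphic, periodic and bounded at infinity. -/
  bdd' : BddPer H'
  /-- The form at the cusp `0` is minus the rescaled companion. -/
  slash_S : (H ∣[(2 : ℤ)] ModularGroup.S) = -(H' ∣[(2 : ℤ)] heckeMatrix p 0)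
  /-- The q-series of the form is `ser`. -/
  qE_H : qE H = PowerSeries.map (Int.castRingHom ℂ) ser
  /-- The q-series of the companion is `ser'`. -/
  qE_H' : qE H' = PowerSeries.map (Int.castRingHom ℂ) ser'
  /-- `ser` is congruent to the constant `p - 1` modulo `M`. -/
  congr : ∀ n, (M : ℤ) ∣ (ser - PowerSeries.C ((p : ℤ) - 1)).coeff n
  /-- `ser'` is congruent to the constant `p - 1` modulo `M`. -/
  congr' : ∀ n, (M : ℤ) ∣ (ser' - PowerSeries.C ((p : ℤ) - 1)).coeff n

/-- An Eisenstein congruence modulo `m` gives a congruence with a constant modulo `24 m`. -/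
theorem exists_congPair {m : ℕ} (g : CuspForm (Gamma0 p) 2) (a : ℕ → ℤ)
    (ha : ∀ n, ModularFormClass.qCoeff g n = a n)
    (hcong : ∀ n, 1 ≤ n → (m : ℤ) ∣ a n - sigmaAway p n) :
    Nonempty (CongPair p (24 * m)) := by
  have : NeZero p := ⟨hp.out.ne_zero⟩
  have hg := bddPer_cusp g
  have hU : BddPer (heckeU 2 p ⇑g) := bddPer_heckeU p hg 2
  -- `g` and `U_p g` have the integral expansions `a n` and `a (n p)`
  have hag : qE ⇑g = PowerSeries.map (Int.castRingHom ℂ) (PowerSeries.mk a) := by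
    ext n; simp [qE, ← ha, ModularFormClass.qCoeff]
  have ha0 : a 0 = 0 := Int.cast_injective (α := ℂ)
    (by rw [← ha, qCoeff_form_zero_index, Int.cast_zero])
  have haU : qE (heckeU 2 p ⇑g) =
      PowerSeries.map (Int.castRingHom ℂ) (PowerSeries.mk fun n => a (n * p)) := by
    ext n; simp [coeff_qE_heckeU p hg, hag]

  -- subtract `24 g` and `24 U_p g` from the Eisenstein series
  refine ⟨⟨eisBase p - (24 : ℂ) • ⇑g, eisBase p - (24 : ℂ) • heckeU 2 p ⇑g,
    eisBaseSer p - PowerSeries.mk (fun n => 24 * a n),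
    eisBaseSer p - PowerSeries.mk (fun n => 24 * a (n * p)),
    fun γ hγ => ?_, bddPer_sub (bddPer_eisBase p) (bddPer_smul hg _),
    bddPer_sub (bddPer_eisBase p) (bddPer_smul hU _), ?_, ?_, ?_, fun n => ?_, fun n => ?_⟩⟩
  · rw [sub_slash, ModularForm.SL_smul_slash, isInv_eisBase p γ hγ, isInv_cusp g γ hγ]
  · rw [sub_slash, ModularForm.SL_smul_slash, eisBase_slash_S, cusp_slash_S,
      sub_slash, ModularForm.smul_slash]
    simp [σ_heckeMatrix]
    abel
  · rw [qE_sub (bddPer_eisBase p) (bddPer_smul hg _), qE_smul hg, qE_eisBase, hag]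
    ext n; simp
  · rw [qE_sub (bddPer_eisBase p) (bddPer_smul hU _), qE_smul hU, qE_eisBase, haU]
    ext n; simp
  -- the congruence of `a` with `sigmaAway` gives divisibility by `24 m`
  · rcases eq_or_ne n 0 with rfl | hn
    · rw [map_sub, map_sub, PowerSeries.coeff_C, if_pos rfl]
      simp [eisBaseSer, ha0]
    · have := mul_dvd_mul_left (24 : ℤ) (hcong n (Nat.one_le_iff_ne_zero.mpr hn))
      rw [← dvd_neg] at this
      rw [map_sub, map_sub, PowerSeries.coeff_C, if_neg hn, sub_zero, eisBaseSer,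
        PowerSeries.coeff_mk, PowerSeries.coeff_mk, if_neg hn]
      push_cast
      rwa [← mul_sub, ← neg_sub, mul_neg]
  -- likewise at `n p`, where `sigmaAway` takes the same value
  · rcases eq_or_ne n 0 with rfl | hn
    · rw [map_sub, map_sub, PowerSeries.coeff_C, if_pos rfl]
      simp [eisBaseSer, ha0]
    · have := mul_dvd_mul_left (24 : ℤ) (hcong (n * p)
        (Nat.one_le_iff_ne_zero.mpr (mul_ne_zero hn hp.out.ne_zero)))
      rw [sigmaAway_mul_self p hn, ← dvd_neg] at this
      rw [map_sub, map_sub, PowerSeries.coeff_C, if_neg hn, sub_zero, eisBaseSer,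
        PowerSeries.coeff_mk, PowerSeries.coeff_mk, if_neg hn]
      push_cast
      rwa [← mul_sub, ← neg_sub, mul_neg]

end Fermat.MF.Eisen
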