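import Fermat.Agent.MF.Eisen.EisHom
import Fermat.Agent.MF.Eisen.Duality

/-!
# Hecke operators on periods

The periods of `w f` are integral combinations of those of `f`, and the Eisenstein homomorphism
is an eigenvector of the same combinations with eigenvalue `η w`.

`exists_system_T` and `exists_system_U` give the matrices; `Lower` concludes.
-/

namespace Fermat.MF.Eisen

open CongruenceSubgroup ModularCurve ModularCurve.Period Fermat.MF UpperHalfPlane Filter Topology
open scoped MatrixGroups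

/-- A primitive composed with an affine map is a primitive of the composed function times its
slope. -/
theorem hasPrim_comp_affine {g K : ℍ → ℂ} (h : HasPrim g K) (A : GL (Fin 2) ℝ) (a b : ℝ)
    (hA : ∀ τ : ℍ, ((A • τ : ℍ) : ℂ) = (a : ℂ) * (τ : ℂ) + b) :
    HasPrim (fun τ => (a : ℂ) * g (A • τ)) (fun τ => K (A • τ)) := by
  intro τ
  have h1 : HasDerivAt (fun w : ℂ => (a : ℂ) * w + b) (a : ℂ) (τ : ℂ) := by
    simpa using ((hasDerivAt_id (τ : ℂ)).const_mul (a : ℂ)).add_const (b : ℂ)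
  have h2 : HasDerivAt (K ∘ ofComplex) (g (A • τ)) ((a : ℂ) * (τ : ℂ) + b) := hA τ ▸ h (A • τ)
  have h3 := h2.comp (τ : ℂ) h1
  rw [mul_comm] at h3
  refine h3.congr_of_eventuallyEq ?_
  filter_upwards [isOpen_upperHalfPlaneSet.mem_nhds τ.im_pos] with w hw
  have e : (a : ℂ) * w + b = ((A • ofComplex w : ℍ) : ℂ) := by
    rw [hA, ofComplex_apply_of_im_pos hw]
  simp only [Function.comp_apply, e, ofComplex_apply]

/-- An affine map of positive slope tends to `∞` at `∞`. -/
theorem tendsto_smul_atImInfty (A : GL (Fin 2) ℝ) {a : ℝ} (b : ℝ) (ha : 0 < a)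
    (hA : ∀ τ : ℍ, ((A • τ : ℍ) : ℂ) = (a : ℂ) * (τ : ℂ) + b) :
    Tendsto (fun τ : ℍ => A • τ) atImInfty atImInfty := by
  rw [atImInfty, tendsto_comap_iff]
  have : (UpperHalfPlane.im ∘ fun τ : ℍ => A • τ) = fun τ : ℍ => a * τ.im := by
    funext τ
    have := congrArg Complex.im (hA τ)
    simpa using this
  rw [this]
  exact tendsto_comap.const_mul_atTop ha

variable {p : ℕ} [hp : Fact p.Prime]

/-- The logarithm turns products into sums. -/
theorem unitLog_mul {n : ℕ} (hn : n ∣ p - 1) (u v : (ZMod p)ˣ) :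
    (unitLog p (u * v) : ZMod n) = unitLog p u + unitLog p v := by
  rw [← Nat.cast_add]
  exact unitLog_cast_eq hn (by rw [pow_add, gen_pow_unitLog, gen_pow_unitLog])

/-- A system of upper triangular matrices computing an operator on cusp forms. -/
structure PeriodSystem (p : ℕ) (ι : Type) [Fintype ι]
    (T : Module.End ℂ (CuspForm (Gamma0 p) 2)) where
  /-- The integral matrices computing the operator. -/
  B : ι → Matrix (Fin 2) (Fin 2) ℤ
  /-- The same matrices in `GL (2, ℝ)`. -/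
  act : ι → GL (Fin 2) ℝ
  /-- The scaling factors of the affine maps. -/
  scale : ι → ℝ
  /-- The translations of the affine maps. -/
  shift : ι → ℝ
  /-- `act i` has the entries of `B i`. -/
  act_val : ∀ i, (act i : Matrix (Fin 2) (Fin 2) ℝ) = (B i).map (fun x : ℤ => (x : ℝ))
  /-- The matrices are upper triangular. -/
  lower : ∀ i, B i 1 0 = 0
  /-- The upper left entries are prime to `p`. -/
  upper_ne : ∀ i, ((B i 0 0 : ℤ) : ZMod p) ≠ 0
  /-- The scaling factors are positive. -/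
  scale_pos : ∀ i, 0 < scale i
  /-- `act i` is the affine map `τ ↦ scale i * τ + shift i`. -/
  act_smul : ∀ i (τ : ℍ), ((act i • τ : ℍ) : ℂ) = (scale i : ℂ) * (τ : ℂ) + shift i
  /-- The operator is the sum of the slashes by the matrices. -/
  apply_eq : ∀ f (τ : ℍ), T f τ = ∑ i, (scale i : ℂ) * f (act i • τ)
  /-- Right multiplication by `Γ₀(p)` permutes the cosets. -/
  rperm : ∀ i (γ : Gamma0 p), ∃ k, ∃ δ : Gamma0 p,
    B i * ((γ : SL(2, ℤ)) : Matrix (Fin 2) (Fin 2) ℤ)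
      = ((δ : SL(2, ℤ)) : Matrix (Fin 2) (Fin 2) ℤ) * B k
  /-- Distinct matrices give distinct cosets. -/
  uniq : ∀ i k (δ : Gamma0 p), ((δ : SL(2, ℤ)) : Matrix (Fin 2) (Fin 2) ℤ) * B i = B k → i = k
  /-- `jConjMat` permutes the cosets. -/
  jperm : ∀ i, ∃ k, ∃ η : Gamma0 p,
    jConjMat (B i) = ((η : SL(2, ℤ)) : Matrix (Fin 2) (Fin 2) ℤ) * B k

namespace PeriodSystem

variable {ι : Type} [Fintype ι] {T : Module.End ℂ (CuspForm (Gamma0 p) 2)}
  (P : PeriodSystem p ι T)

omit hp in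
/-- The primitive of `T f` is the sum of the moved primitives of `f`. -/
theorem cuspPrim_eq [NeZero p] (f : CuspForm (Gamma0 p) 2) :
    cuspPrim (T f) = fun τ => ∑ i, cuspPrim f (P.act i • τ) := by
  refine (eq_cuspPrim (fun τ => ?_) ?_).symm
  · have h := HasDerivAt.fun_sum (u := (Finset.univ : Finset ι)) fun i _ =>
      hasPrim_comp_affine (hasPrim_cuspPrim f) (P.act i) (P.scale i) (P.shift i) (P.act_smul i) τ
    rw [P.apply_eq]
    exact h
  · have h := tendsto_finsetSum (Finset.univ : Finset ι) fun i _ => (tendsto_cuspPrim f).comp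
      (tendsto_smul_atImInfty (P.act i) (P.shift i) (P.scale_pos i) (P.act_smul i))
    rw [Finset.sum_const_zero] at h
    exact h

omit hp in
/-- The matrices of a system permute along the group relations, on points. -/
theorem act_smul_smul {i k : ι} {γ δ : Gamma0 p}
    (h : P.B i * ((γ : SL(2, ℤ)) : Matrix (Fin 2) (Fin 2) ℤ)
      = ((δ : SL(2, ℤ)) : Matrix (Fin 2) (Fin 2) ℤ) * P.B k) (τ : ℍ) :
    P.act i • ((γ : SL(2, ℤ)) • τ) = (δ : SL(2, ℤ)) • (P.act k • τ) := by
  change P.act i • (((γ : SL(2, ℤ)) : GL (Fin 2) ℝ) • τ)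
    = ((δ : SL(2, ℤ)) : GL (Fin 2) ℝ) • (P.act k • τ)
  rw [← mul_smul, ← mul_smul]
  congr 1
  apply Units.ext
  have h' := congrArg (fun M : Matrix (Fin 2) (Fin 2) ℤ => M.map (Int.castRingHom ℝ)) h
  simp only [Matrix.map_mul] at h'
  rw [Units.val_mul, Units.val_mul, P.act_val, P.act_val]
  exact h'

omit hp in
/-- The map of indices induced by an element of `Γ₀(p)` is bijective. -/
theorem bijective_of_rperm {γ : Gamma0 p} {σ : ι → ι} {δ : ι → Gamma0 p}
    (h : ∀ i, P.B i * ((γ : SL(2, ℤ)) : Matrix (Fin 2) (Fin 2) ℤ)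
      = ((δ i : SL(2, ℤ)) : Matrix (Fin 2) (Fin 2) ℤ) * P.B (σ i)) : Function.Bijective σ := by
  refine Finite.injective_iff_bijective.mp fun a b hab => P.uniq a b (δ b * (δ a)⁻¹) ?_
  set c : Gamma0 p := δ b * (δ a)⁻¹ with hc
  have e : c * δ a = δ b := by rw [hc, inv_mul_cancel_right]
  have h1 : ((c : SL(2, ℤ)) : Matrix (Fin 2) (Fin 2) ℤ) * P.B a
      * ((γ : SL(2, ℤ)) : Matrix (Fin 2) (Fin 2) ℤ)
      = P.B b * ((γ : SL(2, ℤ)) : Matrix (Fin 2) (Fin 2) ℤ) := by
    rw [mul_assoc, h a, h b, ← mul_assoc, ← Matrix.SpecialLinearGroup.coe_mul, ← Subgroup.coe_mul,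
      e, hab]
  have h2 := congrArg (fun M => M * (((γ⁻¹ : Gamma0 p) : SL(2, ℤ)) : Matrix (Fin 2) (Fin 2) ℤ)) h1
  simp only [mul_assoc, ← Matrix.SpecialLinearGroup.coe_mul, ← Subgroup.coe_mul, mul_inv_cancel,
    Subgroup.coe_one, Matrix.SpecialLinearGroup.coe_one, mul_one] at h2
  exact h2

omit hp in
/-- The period of `T f` through any decomposition. -/
theorem periodMap_eq_sum [NeZero p] (f : CuspForm (Gamma0 p) 2) {γ : Gamma0 p} {σ : ι → ι}
    {δ : ι → Gamma0 p}
    (h : ∀ i, P.B i * ((γ : SL(2, ℤ)) : Matrix (Fin 2) (Fin 2) ℤ)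
      = ((δ i : SL(2, ℤ)) : Matrix (Fin 2) (Fin 2) ℤ) * P.B (σ i)) :
    periodMap p (T f) (Additive.ofMul γ) = ∑ i, periodMap p f (Additive.ofMul (δ i)) := by
  have τ : ℍ := UpperHalfPlane.I
  rw [periodMap_eq _ γ τ, P.cuspPrim_eq]
  have h1 : ∀ i, periodMap p f (Additive.ofMul (δ i))
      = cuspPrim f (P.act i • ((γ : SL(2, ℤ)) • τ)) - cuspPrim f (P.act (σ i) • τ) := fun i => by
    rw [periodMap_eq f (δ i) (P.act (σ i) • τ), P.act_smul_smul (h i)]
  simp only [h1, Finset.sum_sub_distrib]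
  congr 1
  exact (Fintype.sum_bijective σ (P.bijective_of_rperm h) _ _ fun _ => rfl).symm

omit hp in
/-- The permutation given by the conjugation `jConjMat` is a bijection. -/
theorem jConj_bijective {π : ι → ι} {η : ι → Gamma0 p}
    (hη : ∀ i, jConjMat (P.B i) = ((η i : SL(2, ℤ)) : Matrix (Fin 2) (Fin 2) ℤ) * P.B (π i)) :
    Function.Bijective π := by
  refine Finite.injective_iff_bijective.mp fun a b hab =>
    P.uniq a b (jConjGamma0 p (η b * (η a)⁻¹)) ?_
  set c : Gamma0 p := η b * (η a)⁻¹ with hc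
  have e : c * η a = η b := by rw [hc, inv_mul_cancel_right]
  have h1 : ((c : SL(2, ℤ)) : Matrix (Fin 2) (Fin 2) ℤ) * jConjMat (P.B a) = jConjMat (P.B b) := by
    rw [hη a, hη b, hab, ← mul_assoc, ← Matrix.SpecialLinearGroup.coe_mul, ← Subgroup.coe_mul, e]
  have h2 := congrArg jConjMat h1
  rw [jConjMat_mul, jConjMat_jConjMat, jConjMat_jConjMat] at h2
  exact h2

omit hp in
/-- The periods of `(T f, T g)`. -/
theorem periodHomPair_eq_sum [NeZero p] (f g : CuspForm (Gamma0 p) 2) {γ : Gamma0 p} {σ : ι → ι}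
    {δ : ι → Gamma0 p}
    (h : ∀ i, P.B i * ((γ : SL(2, ℤ)) : Matrix (Fin 2) (Fin 2) ℤ)
      = ((δ i : SL(2, ℤ)) : Matrix (Fin 2) (Fin 2) ℤ) * P.B (σ i)) :
    periodHomPair p (T f, T g) (Additive.ofMul γ)
      = ∑ i, periodHomPair p (f, g) (Additive.ofMul (δ i)) := by
  choose π η hη using P.jperm
  have hπ := P.jConj_bijective hη
  set e := Equiv.ofBijective π hπ with he
  have hdec : ∀ i, P.B (π i) * ((jConjGamma0 p γ : SL(2, ℤ)) : Matrix (Fin 2) (Fin 2) ℤ)
      = ((((η i)⁻¹ * jConjGamma0 p (δ i) * η (σ i) : Gamma0 p) : SL(2, ℤ)) :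
          Matrix (Fin 2) (Fin 2) ℤ) * P.B (π (σ i)) := by
    intro i
    have h1 := congrArg jConjMat (h i)
    rw [jConjMat_mul, jConjMat_mul, hη, hη] at h1
    have h2 := congrArg
      (fun M => (((η i)⁻¹ : Gamma0 p) : SL(2, ℤ)).val * M) h1
    simp only [← mul_assoc, ← Matrix.SpecialLinearGroup.coe_mul, ← Subgroup.coe_mul,
      inv_mul_cancel, Subgroup.coe_one, Matrix.SpecialLinearGroup.coe_one, one_mul] at h2
    simp only [Subgroup.coe_mul, Matrix.SpecialLinearGroup.coe_mul, jConjGamma0_coe, jConjSL_coe]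
      at h2 ⊢
    exact h2
  have h3 : periodMap p (T f - T g) (Additive.ofMul (jConjGamma0 p γ))
      = ∑ i, periodMap p (f - g) (Additive.ofMul (jConjGamma0 p (δ i))) := by
    rw [← map_sub, P.periodMap_eq_sum (f - g) (γ := jConjGamma0 p γ)
      (σ := fun k => π (σ (e.symm k)))
      (δ := fun k => (η (e.symm k))⁻¹ * jConjGamma0 p (δ (e.symm k)) * η (σ (e.symm k)))
      (fun k => by
        have := hdec (e.symm k)
        rwa [show π (e.symm k) = k from e.apply_symm_apply k] at this)]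
    rw [Fintype.sum_equiv e.symm _ (fun i => periodMap p (f - g)
      (Additive.ofMul ((η i)⁻¹ * jConjGamma0 p (δ i) * η (σ i)))) (fun _ => rfl)]
    simp only [ofMul_mul, ofMul_inv, map_add, map_neg, Finset.sum_add_distrib,
      Finset.sum_neg_distrib]
    have := Fintype.sum_bijective σ (P.bijective_of_rperm h)
      (fun i => periodMap p (f - g) (Additive.ofMul (η (σ i))))
      (fun i => periodMap p (f - g) (Additive.ofMul (η i))) fun _ => rfl
    linear_combination this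
  rw [periodHomPair_apply, ← map_add, P.periodMap_eq_sum (f + g) h, h3, ← Finset.sum_add_distrib]
  exact Finset.sum_congr rfl fun i _ => (periodHomPair_apply f g (δ i)).symm

/-- Over the transferred elements the Eisenstein homomorphism sums to the number of
representatives times its value at `γ`. -/
theorem eisPhi_sum {n : ℕ} (hn : n ∣ p - 1) {γ : Gamma0 p} {σ : ι → ι} {δ : ι → Gamma0 p}
    (h : ∀ i, P.B i * ((γ : SL(2, ℤ)) : Matrix (Fin 2) (Fin 2) ℤ)
      = ((δ i : SL(2, ℤ)) : Matrix (Fin 2) (Fin 2) ℤ) * P.B (σ i)) :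
    ∑ i, eisPhi n (δ i) = (Fintype.card ι : ZMod n) * eisPhi n γ := by
  set b : ι → (ZMod p)ˣ := fun i => Units.mk0 _ (P.upper_ne i) with hb
  have h1 : ∀ i, upperUnit p (δ i) * b (σ i) = b i * upperUnit p γ := by
    intro i
    apply Units.ext
    simp only [Units.val_mul, coe_upperUnit, upperEntry_apply, hb, Units.val_mk0]
    have e := congrArg (fun M : Matrix (Fin 2) (Fin 2) ℤ => ((M 0 0 : ℤ) : ZMod p)) (h i)
    have hc : (((γ : SL(2, ℤ)) 1 0 : ℤ) : ZMod p) = 0 := Gamma0_mem.mp γ.2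
    simp only [Matrix.mul_apply, Fin.sum_univ_two, P.lower, mul_zero, add_zero, Int.cast_add,
      Int.cast_mul, hc] at e
    exact e.symm
  have h2 : ∀ i, eisPhi n (δ i) + (unitLog p (b (σ i)) : ZMod n)
      = (unitLog p (b i) : ZMod n) + eisPhi n γ := fun i => by
    rw [eisPhi, eisPhi, ← unitLog_mul hn, ← unitLog_mul hn, h1]
  have h3 := Finset.sum_congr (s₁ := (Finset.univ : Finset ι)) rfl fun i _ => h2 i
  rw [Finset.sum_add_distrib, Finset.sum_add_distrib,
    Fintype.sum_bijective σ (P.bijective_of_rperm h) _ (fun i => (unitLog p (b i) : ZMod n))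
      (fun _ => rfl), Finset.sum_const, Finset.card_univ, nsmul_eq_mul] at h3
  linear_combination h3

end PeriodSystem

/-- `[1, j; 0, ℓ]`. -/
def colMat (ℓ j : ℕ) : Matrix (Fin 2) (Fin 2) ℤ := !![1, (j : ℤ); 0, (ℓ : ℤ)]

/-- `[ℓ, 0; 0, 1]`. -/
def diagMat (ℓ : ℕ) : Matrix (Fin 2) (Fin 2) ℤ := !![(ℓ : ℤ), 0; 0, 1]

/-- The determinant of `colMat ℓ j` is `ℓ`. -/
theorem det_colMat (ℓ j : ℕ) : (colMat ℓ j).det = ℓ := by simp [colMat, Matrix.det_fin_two_of]

/-- The determinant of `diagMat ℓ` is `ℓ`. -/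
theorem det_diagMat (ℓ : ℕ) : (diagMat ℓ).det = ℓ := by simp [diagMat, Matrix.det_fin_two_of]

omit hp in
/-- A matrix of determinant `ℓ` with an entry of its first column prime to `ℓ` reduces to a
column representative. -/
theorem exists_eq_mul_colMat {ℓ : ℕ} (hℓ : ℓ.Prime) {M : Matrix (Fin 2) (Fin 2) ℤ}
    (hdet : M.det = ℓ) (h10 : (p : ℤ) ∣ M 1 0) (h : ¬ (ℓ : ℤ) ∣ M 0 0 ∨ ¬ (ℓ : ℤ) ∣ M 1 0) :
    ∃ j : Fin ℓ, ∃ δ : Gamma0 p, M = ((δ : SL(2, ℤ)) : Matrix (Fin 2) (Fin 2) ℤ) * colMat ℓ j := by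
  have : Fact ℓ.Prime := ⟨hℓ⟩
  have hz : ∀ x : ℤ, (ℓ : ℤ) ∣ x ↔ (x : ZMod ℓ) = 0 := fun x =>
    (ZMod.intCast_zmod_eq_zero_iff_dvd x ℓ).symm
  have hdet' := congrArg (fun x : ℤ => (x : ZMod ℓ)) hdet
  simp only [Matrix.det_fin_two, Int.cast_sub, Int.cast_mul, Int.cast_natCast, ZMod.natCast_self]
    at hdet'
  simp only [hz] at h
  obtain ⟨t, h1, h2⟩ : ∃ t : ZMod ℓ, (M 0 1 : ZMod ℓ) - M 0 0 * t = 0 ∧
      (M 1 1 : ZMod ℓ) - M 1 0 * t = 0 := by
    rcases h with h | h
    · refine ⟨(M 0 1 : ZMod ℓ) / M 0 0, by field_simp; ring, ?_⟩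
      field_simp
      linear_combination hdet'
    · refine ⟨(M 1 1 : ZMod ℓ) / M 1 0, ?_, by field_simp; ring⟩
      field_simp
      linear_combination -hdet'
  refine ⟨⟨t.val, t.val_lt⟩, ?_⟩
  obtain ⟨q1, hq1⟩ := (hz (M 0 1 - M 0 0 * (t.val : ℤ))).mpr (by simpa using h1)
  obtain ⟨q2, hq2⟩ := (hz (M 1 1 - M 1 0 * (t.val : ℤ))).mpr (by simpa using h2)
  refine ⟨⟨⟨!![M 0 0, q1; M 1 0, q2], ?_⟩, Gamma0_mem.mpr ?_⟩, ?_⟩
  · rw [Matrix.det_fin_two_of]
    rw [Matrix.det_fin_two] at hdet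
    refine mul_left_cancel₀ (Int.natCast_ne_zero.mpr hℓ.ne_zero) ?_
    linear_combination hdet - M 0 0 * hq2 + M 1 0 * hq1
  · simpa using (ZMod.intCast_zmod_eq_zero_iff_dvd (M 1 0) p).mpr h10
  · ext i j
    fin_cases i <;> fin_cases j <;> simp [colMat, Matrix.mul_apply, Fin.sum_univ_two,
      -ZMod.natCast_val]
    · linear_combination hq1
    · linear_combination hq2

/-- The matrices `colMat ℓ i` lie in distinct left orbits of `SL(2, ℤ)`. -/
theorem eq_of_mul_colMat {ℓ : ℕ} {i k : Fin ℓ} {δ : SL(2, ℤ)}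
    (h : (δ : Matrix (Fin 2) (Fin 2) ℤ) * colMat ℓ i = colMat ℓ k) : i = k := by
  have h00 := congrFun (congrFun h 0) 0
  have h01 := congrFun (congrFun h 0) 1
  simp [colMat, Matrix.mul_apply, Fin.sum_univ_two] at h00 h01
  rw [h00, one_mul] at h01
  have := congrArg (fun x : ℤ => (x : ZMod ℓ)) h01
  simp only [Int.cast_add, Int.cast_mul, Int.cast_natCast, ZMod.natCast_self, mul_zero,
    add_zero] at this
  exact Fin.ext (Nat.ModEq.eq_of_lt_of_lt ((ZMod.natCast_eq_natCast_iff _ _ _).mp this) i.2 k.2)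

omit hp in
/-- The lower left entry of an upper triangular matrix times an element of `Γ₀(p)` is divisible
by `p`. -/
theorem dvd_mul_gamma0_10 {B : Matrix (Fin 2) (Fin 2) ℤ} (hB : B 1 0 = 0) (γ : Gamma0 p) :
    (p : ℤ) ∣ (B * ((γ : SL(2, ℤ)) : Matrix (Fin 2) (Fin 2) ℤ)) 1 0 := by
  simp only [Matrix.mul_apply, Fin.sum_univ_two, hB, zero_mul, zero_add]
  exact dvd_mul_of_dvd_right ((ZMod.intCast_zmod_eq_zero_iff_dvd _ p).mp (Gamma0_mem.mp γ.2)) _

/-- The matrices computing `T ℓ`. -/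
theorem exists_system_T {ℓ : ℕ} (hℓ : ℓ.Prime) (hℓp : ¬ ℓ ∣ p) :
    Nonempty (PeriodSystem p (Option (Fin ℓ)) (CuspForm.heckeTLin 2 hℓ hℓp)) := by
  have hℓ0 : ℓ ≠ 0 := hℓ.ne_zero
  have hne : ℓ ≠ p := fun h => hℓp (h ▸ dvd_rfl)
  -- each matrix of determinant `ℓ` reduces to a representative
  have hsel : ∀ M : Matrix (Fin 2) (Fin 2) ℤ, M.det = ℓ → (p : ℤ) ∣ M 1 0 →
      ∃ k : Option (Fin ℓ), ∃ δ : Gamma0 p, M = ((δ : SL(2, ℤ)) : Matrix (Fin 2) (Fin 2) ℤ)
        * k.elim (diagMat ℓ) (fun j => colMat ℓ j) := by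
    intro M hdet h10
    by_cases h : (ℓ : ℤ) ∣ M 0 0 ∧ (ℓ : ℤ) ∣ M 1 0
    · obtain ⟨⟨a, ha⟩, c, hc⟩ := h
      refine ⟨none, ⟨⟨!![a, M 0 1; c, M 1 1], ?_⟩, Gamma0_mem.mpr ?_⟩, ?_⟩
      · rw [Matrix.det_fin_two_of]
        rw [Matrix.det_fin_two] at hdet
        refine mul_left_cancel₀ (Int.natCast_ne_zero.mpr hℓ0) ?_
        linear_combination hdet - M 1 1 * ha + M 0 1 * hc
      · have hco : IsCoprime (p : ℤ) (ℓ : ℤ) := by
          rw [Int.isCoprime_iff_nat_coprime]
          simpa using (Nat.coprime_primes hp.out hℓ).mpr (Ne.symm hne)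
        simpa using (ZMod.intCast_zmod_eq_zero_iff_dvd c p).mpr
          (hco.dvd_of_dvd_mul_left (hc ▸ h10))
      · ext i j
        fin_cases i <;> fin_cases j <;> simp [diagMat, Matrix.mul_apply, Fin.sum_univ_two]
        · linear_combination ha
        · linear_combination hc
    · obtain ⟨j, hj⟩ := exists_eq_mul_colMat (p := p) hℓ hdet h10 (not_and_or.mp h)
      exact ⟨some j, hj⟩
  -- the system
  refine ⟨{
    B := fun i => i.elim (diagMat ℓ) (fun j => colMat ℓ j)
    act := fun i => i.elim (ModularForm.heckeDiagMatrix ℓ) (fun j => ModularForm.heckeMatrix ℓ j)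
    scale := fun i => i.elim (ℓ : ℝ) (fun _ => (ℓ : ℝ)⁻¹)
    shift := fun i => i.elim (0 : ℝ) (fun j => (j : ℝ) / ℓ)
    act_val := ?_, lower := ?_, upper_ne := ?_, scale_pos := ?_, act_smul := ?_, apply_eq := ?_
    rperm := ?_, uniq := ?_, jperm := ?_ }⟩
  · rintro (_ | j)
    · ext a b
      fin_cases a <;> fin_cases b <;> simp [diagMat, hℓ0]
    · ext a b
      fin_cases a <;> fin_cases b <;> simp [colMat, hℓ0]
  · rintro (_ | j) <;> simp [diagMat, colMat]
  · rintro (_ | j)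
    · simpa [diagMat, ZMod.natCast_eq_zero_iff] using
        fun h => hne ((Nat.prime_dvd_prime_iff_eq hp.out hℓ).mp h).symm
    · simp [colMat]
  · have : (0 : ℝ) < ℓ := Nat.cast_pos.mpr hℓ.pos
    rintro (_ | j) <;> simp [this]
  · rintro (_ | j) τ
    · simp [ModularForm.coe_heckeDiagMatrix_smul hℓ0]
    · simp [ModularForm.coe_heckeMatrix_smul hℓ0]
      ring
  · intro f τ
    rw [CuspForm.heckeTLin_apply_apply, ModularForm.heckeT_apply 2 hℓ0, Fintype.sum_option,
      add_comm]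
    simp [Fin.sum_univ_eq_sum_range (fun j =>
      f (ModularForm.heckeMatrix ℓ j • τ)), ← Finset.mul_sum]
  · intro i γ
    refine hsel _ ?_ (dvd_mul_gamma0_10 (by cases i <;> simp [diagMat, colMat]) γ)
    rw [Matrix.det_mul, Matrix.SpecialLinearGroup.det_coe, mul_one]
    cases i <;> simp [det_diagMat, det_colMat]
  -- uniqueness of the representative
  · rintro (_ | i) (_ | k) δ h
    · rfl
    · exfalso
      have h00 := congrFun (congrFun h 0) 0
      simp [diagMat, colMat, Matrix.mul_apply, Fin.sum_univ_two] at h00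
      rcases Int.eq_one_or_neg_one_of_mul_eq_one' h00 with ⟨-, h⟩ | ⟨-, h⟩
      · exact hℓ.ne_one (by exact_mod_cast h)
      · omega
    · exfalso
      have h10 := congrFun (congrFun h 1) 0
      have h11 := congrFun (congrFun h 1) 1
      simp [diagMat, colMat, Matrix.mul_apply, Fin.sum_univ_two] at h10 h11
      rw [h10, zero_mul, zero_add] at h11
      rcases Int.eq_one_or_neg_one_of_mul_eq_one' h11 with ⟨-, h⟩ | ⟨-, h⟩
      · exact hℓ.ne_one (by exact_mod_cast h)
      · omega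
    · exact congrArg some (eq_of_mul_colMat h)
  · intro i
    refine hsel _ ?_ ?_
    · rw [jConjMat_det]
      cases i <;> simp [det_diagMat, det_colMat]
    · cases i <;> simp [diagMat, colMat]

/-- The matrices computing `U p`. -/
theorem exists_system_U [NeZero p] {q : ℕ} (hq : q.Prime) (hqp : q ∣ p) :
    Nonempty (PeriodSystem p (Fin q) (CuspForm.heckeULin 2 hqp)) := by
  obtain rfl := (Nat.prime_dvd_prime_iff_eq hq hp.out).mp hqp
  have hq0 : q ≠ 0 := hq.ne_zero
  -- the `q` upper triangular matrices of `U_q`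
  refine ⟨{
    B := fun j => colMat q j
    act := fun j => ModularForm.heckeMatrix q j
    scale := fun _ => (q : ℝ)⁻¹
    shift := fun j => (j : ℝ) / q
    act_val := ?_, lower := ?_, upper_ne := ?_, scale_pos := ?_, act_smul := ?_, apply_eq := ?_
    rperm := ?_, uniq := ?_, jperm := ?_ }⟩
  · intro j
    ext a b
    fin_cases a <;> fin_cases b <;> simp [colMat, hq0]
  · intro j; simp [colMat]
  · intro j; simp [colMat]
  · intro j; simpa using hq.pos
  · intro j τ
    simp [ModularForm.coe_heckeMatrix_smul hq0]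
    ring
  · intro f τ
    rw [CuspForm.heckeULin_apply_apply, ModularForm.heckeU_apply 2 hq0]
    simp [Fin.sum_univ_eq_sum_range (fun j =>
      f (ModularForm.heckeMatrix q j • τ)), ← Finset.mul_sum]
  -- `Γ₀` permutes them on the right, the upper left entry being prime to `q`
  · intro j γ
    refine exists_eq_mul_colMat hq ?_ (dvd_mul_gamma0_10 (by simp [colMat]) γ) (Or.inl ?_)
    · rw [Matrix.det_mul, Matrix.SpecialLinearGroup.det_coe, mul_one, det_colMat]
    · rw [← ZMod.intCast_zmod_eq_zero_iff_dvd]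
      have hc : (((γ : SL(2, ℤ)) 1 0 : ℤ) : ZMod q) = 0 := Gamma0_mem.mp γ.2
      have : ((colMat q j * ((γ : SL(2, ℤ)) : Matrix (Fin 2) (Fin 2) ℤ)) 0 0 : ZMod q)
          = upperEntry q γ := by
        simp [colMat, Matrix.mul_apply, Fin.sum_univ_two, upperEntry_apply, hc]
      rw [this, ← coe_upperUnit]
      exact Units.ne_zero _
  · intro i k δ h
    exact eq_of_mul_colMat h
  -- their conjugates are again among them up to the group
  · intro j
    refine exists_eq_mul_colMat hq ?_ ?_ (Or.inl ?_)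
    · rw [jConjMat_det, det_colMat]
    · simp [colMat]
    · simpa [colMat, Int.natCast_dvd] using hq.ne_one

end Fermat.MF.Eisen
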