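import Fermat.Agent.MF.Eisen.Two
import Fermat.Agent.MF.SmallLevel
import Fermat.Agent.MF.DedekindPsi

/-!
# The upper bound for the Eisenstein quotient

`dvd_eisensteinNumerator`: the prime powers at `ℓ ≥ 5`, `3` and `2` are bounded by `Discriminant`,
`Three` and `Two`. `Lower` combines it with the lower bound into S16.
-/

namespace Fermat.MF.Eisen

open CongruenceSubgroup

/-- A power of `2` dividing the modulus of a congruence pair divides the Eisenstein numerator. -/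
theorem two_pow_dvd_eisensteinNumerator {p m e : ℕ} [hp : Fact p.Prime] (h5 : 5 ≤ p)
    (P : CongPair p (24 * m))
    (hstar : 24 * m ∣ (p - 1) * p ^ 11 * (p + 1)) (he : 0 < e) (hd : 2 ^ e ∣ m) :
    2 ^ e ∣ ModularCurve.eisensteinNumerator p := by
  have hn : ModularCurve.eisensteinNumerator p * Nat.gcd (p - 1) 12 = p - 1 :=
    Nat.div_mul_cancel (Nat.gcd_dvd_left _ _)
  have hℓm : 2 ∣ m := (dvd_pow_self 2 he.ne').trans hd
  -- `2 ^ (e + 3) ∣ p² - 1`
  have h1 : 2 ^ (e + 3) ∣ (p - 1) * (p + 1) := by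
    have h : 2 ^ (e + 3) ∣ (p - 1) * p ^ 11 * (p + 1) := by
      refine dvd_trans ?_ hstar
      rw [pow_add, mul_comm]
      exact mul_dvd_mul (by norm_num) hd
    refine Nat.Coprime.dvd_of_dvd_mul_left
      ((((Nat.coprime_primes Nat.prime_two hp.out).mpr (by omega)).pow_right 11).pow_left _) ?_
    rwa [show p ^ 11 * ((p - 1) * (p + 1)) = (p - 1) * p ^ 11 * (p + 1) by ring]
  have hodd : p % 2 = 1 := hp.out.eq_two_or_odd.resolve_left (by omega)
  rcases (show p % 4 = 1 ∨ p % 4 = 3 by omega) with hp4 | hp4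
  · obtain ⟨k, hk⟩ : ∃ k, p + 1 = 2 * k ∧ k % 2 = 1 := ⟨(p + 1) / 2, by omega, by omega⟩
    have h2 : 2 ^ (e + 2) ∣ p - 1 := by
      have hc : Nat.Coprime (2 ^ (e + 2)) k :=
        (Nat.prime_two.coprime_iff_not_dvd.mpr (by omega)).pow_left _
      refine hc.dvd_of_dvd_mul_right ?_
      rw [hk.1, pow_succ, show (p - 1) * (2 * k) = (p - 1) * k * 2 by ring] at h1
      exact Nat.dvd_of_mul_dvd_mul_right (by norm_num) h1
    obtain ⟨d, hd4, hcases⟩ : ∃ d, Nat.gcd (p - 1) 12 = 4 * d ∧ Nat.Coprime 2 d := by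
      have h4 : 4 ∣ Nat.gcd (p - 1) 12 := Nat.dvd_gcd (by omega) (by norm_num)
      obtain ⟨d, hd⟩ := h4
      have : 4 * d ∣ 4 * 3 := hd ▸ (Nat.gcd_dvd_right _ _)
      have h3 : d ∣ 3 := Nat.dvd_of_mul_dvd_mul_left (by norm_num) this
      refine ⟨d, hd, Nat.Coprime.coprime_dvd_right h3 (by norm_num)⟩
    rw [hd4, show ModularCurve.eisensteinNumerator p * (4 * d)
      = ModularCurve.eisensteinNumerator p * d * 4 by ring] at hn
    rw [← hn, pow_add, show (2 : ℕ) ^ 2 = 4 by norm_num] at h2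
    exact (hcases.pow_left e).dvd_of_dvd_mul_right (Nat.dvd_of_mul_dvd_mul_right (by norm_num) h2)
  · exfalso
    obtain ⟨k, hk⟩ : ∃ k, p - 1 = 2 * k ∧ k % 2 = 1 := ⟨(p - 1) / 2, by omega, by omega⟩
    have h2 : 2 ^ (e + 2) ∣ p + 1 := by
      have hc : Nat.Coprime (2 ^ (e + 2)) k :=
        (Nat.prime_two.coprime_iff_not_dvd.mpr (by omega)).pow_left _
      refine hc.dvd_of_dvd_mul_left ?_
      rw [hk.1, pow_succ, show (2 * k) * (p + 1) = k * (p + 1) * 2 by ring] at h1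
      exact Nat.dvd_of_mul_dvd_mul_right (by norm_num) h1
    have h8 : 8 ∣ p + 1 := dvd_trans (by
      rw [show (8 : ℕ) = 2 ^ 3 by norm_num]; exact pow_dvd_pow 2 (by omega)) h2
    exact false_of_congPair_two P
      ((show 16 ∣ 24 * 2 by norm_num).trans (mul_dvd_mul_left 24 hℓm)) h8

/-- A power of `3` dividing the modulus of a congruence pair divides the Eisenstein numerator. -/
theorem three_pow_dvd_eisensteinNumerator {p m e : ℕ} [hp : Fact p.Prime] (h5 : 5 ≤ p)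
    (P : CongPair p (24 * m))
    (hstar : 24 * m ∣ (p - 1) * p ^ 11 * (p + 1)) (he : 0 < e) (hd : 3 ^ e ∣ m) :
    3 ^ e ∣ ModularCurve.eisensteinNumerator p := by
  have hn : ModularCurve.eisensteinNumerator p * Nat.gcd (p - 1) 12 = p - 1 :=
    Nat.div_mul_cancel (Nat.gcd_dvd_left _ _)
  have hℓm : 3 ∣ m := (dvd_pow_self 3 he.ne').trans hd
  -- `3 ^ (e + 1) ∣ p² - 1`
  have h1 : 3 ^ (e + 1) ∣ (p - 1) * (p + 1) := by
    have h : 3 ^ (e + 1) ∣ (p - 1) * p ^ 11 * (p + 1) := by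
      refine dvd_trans ?_ hstar
      rw [pow_succ, mul_comm]
      exact mul_dvd_mul (by norm_num) hd
    refine Nat.Coprime.dvd_of_dvd_mul_left
      ((((Nat.coprime_primes Nat.prime_three hp.out).mpr (by omega)).pow_right 11).pow_left _) ?_
    rwa [show p ^ 11 * ((p - 1) * (p + 1)) = (p - 1) * p ^ 11 * (p + 1) by ring]
  have h3 : p % 3 ≠ 0 := fun h0 => by
    have := (Nat.prime_dvd_prime_iff_eq Nat.prime_three hp.out).mp (Nat.dvd_of_mod_eq_zero h0)
    omega
  rcases (show p % 3 = 1 ∨ p % 3 = 2 by omega) with hp3 | hp3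
  · have h2 : 3 ^ (e + 1) ∣ p - 1 :=
      ((Nat.prime_three.coprime_iff_not_dvd.mpr (by omega)).pow_left _).dvd_of_dvd_mul_right h1
    obtain ⟨d, hd3⟩ : 3 ∣ Nat.gcd (p - 1) 12 := Nat.dvd_gcd (by omega) (by norm_num)
    have h4 : d ∣ 4 := Nat.dvd_of_mul_dvd_mul_left (by norm_num : 0 < 3)
      ((hd3 ▸ Nat.gcd_dvd_right (p - 1) 12 : 3 * d ∣ 12))
    rw [hd3, show ModularCurve.eisensteinNumerator p * (3 * d)
      = ModularCurve.eisensteinNumerator p * d * 3 by ring] at hn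
    rw [← hn, pow_succ] at h2
    exact (Nat.Coprime.coprime_dvd_right h4
      (Nat.Coprime.pow_left e (by norm_num : Nat.Coprime 3 4))).dvd_of_dvd_mul_right
      (Nat.dvd_of_mul_dvd_mul_right (by norm_num) h2)
  · exfalso
    have h2 : 3 ^ (e + 1) ∣ p + 1 :=
      ((Nat.prime_three.coprime_iff_not_dvd.mpr (by omega)).pow_left _).dvd_of_dvd_mul_left h1
    have h9 : 9 ∣ p + 1 := dvd_trans (by
      rw [show (9 : ℕ) = 3 ^ 2 by norm_num]; exact pow_dvd_pow 3 (by omega)) h2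
    exact false_of_congPair_three p P
      ((show 9 ∣ 24 * 3 by norm_num).trans (mul_dvd_mul_left 24 hℓm)) h9

/-- A power of a prime `ℓ ≥ 5` dividing the modulus of a congruence pair divides the Eisenstein
numerator. -/
theorem prime_pow_dvd_eisensteinNumerator {p m e ℓ : ℕ} [hp : Fact p.Prime] (hℓ : ℓ.Prime)
    (hℓ5 : 5 ≤ ℓ)
    (P : CongPair p (24 * m)) (hstar : 24 * m ∣ (p - 1) * p ^ 11 * (p + 1)) (he : 0 < e)
    (hd : ℓ ^ e ∣ m) :
    ℓ ^ e ∣ ModularCurve.eisensteinNumerator p := by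
  have := Fact.mk hℓ
  have hn : ModularCurve.eisensteinNumerator p * Nat.gcd (p - 1) 12 = p - 1 :=
    Nat.div_mul_cancel (Nat.gcd_dvd_left _ _)
  have hℓm : ℓ ∣ m := (dvd_pow_self ℓ he.ne').trans hd
  have hnd : ¬ ℓ ∣ p * (p + 1) := fun h =>
    false_of_congPair_five p P hℓ5 (dvd_mul_of_dvd_right hℓm 24) h
  have hc1 : Nat.Coprime ℓ p := hℓ.coprime_iff_not_dvd.mpr fun h => hnd (dvd_mul_of_dvd_left h _)
  have hc2 : Nat.Coprime ℓ (p + 1) :=
    hℓ.coprime_iff_not_dvd.mpr fun h => hnd (dvd_mul_of_dvd_right h _)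
  have h1 : ℓ ^ e ∣ (p - 1) * p ^ 11 * (p + 1) :=
    (hd.trans (dvd_mul_left m 24)).trans hstar
  have h2 : ℓ ^ e ∣ p - 1 :=
    ((hc1.pow_left e).pow_right 11).dvd_of_dvd_mul_right
      ((hc2.pow_left e).dvd_of_dvd_mul_right h1)
  rw [← hn] at h2
  refine Nat.Coprime.dvd_of_dvd_mul_right ?_ h2
  refine Nat.Coprime.coprime_dvd_right (Nat.gcd_dvd_right _ _) (Nat.Coprime.pow_left e ?_)
  rw [hℓ.coprime_iff_not_dvd]
  intro h12
  have := Nat.le_of_dvd (by norm_num) h12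
  interval_cases ℓ <;> revert hℓ h12 <;> norm_num

/-- An Eisenstein congruence of integral weight two forms on `Γ₀(p)` has modulus dividing the
numerator of `(p - 1) / 12`. -/
theorem dvd_eisensteinNumerator_of_congr {p m : ℕ} [hp : Fact p.Prime] (h5 : 5 ≤ p)
    (g : CuspForm (Gamma0 p) 2) (a : ℕ → ℤ) (ha : ∀ n, ModularFormClass.qCoeff g n = a n)
    (hcong : ∀ n, 1 ≤ n → (m : ℤ) ∣ a n - sigmaAway p n) :
    m ∣ ModularCurve.eisensteinNumerator p := by
  obtain ⟨P⟩ := exists_congPair p g a ha hcong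
  have hstar : 24 * m ∣ (p - 1) * p ^ 11 * (p + 1) := by
    have h := dvd_of_congPair p P
    rw [show ((p : ℤ) - 1) * (p : ℤ) ^ 11 * ((p : ℤ) + 1)
      = (((p - 1) * p ^ 11 * (p + 1) : ℕ) : ℤ) by
        rw [Nat.cast_mul, Nat.cast_mul, Nat.cast_sub (by omega)]; push_cast; ring] at h
    exact Int.natCast_dvd_natCast.mp h
  rw [Nat.dvd_iff_prime_pow_dvd_dvd]
  intro ℓ e hℓ hd
  rcases Nat.eq_zero_or_pos e with rfl | he
  · simp
  have hℓ2 := hℓ.two_le
  rcases (show ℓ = 2 ∨ ℓ = 3 ∨ 5 ≤ ℓ by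
    rcases le_or_gt 5 ℓ with h | h
    · exact Or.inr (Or.inr h)
    · interval_cases ℓ <;> norm_num at hℓ <;> simp) with rfl | rfl | hℓ5
  · exact two_pow_dvd_eisensteinNumerator h5 P hstar he hd
  · exact three_pow_dvd_eisensteinNumerator h5 P hstar he hd
  · exact prime_pow_dvd_eisensteinNumerator hℓ hℓ5 P hstar he hd

/-- For `p ≤ 3` there are no cusp forms, so the Hecke algebra is trivial. -/
theorem piT_eq_zero_of_le_three {p : ℕ} [hp : Fact p.Prime] (h : p ≤ 3)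
    (w : ModularCurve.HeckeAlg) :
    piT p w = 0 := by
  have : NeZero p := ⟨hp.out.ne_zero⟩
  have hidx : (Gamma0 p).index ≤ 5 := by
    rw [Fermat.MF.index_Gamma0]
    have := Fermat.MF.dedekindPsi_prime_pow hp.out 0
    simp at this
    omega
  refine Subtype.ext (LinearMap.ext fun f => Subtype.ext ?_)
  exact Fermat.MF.cuspForm_two_eq_zero_of_index_le p hidx _

/-- **The upper bound**: if `m` divides the Eisenstein eigenvalue of every operator killing the
cusp forms, it divides the Eisenstein numerator. -/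
theorem dvd_eisensteinNumerator {p m : ℕ} [hp : Fact p.Prime]
    (hm : ∀ w, piT p w = 0 → (m : ℤ) ∣ eta p w) : m ∣ ModularCurve.eisensteinNumerator p := by
  rcases le_or_gt 5 p with h5 | h5
  · obtain ⟨g, a, ha, hcong⟩ := exists_congruent_form p hm
    exact dvd_eisensteinNumerator_of_congr h5 g a ha hcong
  · have h3 : p ≤ 3 := by
      have := hp.out
      interval_cases p <;> revert this <;> norm_num
    have h1 := hm 1 (piT_eq_zero_of_le_three h3 1)
    rw [map_one] at h1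
    exact (Int.natCast_dvd_natCast.mp (show (m : ℤ) ∣ ((1 : ℕ) : ℤ) by simpa using h1)).trans
      (one_dvd _)

end Fermat.MF.Eisen
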