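import Fermat.Agent.MF.Eisen.HeckePeriod
import Fermat.Agent.MF.Eisen.Upper
import Fermat.Agent.MC.IntStructure

/-!
# The Eisenstein quotient is at least as large as the numerator of `(p - 1) / 12`

An operator killing the integral cusp forms kills every period pair, hence the integral lift of
the Eisenstein homomorphism, so its Eisenstein value is divisible by the numerator.
-/

namespace Fermat.MF.Eisen

open CongruenceSubgroup ModularCurve Fermat.MF CuspForm
open scoped MatrixGroups

variable {p : ℕ} [hp : Fact p.Prime]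

local notation "S₂" p => CuspForm (Gamma0 p) 2

/-- The action of an abstract Hecke operator on forms. -/
noncomputable def heckeEnd (p : ℕ) [NeZero p] (w : HeckeAlg) : Module.End ℂ (S₂ p) :=
  ((heckeEvalForms p 2 w : ↥(CuspForm.heckeAlgebra p 2 ∅)) : Module.End ℂ (S₂ p))

/-- The periods of `(f, g)` extended to combinations of group elements. -/
noncomputable def periodComb [NeZero p] (f g : S₂ p) : (Gamma0 p →₀ ℤ) →ₗ[ℤ] ℂ :=
  Finsupp.linearCombination ℤ fun δ => periodHomPair p (f, g) (Additive.ofMul δ)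

/-- The Eisenstein homomorphism extended to combinations of group elements. -/
noncomputable def phiComb (n : ℕ) : (Gamma0 p →₀ ℤ) →ₗ[ℤ] ZMod n :=
  Finsupp.linearCombination ℤ fun δ => eisPhi n δ

/-- The periods after `T` are combinations of periods, compatibly with the eigenvalue `e`. -/
def PeriodEigen [NeZero p] (n : ℕ) (T : Module.End ℂ (S₂ p)) (e : ℤ) : Prop :=
  ∀ γ : Gamma0 p, ∃ D : Gamma0 p →₀ ℤ,
    (∀ f g : S₂ p, periodHomPair p (T f, T g) (Additive.ofMul γ) = periodComb f g D) ∧
      phiComb n D = (e : ZMod n) * eisPhi n γ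

/-- A period system with `m` matrices gives `PeriodEigen` with eigenvalue `m`. -/
theorem PeriodEigen.of_system [NeZero p] {n : ℕ} (hn : n ∣ p - 1) {ι : Type} [Fintype ι]
    {T : Module.End ℂ (S₂ p)} (P : PeriodSystem p ι T) :
    PeriodEigen n T (Fintype.card ι) := by
  intro γ
  choose σ δ h using fun i => P.rperm i γ
  refine ⟨∑ i, Finsupp.single (δ i) 1, fun f g => ?_, ?_⟩
  · rw [P.periodHomPair_eq_sum f g h]
    simp [periodComb]
  · rw [Int.cast_natCast, ← P.eisPhi_sum hn h]
    simp [phiComb]

/-- Eigen properties on periods compose. -/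
theorem PeriodEigen.comp [NeZero p] {n : ℕ} {T T' : Module.End ℂ (S₂ p)} {e e' : ℤ}
    (h : PeriodEigen n T e) (h' : PeriodEigen n T' e') : PeriodEigen n (T * T') (e * e') := by
  intro γ
  obtain ⟨D, hD, hD'⟩ := h γ
  choose E hE hE' using h'
  refine ⟨Finsupp.linearCombination ℤ E D, fun f g => ?_, ?_⟩
  · rw [periodComb, Finsupp.apply_linearCombination, Module.End.mul_apply, Module.End.mul_apply,
      hD]
    refine congrArg (fun v => Finsupp.linearCombination ℤ v D) (funext fun δ => ?_)
    exact hE δ f g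
  · rw [phiComb, Finsupp.apply_linearCombination]
    have : (⇑(Finsupp.linearCombination ℤ fun δ : Gamma0 p => eisPhi n δ) ∘ E)
        = ⇑((AddMonoidHom.mulLeft (e' : ZMod n)).toIntLinearMap) ∘ fun δ => eisPhi n δ :=
      funext fun δ => hE' δ
    rw [this, ← Finsupp.apply_linearCombination, show Finsupp.linearCombination ℤ
      (fun δ : Gamma0 p => eisPhi n δ) D = phiComb n D from rfl, hD']
    simp only [AddMonoidHom.coe_toIntLinearMap, AddMonoidHom.coe_mulLeft, Int.cast_mul]
    ring

/-- The generators act on periods with the Eisenstein eigenvalues. -/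
theorem periodEigen_gen [NeZero p] (ℓ : Nat.Primes) :
    PeriodEigen (eisensteinNumerator p) (heckeEnd p (heckeGen ℓ)) (eisensteinSystem p ℓ) := by
  have hn := eisensteinNumerator_dvd p
  rw [heckeEnd]
  by_cases h : (ℓ : ℕ) ∣ p
  · obtain ⟨P⟩ := exists_system_U (p := p) ℓ.2 h
    rw [heckeEvalForms_heckeGen_of_dvd h, heckeAlgebra.coe_U, eisensteinSystem_of_dvd h]
    intro γ
    obtain ⟨D, hD, hD'⟩ := PeriodEigen.of_system hn P γ
    refine ⟨D, hD, ?_⟩
    rw [hD', Int.cast_natCast, Fintype.card_fin, Int.cast_one,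
      (Nat.prime_dvd_prime_iff_eq ℓ.2 hp.out).mp h]
    congr 1
    have h1 : ((p - 1 : ℕ) : ZMod (eisensteinNumerator p)) = 0 :=
      (ZMod.natCast_eq_zero_iff _ _).mpr hn
    rw [← Nat.cast_one (R := ZMod _), ← sub_eq_zero, ← Nat.cast_sub hp.out.one_le]
    exact h1
  · obtain ⟨P⟩ := exists_system_T (p := p) ℓ.2 h
    rw [heckeEvalForms_heckeGen_of_not_dvd h, heckeAlgebra.coe_T, eisensteinSystem_of_not_dvd h]
    have := PeriodEigen.of_system hn P
    rwa [Fintype.card_option, Fintype.card_fin, Nat.cast_add, Nat.cast_one, add_comm] at this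

/-- Every Hecke polynomial acts on periods with eigenvalue its Eisenstein value. -/
theorem periodEigen_heckeEnd [NeZero p] (w : HeckeAlg) :
    PeriodEigen (eisensteinNumerator p) (heckeEnd p w) (eta p w) := by
  induction w using MvPolynomial.induction_on with
  | C a =>
    intro γ
    refine ⟨Finsupp.single γ a, fun f g => ?_, ?_⟩
    · have h : ∀ f : S₂ p, heckeEnd p (MvPolynomial.C a) f = (a : ℂ) • f := fun f => by
        rw [heckeEnd, heckeEvalForms_C]
        simp [Int.cast_smul_eq_zsmul]
      rw [h, h, ← Prod.smul_mk, map_smul]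
      simp [periodComb]
    · simp [phiComb, eta]
  | add u v hu hv =>
    intro γ
    obtain ⟨D, hD, hD'⟩ := hu γ
    obtain ⟨E, hE, hE'⟩ := hv γ
    refine ⟨D + E, fun f g => ?_, ?_⟩
    · have h : ∀ f : S₂ p, heckeEnd p (u + v) f = heckeEnd p u f + heckeEnd p v f := fun f => by
        rw [heckeEnd, map_add]; rfl
      rw [h, h, ← Prod.mk_add_mk, map_add, map_add, AddMonoidHom.add_apply, hD, hE]
    · rw [map_add, map_add, Int.cast_add, hD', hE', add_mul]
  | mul_X w ℓ hw =>
    have e : heckeEnd p (w * MvPolynomial.X ℓ) = heckeEnd p w * heckeEnd p (heckeGen ℓ) := by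
      rw [heckeEnd, map_mul]; rfl
    have e' : eta p (w * MvPolynomial.X ℓ) = eta p w * eisensteinSystem p ℓ := by
      rw [map_mul]; simp [eta]
    rw [e, e']
    exact hw.comp (periodEigen_gen ℓ)

/-- An abstract operator killed by `piT` acts as zero on forms. -/
theorem heckeEnd_eq_zero [NeZero p] {w : HeckeAlg} (hw : piT p w = 0) : heckeEnd p w = 0 := by
  refine LinearMap.ext_on (Fermat.MC.span_intLattice_eq_top p 2) fun f hf => ?_
  have h := coe_piT_apply p w ⟨f, hf⟩
  rw [hw] at h
  exact h.symm

/-- The numerator divides the Eisenstein value of an operator killing the integral forms. -/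
theorem eisensteinNumerator_dvd_eta (h5 : 5 ≤ p)
    (hdim : haveI : NeZero p := ⟨hp.out.ne_zero⟩
      genusFormula p ≤ (Module.finrank ℂ (S₂ p) : ℚ))
    {w : HeckeAlg} (hw : piT p w = 0) : (eisensteinNumerator p : ℤ) ∣ eta p w := by
  have : NeZero p := ⟨hp.out.ne_zero⟩
  obtain ⟨Ψ, hΨ, hint⟩ := exists_eisenstein_lift h5 hdim
  obtain ⟨⟨f, g⟩, hfg⟩ : Ψ ∈ LinearMap.range (periodHomPair p) :=
    (periodHomPair_eichlerShimura p hdim).2.symm ▸ hΨ
  obtain ⟨γ, hγ⟩ := exists_eisPhi_eq_one (p := p) (eisensteinNumerator_dvd p)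
  obtain ⟨D, hD, hD'⟩ := periodEigen_heckeEnd w γ
  choose m hm hm' using hint
  have h0 := hD f g
  rw [heckeEnd_eq_zero hw, LinearMap.zero_apply, LinearMap.zero_apply, Prod.mk_zero_zero,
    map_zero, AddMonoidHom.zero_apply] at h0
  have h1 : Finsupp.linearCombination ℤ m D = (0 : ℤ) := by
    apply Int.cast_injective (α := ℂ)
    rw [Int.cast_zero, h0, periodComb, show ((Finsupp.linearCombination ℤ m D : ℤ) : ℂ)
      = (Int.castAddHom ℂ).toIntLinearMap (Finsupp.linearCombination ℤ m D) from rfl,
      Finsupp.apply_linearCombination]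
    refine congrArg (fun v => Finsupp.linearCombination ℤ v D) (funext fun δ => ?_)
    rw [hfg, hm]; rfl
  have h2 : phiComb (eisensteinNumerator p) D
      = (Int.castAddHom (ZMod (eisensteinNumerator p))).toIntLinearMap
          (Finsupp.linearCombination ℤ m D) := by
    rw [Finsupp.apply_linearCombination, phiComb]
    exact congrArg (fun v => Finsupp.linearCombination ℤ v D) (funext fun δ => (hm' δ).symm)
  rw [h1, map_zero, hD', hγ, mul_one] at h2
  exact (ZMod.intCast_zmod_eq_zero_iff_dvd _ _).mp h2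

/-- The order of the Eisenstein quotient, given the dimension of the space of cusp forms. -/
theorem card_eisensteinQuotient (p : ℕ) [hp : Fact p.Prime]
    (hdim : haveI : NeZero p := ⟨hp.out.ne_zero⟩
      genusFormula p ≤ (Module.finrank ℂ (S₂ p) : ℚ)) :
    Nat.card (HT p ⧸ Ideal.map (piT p) (eisensteinIdeal p)) = eisensteinNumerator p := by
  obtain ⟨m, hm, huniv, hcard⟩ := exists_card_quotient p
  rw [hcard]
  refine Nat.dvd_antisymm (dvd_eisensteinNumerator hm) ?_
  by_cases h5 : 5 ≤ p
  · exact Int.natCast_dvd_natCast.mp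
      (huniv _ fun w hw => eisensteinNumerator_dvd_eta h5 hdim hw)
  · have h4 : p ≠ 4 := fun h => by
      have := hp.out
      rw [h] at this
      norm_num at this
    have h2 := hp.out.two_le
    have h3 : p = 2 ∨ p = 3 := by omega
    rcases h3 with rfl | rfl <;> simp [eisensteinNumerator]

end Fermat.MF.Eisen
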