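import Fermat.Agent.MC.Jinv
import Fermat.Agent.MC.Gamma0
import Fermat.Agent.MC.LevelOne
import Fermat.Agent.MC.QScale
import Fermat.Prelude.Thm_UpperHalfPlane_qCoeff_heckeU
import Fermat.Prelude.Thm_ModularForm_periodic_heckeU_comp_ofComplex
import Fermat.Prelude.Thm_ModularForm_isBoundedAtImInfty_heckeU
import Fermat.Prelude.Thm_ModularForm_mdifferentiable_heckeU
import Mathlib.NumberTheory.ModularForms.EisensteinSeries.E2.Transform
import Mathlib.NumberTheory.ModularForms.EisensteinSeries.E2.MDifferentiable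
import Mathlib.NumberTheory.ModularForms.EisensteinSeries.E2.Summable
import Mathlib.NumberTheory.ModularForms.Derivative

/-!
# q-series of periodic functions: scaling, `U`, differentiation, `E₂`

The series is `qE`, and `qE_E2` computes it for `E₂`.
-/

namespace Fermat.MF.Eisen

open UpperHalfPlane hiding I
open Fermat.MC Complex Function Filter Topology
open scoped MatrixGroups Manifold

local notation "D" => Derivative.normalizedDerivOfComplex

/-- The q-series of a periodic function. -/
noncomputable def qE (f : ℍ → ℂ) : PowerSeries ℂ := qExpansion 1 f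

/-- The q-series is additive. -/
theorem qE_add {f g : ℍ → ℂ} (hf : BddPer f) (hg : BddPer g) : qE (f + g) = qE f + qE g :=
  qExpansion_add hf.analyticAt hg.analyticAt

/-- The q-series is multiplicative. -/
theorem qE_mul {f g : ℍ → ℂ} (hf : BddPer f) (hg : BddPer g) : qE (f * g) = qE f * qE g :=
  qExpansion_mul hf.analyticAt hg.analyticAt

/-- The q-series commutes with scalars. -/
theorem qE_smul {f : ℍ → ℂ} (hf : BddPer f) (c : ℂ) : qE (c • f) = c • qE f :=
  qExpansion_smul hf.analyticAt c

/-- The q-series of `0`. -/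
theorem qE_zero : qE 0 = 0 := qExpansion_zero 1

/-- The q-series of `1`. -/
theorem qE_one : qE 1 = 1 := qExpansion_one 1

/-- `0` is periodic and bounded at `∞`. -/
theorem bddPer_zero : BddPer (0 : ℍ → ℂ) := BddPer.const 0

/-- A scalar multiple of a periodic bounded function is one. -/
theorem bddPer_smul {f : ℍ → ℂ} (hf : BddPer f) (c : ℂ) : BddPer (c • f) := (BddPer.const c).mul hf

/-- A difference of periodic bounded functions is one. -/
theorem bddPer_sub {f g : ℍ → ℂ} (hf : BddPer f) (hg : BddPer g) : BddPer (f - g) := by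
  have h : f - g = f + (-1 : ℂ) • g := by funext z; simp [sub_eq_add_neg]
  rw [h]
  exact hf.add (bddPer_smul hg _)

/-- The q-series of a difference. -/
theorem qE_sub {f g : ℍ → ℂ} (hf : BddPer f) (hg : BddPer g) : qE (f - g) = qE f - qE g := by
  have h : f - g = f + (-1 : ℂ) • g := by funext z; simp [sub_eq_add_neg]
  rw [h, qE_add hf (bddPer_smul hg _), qE_smul hg, neg_one_smul, sub_eq_add_neg]

/-- The q-series of a power. -/
theorem qE_pow {f : ℍ → ℂ} (hf : BddPer f) (n : ℕ) : qE (f ^ n) = qE f ^ n := by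
  induction n with
  | zero => rw [pow_zero, pow_zero, qE_one]
  | succ n ih => rw [pow_succ, pow_succ, qE_mul (hf.pow n) hf, ih]

/-- A periodic bounded function is determined by its q-series. -/
theorem eq_of_qE_eq {f g : ℍ → ℂ} (hf : BddPer f) (hg : BddPer g) (h : qE f = qE g) :
    f = g := by
  have h0 : qE (f - g) = 0 := by rw [qE_sub hf hg, h, sub_self]
  have h1 := bddPer_sub hf hg
  exact sub_eq_zero.mp
    ((qExpansion_eq_zero_iff one_pos (by exact_mod_cast h1.2.1) h1.1 h1.2.2).mp h0)

/-- Periodicity with period the real number `1`. -/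
theorem periodic_real {f : ℍ → ℂ} (hf : BddPer f) :
    Function.Periodic (f ∘ ofComplex) ((1 : ℝ) : ℂ) := by
  rw [ofReal_one]; exact hf.2.1

/-- An expansion of a periodic bounded function in powers of `q` is its q-series. -/
theorem coeff_qE_unique {f : ℍ → ℂ} (hf : BddPer f) {c : ℕ → ℂ}
    (h : ∀ τ : ℍ, HasSum (fun n => c n • Periodic.qParam 1 (τ : ℂ) ^ n) (f τ)) (n : ℕ) :
    (qE f).coeff n = c n :=
  by
    have h1 := (hasFPowerSeriesOnBall_cuspFunction one_pos hf.analyticAt h).hasFPowerSeriesAt
    have h2 := congr_arg (FormalMultilinearSeries.coeff · n)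
      (h1.eq_formalMultilinearSeries hf.analyticAt.hasFPowerSeriesAt)
    simp only [FormalMultilinearSeries.coeff_ofScalars] at h2
    rw [qE, qExpansion_coeff, h2]
    simp [div_eq_inv_mul]

variable (N : ℕ) [NeZero N]

/-- `τ ↦ f (N τ)`. -/
noncomputable def scaleF (f : ℍ → ℂ) : ℍ → ℂ := f ∘ affH (posN N) 0

/-- The point `N z`. -/
theorem coe_scalePoint (z : ℍ) : ((affH (posN N) 0 z : ℍ) : ℂ) = (N : ℂ) * z := by
  simp [coe_affH, posN]

/-- Scaling the variable keeps a function periodic and bounded at `∞`. -/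
theorem bddPer_scaleF {f : ℍ → ℂ} (hf : BddPer f) : BddPer (scaleF N f) :=
  hf.comp_posN N

/-- Substituting `q ↦ q ^ N` in a power series. -/
def spread {R : Type*} [Zero R] (φ : ℕ → R) (n : ℕ) : R := if N ∣ n then φ (n / N) else 0

/-- The q-series of `f (N τ)` is that of `f` with `q ↦ q ^ N`. -/
theorem coeff_qE_scaleF {f : ℍ → ℂ} (hf : BddPer f) (n : ℕ) :
    (qE (scaleF N f)).coeff n = spread N (fun m => (qE f).coeff m) n :=
  qExpansion_comp_posN N hf n

omit [NeZero N] in
/-- `U` keeps a function periodic and bounded at `∞`. -/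
theorem bddPer_heckeU {f : ℍ → ℂ} (hf : BddPer f) (k : ℤ) : BddPer (ModularForm.heckeU k N f) :=
  ⟨ModularForm.mdifferentiable_heckeU hf.1 k N,
    ModularForm.periodic_heckeU_comp_ofComplex hf.2.1 k N,
    ModularForm.isBoundedAtImInfty_heckeU hf.2.2 k N⟩

/-- `U` takes the coefficients at the multiples of `N`. -/
theorem coeff_qE_heckeU {f : ℍ → ℂ} (hf : BddPer f) (k : ℤ) (n : ℕ) :
    (qE (ModularForm.heckeU k N f)).coeff n = (qE f).coeff (n * N) :=
  qCoeff_heckeU hf.2.1 hf.1 hf.2.2 k (NeZero.ne N) n

/-- The operator `q d/dq` on power series. -/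
noncomputable def thetaOp {R : Type*} [CommRing R] (φ : PowerSeries R) : PowerSeries R :=
  PowerSeries.mk fun n => (n : R) * φ.coeff n

/-- Differentiation preserves periodic functions and acts as `q d/dq`. -/
theorem bddPer_D_and_qE_D {f : ℍ → ℂ} (hf : BddPer f) :
    BddPer (D f) ∧ qE (D f) = thetaOp (qE f) := by
  set φ := cuspFunction 1 f
  have hφ : DifferentiableOn ℂ φ (Metric.ball 0 1) :=
    differentiableOn_cuspFunction_ball one_pos (periodic_real hf) hf.1 hf.2.2
  set G : ℂ → ℂ := id * deriv φ with hG_def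
  have hG : DifferentiableOn ℂ G (Metric.ball 0 1) :=
    differentiableOn_id.mul (hφ.deriv Metric.isOpen_ball)
  -- `D f` is `q` times the derivative of the cusp function
  have hval : ∀ τ : ℍ, D f τ = G (Periodic.qParam 1 (τ : ℂ)) := by
    intro τ
    have hq : ‖Periodic.qParam 1 (τ : ℂ)‖ < 1 := Periodic.norm_qParam_lt_one one_pos τ.im_pos
    have hqd : HasDerivAt (Periodic.qParam 1)
        (2 * Real.pi * Complex.I * Periodic.qParam 1 (τ : ℂ)) (τ : ℂ) := by
      have h1 : HasDerivAt (fun z : ℂ => 2 * Real.pi * Complex.I * z)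
          (2 * Real.pi * Complex.I) (τ : ℂ) := by
        simpa using (hasDerivAt_id (τ : ℂ)).const_mul (2 * Real.pi * Complex.I)
      simpa [show Periodic.qParam 1 = fun z : ℂ =>
        Complex.exp (2 * Real.pi * Complex.I * z / (1 : ℝ)) from rfl, mul_comm] using h1.cexp
    have h2 := (hφ.differentiableAt
      (Metric.isOpen_ball.mem_nhds (mem_ball_zero_iff.mpr hq))).hasDerivAt.comp (τ : ℂ) hqd
    have h3 : HasDerivAt (f ∘ ofComplex) (deriv φ (Periodic.qParam 1 (τ : ℂ))
        * (2 * Real.pi * Complex.I * Periodic.qParam 1 (τ : ℂ))) (τ : ℂ) := by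
      refine h2.congr_of_eventuallyEq ?_
      filter_upwards [isOpen_upperHalfPlaneSet.mem_nhds τ.im_pos] with w hw
      have := eq_cuspFunction (⟨w, hw⟩ : ℍ) one_ne_zero (periodic_real hf)
      simpa [Function.comp_apply, ofComplex_apply_of_im_pos hw] using this.symm
    rw [Derivative.normalizedDerivOfComplex, h3.deriv, hG_def]
    simp only [Pi.mul_apply, id]
    have := Complex.two_pi_I_ne_zero
    field_simp
  -- its expansion
  have hsum : ∀ τ : ℍ, HasSum
      (fun n : ℕ => (thetaOp (qE f)).coeff n • Periodic.qParam 1 (τ : ℂ) ^ n) (D f τ) := by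
    intro τ
    rw [hval τ]
    have hq : ‖Periodic.qParam 1 (τ : ℂ)‖ < 1 := Periodic.norm_qParam_lt_one one_pos τ.im_pos
    have hs := hasSum_taylorSeries_on_ball hG (mem_ball_zero_iff.mpr hq)
    refine hs.congr_fun fun n => ?_
    have hb : Metric.ball (0 : ℂ) 1 ∈ 𝓝 (0 : ℂ) := Metric.ball_mem_nhds 0 one_pos
    have hφa : AnalyticAt ℂ φ 0 := hφ.analyticAt hb
    have hcoef : (thetaOp (qE f)).coeff n = (taylorPS G 0).coeff n := by
      rw [hG_def, taylorPS_mul analyticAt_id hφa.deriv, taylorPS_id_zero, thetaOp,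
        PowerSeries.coeff_mk]
      rcases n with _ | n
      · simp
      · rw [PowerSeries.coeff_succ_X_mul, coeff_taylorPS, qE, qExpansion_coeff,
          iteratedDeriv_succ', Nat.factorial_succ]
        push_cast
        have : (n.factorial : ℂ) ≠ 0 := Nat.cast_ne_zero.mpr n.factorial_ne_zero
        have : ((n : ℂ) + 1) ≠ 0 := Nat.cast_add_one_ne_zero n
        field_simp
        rfl
    rw [hcoef, coeff_taylorPS]
    simp only [smul_eq_mul, sub_zero]
    ring
  -- it is periodic and bounded
  have hb : BddPer (D f) := by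
    refine ⟨Derivative.normalizedDerivOfComplex_mdifferentiable hf.1, ext_add_one _ fun z => ?_,
      isBoundedAtImInfty_of_hasSum_qExpansion one_pos hsum⟩
    rw [hval, hval]
    congr 1
    rw [modular_T_smul, coe_vadd]
    simp [Periodic.qParam, mul_add, Complex.exp_add, Complex.exp_two_pi_mul_I]
  exact ⟨hb, PowerSeries.ext fun n => coeff_qE_unique hb hsum n⟩

/-- The q-series of `E₂`. -/
noncomputable def eisenstein2 : PowerSeries ℤ :=
  PowerSeries.mk fun n => if n = 0 then 1 else -24 * ∑ d ∈ n.divisors, (d : ℤ)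

/-- `E₂` is periodic and bounded at `∞`. -/
theorem bddPer_E2 : BddPer EisensteinSeries.E2 := by
  refine ⟨E2_mdifferentiable, ext_add_one _ fun z => ?_, EisensteinSeries.isBoundedAtImInfty_E2⟩
  have h := congrFun (EisensteinSeries.E2_slash_action ModularGroup.T) z
  simp only [EisensteinSeries.D2_T, smul_zero, sub_zero] at h
  rw [ModularForm.SL_slash_apply] at h
  have hd : denom ((ModularGroup.T : SL(2, ℤ)) : GL (Fin 2) ℝ) (z : ℂ) = 1 := by
    simp [denom, ModularGroup.coe_T]
  rwa [hd, one_zpow, mul_one] at h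

/-- The q-series of `E₂` is `eisenstein2`. -/
theorem qE_E2 : qE EisensteinSeries.E2 = PowerSeries.map (Int.castRingHom ℂ) eisenstein2 := by
  ext n
  refine coeff_qE_unique (c := fun m => (PowerSeries.map (Int.castRingHom ℂ) eisenstein2).coeff m)
    bddPer_E2 (fun τ => ?_) n
  have h := EisensteinSeries.hasSum_qExpansion_E2 (z := τ)
  simp only [Periodic.qParam, Complex.ofReal_one, div_one] at h ⊢
  refine h.congr_fun fun m => ?_
  rw [PowerSeries.coeff_map, eisenstein2, PowerSeries.coeff_mk]
  split_ifs with hm <;> simp [ArithmeticFunction.sigma_apply]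

end Fermat.MF.Eisen
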