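import Fermat.Agent.MF.Eisen.Weighted
import Fermat.Agent.MF.Eisen.Series
import Mathlib.RingTheory.KrullDimension.Polynomial
import Mathlib.RingTheory.Ideal.Height
import Mathlib.FieldTheory.Finite.Basic

/-!
# Weights of congruent level one series modulo `ℓ`

An abstract form of the theorem of Swinnerton-Dyer: if two isobaric polynomials have the same
nonzero series modulo `ℓ` then their weights are congruent modulo `ℓ - 1`.
-/

namespace Fermat.MF.Eisen

open MvPolynomial

variable (ℓ : ℕ) [hℓ : Fact ℓ.Prime]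

/-- The data needed for the weight argument: the series modulo `ℓ` of isobaric polynomials and the
properties of the Hasse invariant, the discriminant and `E₂` which are used. -/
structure SwDData where
  /-- The series modulo `ℓ` of an isobaric polynomial. -/
  psi : EPoly (ZMod ℓ) →ₐ[ZMod ℓ] PowerSeries (ZMod ℓ)
  /-- The series of `E₂` modulo `ℓ`. -/
  e2 : PowerSeries (ZMod ℓ)
  /-- The Hasse invariant, as an isobaric polynomial. -/
  hasse : EPoly (ZMod ℓ)
  /-- The Hasse invariant is isobaric of weight `ℓ - 1`. -/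
  isW_hasse : IsW (ℓ - 1) hasse
  /-- The series of the Hasse invariant is one. -/
  psi_hasse : psi hasse = 1
  /-- The series of the discriminant has no constant term. -/
  const_disc : PowerSeries.constantCoeff (psi (X 0 ^ 3 - X 1 ^ 2)) = 0
  /-- The series of the discriminant is nonzero. -/
  disc_ne : psi (X 0 ^ 3 - X 1 ^ 2) ≠ 0
  /-- In weight `k`, the series of the Serre derivative is `(12 θ - k E₂)` of the series. -/
  psi_serreD : ∀ k P, IsW k P →
    psi (serreD P) = PowerSeries.C 12 * thetaOp (psi P) - PowerSeries.C (k : ZMod ℓ) * e2 * psi P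
  /-- Ramanujan's equation for `E₂`. -/
  theta_e2 : PowerSeries.C 12 * thetaOp e2 = e2 ^ 2 - psi (X 0)

variable {ℓ} (d : SwDData ℓ) (h5 : 5 ≤ ℓ)

/-- A polynomial of weight zero is a constant. -/
theorem isW_zero_eq_C {F : Type*} [Field F] {P : EPoly F} (hP : IsW 0 P) : P = C (P.coeff 0) := by
  classical
  ext e
  rw [coeff_C]
  split_ifs with he
  · rw [he]
  · by_contra h
    have := hP.weight_eq h
    refine he (Finsupp.ext fun i => ?_)
    fin_cases i <;> simp <;> omega

/-- No irreducible polynomial has weight zero. -/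
theorem not_irreducible_isW_zero {F : Type*} [Field F] {P : EPoly F} (hP : IsW 0 P)
    (hi : Irreducible P) : False := by
  have h0 : P.coeff 0 ≠ 0 := fun h => hi.ne_zero (by rw [isW_zero_eq_C hP, h, map_zero])
  exact hi.not_isUnit (by rw [isW_zero_eq_C hP]; exact (isUnit_iff_ne_zero.mpr h0).map C)

omit hℓ in
/-- The multiplicity of a factor whose square divides is at least two. -/
private theorem two_le_of_sq_dvd {R : Type*} [CommRing R] [IsDomain R] {P S h : R} {a : ℕ}
    (hP : P ≠ 0) (hS : ¬ P ∣ S) (hA : h = P ^ a * S) (hdvd : P ^ 2 ∣ h) : 2 ≤ a := by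
  by_contra hlt
  obtain ⟨Q, hQ⟩ := hdvd
  rw [hA] at hQ
  rcases Nat.lt_succ_iff.mp (not_le.mp hlt) |>.eq_or_lt with ha1 | ha0
  · subst ha1
    rw [pow_one, sq, mul_assoc] at hQ
    exact hS ⟨Q, mul_left_cancel₀ hP hQ⟩
  · rw [Nat.lt_one_iff.mp ha0, pow_zero, one_mul] at hQ
    exact hS (hQ ▸ dvd_mul_of_dvd_left (dvd_pow_self P two_ne_zero) Q)

omit hℓ in
/-- By Euler's identity, `i Y P = -6 (X³ - Y²) ∂P/∂Y` when the Serre derivative of `P` vanishes. -/
private theorem euler_mul_X_one {F : Type*} [Field F] {i : ℕ} {P : EPoly F} (hP : IsW i P)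
    (hd0 : serreD P = 0) :
    C (i : F) * X 1 * P = -(C 6 * (X 0 ^ 3 - X 1 ^ 2)) * pderiv (1 : Fin 2) P := by
  have hexp : ∀ f : Fin 2 → EPoly F, mkDerivation F f P =
      f 0 * pderiv (0 : Fin 2) P + f 1 * pderiv (1 : Fin 2) P := by
    intro f
    have : mkDerivation F f = f 0 • pderiv (0 : Fin 2) + f 1 • pderiv (1 : Fin 2) := by
      refine derivation_ext fun j => ?_
      fin_cases j <;> simp [pderiv_X]
    rw [this]; rfl
  have e1 : -(C 4 * X 1) * pderiv (0 : Fin 2) P + -(C 6 * X 0 ^ 2) * pderiv (1 : Fin 2) P = 0 := by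
    have := hexp ![-(C 4 * X 1), -(C 6 * X 0 ^ 2)]
    simp only [Matrix.cons_val_zero, Matrix.cons_val_one] at this
    rw [← this]; exact hd0
  have e2 : C 4 * X 0 * pderiv (0 : Fin 2) P + C 6 * X 1 * pderiv (1 : Fin 2) P
      = C (i : F) * P := by
    have := hexp ![C 4 * X 0, C 6 * X 1]
    simp only [Matrix.cons_val_zero, Matrix.cons_val_one] at this
    rw [← this]; exact hP.eulerD_eq
  linear_combination -(X 1) * e2 - X 0 * e1

include h5 in
/-- `6` is a unit modulo a prime `ℓ ≥ 5`. -/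
private theorem isUnit_C_six : IsUnit (C 6 : EPoly (ZMod ℓ)) := by
  have h6 : (6 : ZMod ℓ) ≠ 0 := fun e => by
    have h6' : ((6 : ℕ) : ZMod ℓ) = 0 := by exact_mod_cast e
    rw [ZMod.natCast_eq_zero_iff] at h6'
    have := Nat.le_of_dvd (by norm_num) h6'
    interval_cases ℓ <;> norm_num at h6'
    exact absurd hℓ.out (by norm_num)
  exact (isUnit_iff_ne_zero.mpr h6).map C

/-- Integers between one and `ℓ` are nonzero modulo `ℓ`. -/
theorem natCast_ne_zero {a : ℕ} (h1 : 1 ≤ a) (h2 : a < ℓ) : ((a : ℕ) : ZMod ℓ) ≠ 0 := fun h => by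
  rw [ZMod.natCast_eq_zero_iff] at h
  exact absurd (Nat.le_of_dvd h1 h) (by omega)

/-- `ℓ - 1` is `-1` modulo `ℓ`. -/
theorem natCast_sub_one : ((ℓ - 1 : ℕ) : ZMod ℓ) = -1 := by
  rw [Nat.cast_sub hℓ.out.one_le, ZMod.natCast_self, Nat.cast_one, zero_sub]

namespace SwDData

/-- The Hasse invariant is nonzero. -/
theorem hasse_ne_zero : d.hasse ≠ 0 := fun h => by
  have := d.psi_hasse; rw [h, map_zero] at this; exact zero_ne_one this

include h5 in
/-- The Hasse invariant is not one. -/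
theorem hasse_sub_one_ne_zero : d.hasse - 1 ≠ 0 := fun h => by
  have := d.isW_hasse.unique (l := 0) (by rw [sub_eq_zero.mp h]; exact isW_one) d.hasse_ne_zero
  omega

/-- `X³ - Y²` is not in the kernel. -/
theorem disc_notMem : (X 0 ^ 3 - X 1 ^ 2 : EPoly (ZMod ℓ)) ∉ RingHom.ker d.psi :=
  d.disc_ne

/-- The kernel is not maximal. -/
theorem ker_not_isMaximal : ¬ (RingHom.ker d.psi).IsMaximal := fun h => by
  obtain ⟨y, i, hi, hy⟩ := h.exists_inv d.disc_notMem
  have := congrArg (fun P => PowerSeries.constantCoeff (d.psi P)) hy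
  simp only [map_add, map_mul, map_one, RingHom.mem_ker.mp hi, map_zero, d.const_disc] at this
  simp at this

include h5 in
/-- The kernel of reduction is generated by an irreducible factor of the Hasse polynomial minus
one. -/
theorem exists_gen : ∃ R : EPoly (ZMod ℓ), Irreducible R ∧ R ∣ d.hasse - 1 ∧
    RingHom.ker d.psi = Ideal.span {R} := by
  set K := RingHom.ker d.psi with hK
  have : K.IsPrime := RingHom.ker_isPrime d.psi
  have hmem : d.hasse - 1 ∈ K := by simp [hK, d.psi_hasse]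
  obtain ⟨f, hf, hassoc⟩ := WfDvdMonoid.exists_factors _ (d.hasse_sub_one_ne_zero h5)
  have hprod : f.prod ∈ K := by
    obtain ⟨u, hu⟩ := hassoc
    rw [← hu] at hmem
    rcases Ideal.IsPrime.mem_or_mem ‹_› hmem with h | h
    · exact h
    · exact absurd (Ideal.eq_top_of_isUnit_mem _ h u.isUnit) (Ideal.IsPrime.ne_top ‹_›)
  -- the prime kernel contains a factor of `hasse - 1`
  obtain ⟨R, hRf, hRK⟩ : ∃ R ∈ f, R ∈ K := by
    clear hf hassoc
    induction f using Multiset.induction_on with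
    | empty =>
      exact absurd (Ideal.eq_top_of_isUnit_mem _ hprod (by simp)) (Ideal.IsPrime.ne_top ‹_›)
    | cons a s ih =>
      rw [Multiset.prod_cons] at hprod
      rcases Ideal.IsPrime.mem_or_mem ‹_› hprod with h | h
      · exact ⟨a, Multiset.mem_cons_self a s, h⟩
      · obtain ⟨R, hR, hRK⟩ := ih h
        exact ⟨R, Multiset.mem_cons_of_mem hR, hRK⟩
  have hR : Irreducible R := hf R hRf
  refine ⟨R, hR, (Multiset.dvd_prod hRf).trans hassoc.dvd, ?_⟩
  have hP : (Ideal.span {R}).IsPrime :=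
    (Ideal.span_singleton_prime hR.ne_zero).mpr hR.prime
  -- the height bound makes it principal
  by_contra hne
  have hlt : Ideal.span {R} < K :=
    lt_of_le_of_ne ((Ideal.span_singleton_le_iff_mem _).mpr hRK) (Ne.symm hne)
  obtain ⟨M, hM, hKM⟩ := Ideal.exists_le_maximal K (Ideal.IsPrime.ne_top ‹_›)
  have hKM' : K < M := lt_of_le_of_ne hKM fun e =>
    d.ker_not_isMaximal (show K.IsMaximal from e ▸ hM)
  have h0 : (⊥ : Ideal (EPoly (ZMod ℓ))) < Ideal.span {R} :=
    bot_lt_iff_ne_bot.mpr (by simp [hR.ne_zero])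
  have := hM.isPrime
  have e1 := Ideal.height_strict_mono_of_isPrime h0
  have e2 := Ideal.height_strict_mono_of_isPrime hlt
  have e3 := Ideal.height_strict_mono_of_isPrime hKM'
  have e4 := Ideal.height_le_ringKrullDim_of_ne_top hM.ne_top
  rw [MvPolynomial.ringKrullDim_of_isNoetherianRing, ringKrullDim_eq_zero_of_field, Nat.card_fin,
    zero_add] at e4
  have e4' : M.height ≤ 2 := WithBot.coe_le_coe.mp (le_of_le_of_eq e4 (by rfl))
  have f1 := ENat.add_one_le_iff (by exact ne_top_of_lt e1) |>.mpr e1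
  have f2 := ENat.add_one_le_iff (by exact ne_top_of_lt e2) |>.mpr e2
  have f3 := ENat.add_one_le_iff (by exact ne_top_of_lt e3) |>.mpr e3
  have : (3 : ℕ∞) ≤ 2 := calc
    (3 : ℕ∞) ≤ (⊥ : Ideal (EPoly (ZMod ℓ))).height + 1 + 1 + 1 := by
      rw [show (3 : ℕ∞) = 0 + 1 + 1 + 1 from rfl]; gcongr; exact bot_le
    _ ≤ (Ideal.span {R}).height + 1 + 1 := by gcongr
    _ ≤ K.height + 1 := by gcongr
    _ ≤ M.height := f3
    _ ≤ 2 := e4'
  exact absurd this (by norm_num)

/-- The weight parts of `hasse - 1`. -/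
theorem coeff_tau_hasse_sub_one {j : ℕ} :
    (tau (d.hasse - 1)).coeff j =
      (if ℓ - 1 = j then d.hasse else 0) - (if j = 0 then 1 else 0) := by
  rw [map_sub, map_one, d.isW_hasse, Polynomial.coeff_sub, Polynomial.coeff_monomial,
    Polynomial.coeff_one]

include h5 in
/-- The series map is injective on each weight. -/
theorem eq_zero_of_psi_eq_zero {k : ℕ} {P : EPoly (ZMod ℓ)} (hP : IsW k P)
    (h : d.psi P = 0) : P = 0 := by
  obtain ⟨R, hR, ⟨T, hT⟩, hker⟩ := d.exists_gen h5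
  by_contra h0
  obtain ⟨S, rfl⟩ : R ∣ P := Ideal.mem_span_singleton.mp (hker ▸ h)
  obtain ⟨i, -, hi, -⟩ := isW_of_mul hP h0
  have := congrArg (fun Q => (tau Q).coeff 0) hT
  simp only [d.coeff_tau_hasse_sub_one, map_mul, show tau R = _ from hi, Polynomial.mul_coeff_zero,
    Polynomial.coeff_monomial, show ℓ - 1 ≠ 0 by omega, if_false, if_pos] at this
  split_ifs at this with hi0
  · subst hi0; exact not_irreducible_isW_zero hi hR
  · simp at this

/-- The series of the derivative of the Hasse invariant is that of `E₂`. -/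
theorem psi_serreD_hasse : d.psi (serreD d.hasse) = d.e2 := by
  rw [d.psi_serreD _ _ d.isW_hasse, d.psi_hasse, natCast_sub_one]
  have : thetaOp (1 : PowerSeries (ZMod ℓ)) = 0 := by
    ext n; rcases eq_or_ne n 0 with rfl | hn <;> simp [thetaOp, PowerSeries.coeff_one, *]
  rw [this, map_neg, map_one]
  ring

include h5 in
/-- The second derivative of the Hasse invariant is `-X` times it. -/
theorem serreD_serreD_hasse : serreD (serreD d.hasse) = -(X 0 * d.hasse) := by
  have hB : IsW (ℓ + 1) (serreD d.hasse) := by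
    have := d.isW_hasse.serreD
    rwa [show ℓ - 1 + 2 = ℓ + 1 by omega] at this
  have hX : IsW (ℓ + 1 + 2) (X 0 * d.hasse) := by
    have := (isW_X_zero (F := ZMod ℓ)).mul d.isW_hasse
    rwa [show 4 + (ℓ - 1) = ℓ + 1 + 2 by omega] at this
  rw [← sub_eq_zero, sub_neg_eq_add]
  refine d.eq_zero_of_psi_eq_zero h5 (hB.serreD.add hX) ?_
  rw [map_add, map_mul, d.psi_serreD _ _ hB, d.psi_serreD_hasse, d.psi_hasse, d.theta_e2]
  simp
  ring

/-- An isobaric factor of the Hasse invariant of positive weight does not divide `X³ - Y²`. -/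
private theorem not_dvd_disc {i : ℕ} {P : EPoly (ZMod ℓ)} (hPi : IsW i P)
    (hP0 : P ≠ 0) (hi0 : 0 < i) (hPh : P ∣ d.hasse) : ¬ P ∣ X 0 ^ 3 - X 1 ^ 2 := by
  rintro ⟨T, hT⟩
  have hDw : IsW 12 (X 0 ^ 3 - X 1 ^ 2 : EPoly (ZMod ℓ)) :=
    ((isW_X_zero.pow 3).sub (isW_X_one.pow 2))
  have hD0' : (X 0 ^ 3 - X 1 ^ 2 : EPoly (ZMod ℓ)) ≠ 0 := fun e => d.disc_ne (by rw [e, map_zero])
  obtain ⟨j, hj, hPj, hTj⟩ := isW_of_mul (hT ▸ hDw) (hT ▸ hD0')
  obtain rfl := hPi.unique hPj hP0
  have hev := congrArg (eval fun _ => (1 : ZMod ℓ)) hT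
  simp at hev
  have hT0 : T ≠ 0 := right_ne_zero_of_mul (hT ▸ hD0')
  rcases hev with hev | hev
  · rcases hj.lt_or_eq with hlt | rfl
    · exact hPi.eval_ne_zero hlt hP0 hev
    · obtain ⟨S', hS'⟩ := hPh
      have hTu : IsUnit T := by
        rw [Nat.sub_self] at hTj
        rw [isW_zero_eq_C hTj]
        exact (isUnit_iff_ne_zero.mpr fun e =>
          hT0 (by rw [isW_zero_eq_C hTj, e, map_zero])).map C
      have hdu : PowerSeries.constantCoeff (d.psi (X 0 ^ 3 - X 1 ^ 2)) ≠ 0 := by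
        rw [hT, map_mul, map_mul]
        refine mul_ne_zero (fun e => ?_) ((hTu.map d.psi).map PowerSeries.constantCoeff).ne_zero
        have := d.psi_hasse
        rw [hS', map_mul] at this
        have := congrArg PowerSeries.constantCoeff this
        rw [map_mul, e, zero_mul, map_one] at this
        exact zero_ne_one this
      exact hdu d.const_disc
  · exact hTj.eval_ne_zero (by omega) hT0 hev

include h5 in
/-- An irreducible isobaric factor of the Hasse invariant does not divide its Serre derivative. -/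
private theorem not_dvd_serreD {i : ℕ} {P : EPoly (ZMod ℓ)} (hPi : IsW i P) (hP : Irreducible P)
    (hi : (i : ZMod ℓ) ≠ 0) (hPh : P ∣ d.hasse) : ¬ P ∣ serreD P := by
  rintro ⟨Q, hQ⟩
  have hi0 : 0 < i := Nat.pos_of_ne_zero fun h => hi (by rw [h, Nat.cast_zero])
  have hd0 : serreD P = 0 := by
    by_contra h
    obtain ⟨j, hj, hPj, hQj⟩ := isW_of_mul (hQ ▸ hPi.serreD) (hQ ▸ h)
    rw [← hPi.unique hPj hP.ne_zero, show i + 2 - i = 2 by omega] at hQj
    exact h (by rw [hQ, eq_zero_of_isW_two hQj, mul_zero])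
  have key := euler_mul_X_one hPi hd0
  set Py := pderiv (1 : Fin 2) P
  have hne : C (i : ZMod ℓ) * X 1 * P ≠ 0 := mul_ne_zero (mul_ne_zero
    ((map_ne_zero_iff _ (C_injective _ _)).mpr hi) (X_ne_zero 1)) hP.ne_zero
  rcases hP.prime.dvd_or_dvd (⟨C (i : ZMod ℓ) * X 1, by rw [← key]; ring⟩ :
    P ∣ -(C 6 * (X 0 ^ 3 - X 1 ^ 2)) * Py) with h | ⟨T, hT⟩
  · rw [dvd_neg, (isUnit_C_six h5).dvd_mul_left] at h
    exact d.not_dvd_disc hPi hP.ne_zero hi0 hPh h
  · -- weights: `Py` has weight `i - 6`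
    have hw : IsW (i + 6) (X 1 * P) := by
      have := isW_X_one.mul hPi
      rwa [add_comm] at this
    obtain ⟨j, hj, hD0w, hPyw⟩ := isW_of_mul (P := -(C 6 * (X 0 ^ 3 - X 1 ^ 2))) (Q := Py)
      (k := i + 6) (by rw [← key]; simpa [mul_assoc] using hw.C_mul (i : ZMod ℓ))
      (key ▸ hne)
    have hj12 : j = 12 := hD0w.unique (((isW_X_zero.pow 3).sub (isW_X_one.pow 2)).C_mul 6).neg
      (left_ne_zero_of_mul (key ▸ hne))
    have hPy0 : Py ≠ 0 := fun e => hne (by rw [key, e, mul_zero])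
    obtain ⟨j', hj', hPj', -⟩ := isW_of_mul (hT ▸ hPyw) (hT ▸ hPy0)
    have := hPi.unique hPj' hP.ne_zero
    omega

include h5 in
/-- The Hasse invariant has no repeated factor. -/
theorem not_sq_dvd_hasse {n : ℕ} {D : EPoly (ZMod ℓ)} (hD : IsW n D) (hn : 0 < n)
    (hdvd : D ^ 2 ∣ d.hasse) : False := by
  have hD0 : D ≠ 0 := fun h => d.hasse_ne_zero (by simpa [h] using hdvd)
  have hDu : ¬ IsUnit D := fun hu => by
    obtain ⟨E, hE⟩ := hu.exists_right_inv
    obtain ⟨i, hi, hi', -⟩ := isW_of_mul (k := 0) (P := D) (Q := E) (by rw [hE]; exact isW_one)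
      (by rw [hE]; exact one_ne_zero)
    have := hD.unique hi' hD0
    omega
  obtain ⟨P, hP, hPD⟩ := WfDvdMonoid.exists_irreducible_factor hDu hD0
  obtain ⟨D', rfl⟩ := hPD
  obtain ⟨i, -, hPi, -⟩ := isW_of_mul hD hD0
  have hP2 : P ^ 2 ∣ d.hasse := (pow_dvd_pow_of_dvd (dvd_mul_right P D') 2).trans hdvd
  -- the exact power `P ^ a` of a double factor
  obtain ⟨a, S, hS, hA⟩ := WfDvdMonoid.max_power_factor d.hasse_ne_zero hP
  have ha : 2 ≤ a := two_le_of_sq_dvd hP.ne_zero hS hA hP2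
  have hi0 : 0 < i := Nat.pos_of_ne_zero fun h => not_irreducible_isW_zero (h ▸ hPi) hP
  have hai : a * i ≤ ℓ - 1 := by
    have h1 := d.isW_hasse
    rw [hA] at h1
    obtain ⟨j, hj, hj', -⟩ := isW_of_mul h1 (hA ▸ d.hasse_ne_zero)
    rw [← (hPi.pow a).unique hj' (pow_ne_zero _ hP.ne_zero), mul_comm] at hj
    exact hj
  have hcast_i : (i : ZMod ℓ) ≠ 0 := natCast_ne_zero hi0
    (by have := Nat.mul_le_mul_right i ha; omega)
  have hPd : ¬ P ∣ serreD P :=
    d.not_dvd_serreD h5 hPi hP hcast_i ((dvd_pow_self P two_ne_zero).trans hP2)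
  obtain ⟨b, rfl⟩ : ∃ b, a = b + 2 := ⟨a - 2, by omega⟩
  set U := ((b + 2 : ℕ) : EPoly (ZMod ℓ)) * serreD P * S + P * serreD S with hU
  -- differentiate twice
  have hB : serreD d.hasse = P ^ (b + 1) * U := by
    rw [hA, Derivation.leibniz, Derivation.leibniz_pow, hU]
    simp only [smul_eq_mul, nsmul_eq_mul, show b + 2 - 1 = b + 1 by omega, pow_succ]
    ring
  have hBB : serreD (serreD d.hasse) =
      P ^ b * (((b + 1 : ℕ) : EPoly (ZMod ℓ)) * serreD P * U + P * serreD U) := by
    rw [hB, Derivation.leibniz, Derivation.leibniz_pow]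
    simp only [smul_eq_mul, nsmul_eq_mul, show b + 1 - 1 = b by omega, pow_succ]
    ring
  rw [d.serreD_serreD_hasse h5, hA] at hBB
  have h2 : ((b + 1 : ℕ) : EPoly (ZMod ℓ)) * serreD P * U + P * serreD U =
      -(X 0 * (P ^ 2 * S)) := by
    refine mul_left_cancel₀ (pow_ne_zero b hP.ne_zero) ?_
    rw [← hBB]; ring
  have hdv : P ∣ ((b + 1 : ℕ) : EPoly (ZMod ℓ)) * serreD P * U :=
    ⟨-(X 0 * (P * S)) - serreD U, by linear_combination h2⟩
  have hu : ∀ c : ℕ, 1 ≤ c → c ≤ b + 2 → IsUnit ((c : ℕ) : EPoly (ZMod ℓ)) := fun c h1 h2 => by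
    rw [← map_natCast (C : ZMod ℓ →+* EPoly (ZMod ℓ))]
    exact (isUnit_iff_ne_zero.mpr
      (natCast_ne_zero h1 (by have := Nat.le_mul_of_pos_right (b + 2) hi0; omega))).map C
  -- so `P` divides a factor it cannot divide
  rcases hP.prime.dvd_or_dvd hdv with h | h
  · exact hPd ((hu (b + 1) (by omega) (by omega)).dvd_mul_left.mp h)
  · rw [hU, dvd_add_left (dvd_mul_right P _)] at h
    rcases hP.prime.dvd_or_dvd h with h | h
    · exact hPd ((hu (b + 2) (by omega) le_rfl).dvd_mul_left.mp h)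
    · exact hS h

omit hℓ in
/-- The scaling by a nonzero `c` is inverse to that by `c⁻¹`. -/
theorem scale_scale {F : Type*} [Field F] {c : F} (hc : c ≠ 0) :
    (scale c).comp (scale c⁻¹) = AlgHom.id F (EPoly F) ∧
      (scale c⁻¹).comp (scale c) = AlgHom.id F (EPoly F) := by
  rw [scale_mul, scale_mul, mul_inv_cancel₀ hc, inv_mul_cancel₀ hc, scale_one]
  exact ⟨rfl, rfl⟩

include h5 in
/-- Congruent nonzero series have weights congruent modulo `ℓ - 1`. -/
theorem weight_modEq {k k' : ℕ} {P Q : EPoly (ZMod ℓ)} (hP : IsW k P) (hQ : IsW k' Q)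
    (h : d.psi P = d.psi Q) (h0 : d.psi Q ≠ 0) : k ≡ k' [MOD ℓ - 1] := by
  obtain ⟨R, hR, ⟨T, hT⟩, hker⟩ := d.exists_gen h5
  obtain ⟨g, hg⟩ := IsCyclic.exists_generator (α := (ZMod ℓ)ˣ)
  set c : ZMod ℓ := (g : ZMod ℓ) with hc
  have hc0 : c ≠ 0 := g.ne_zero
  have hord : orderOf g = ℓ - 1 := by
    rw [orderOf_eq_card_of_forall_mem_zpowers hg, Nat.card_eq_fintype_card,
      -- the scaling by a generator preserves the kernel
      ZMod.card_units_eq_totient, Nat.totient_prime hℓ.out]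
  have hfix : scale c (d.hasse - 1) = d.hasse - 1 := by
    rw [map_sub, map_one, d.isW_hasse.scale_eq, ZMod.pow_card_sub_one_eq_one hc0, map_one, one_mul]
  let e := AlgEquiv.ofAlgHom (scale c) (scale c⁻¹) (scale_scale hc0).1 (scale_scale hc0).2
  have hR' : Irreducible (scale c R) := (MulEquiv.irreducible_iff e).mpr hR
  have hstable : R ∣ scale c R := by
    by_contra hnd
    have hd1 : scale c R ∣ R * T := by
      rw [← hT, ← hfix, hT, map_mul]; exact dvd_mul_right _ _
    rcases hR'.prime.dvd_or_dvd hd1 with hd2 | ⟨T', hT'⟩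
    · exact hnd (hR'.associated_of_dvd hR hd2).dvd'
    have hnat : (tau (d.hasse - 1)).natDegree = ℓ - 1 := by
      refine Polynomial.natDegree_eq_of_le_of_coeff_ne_zero ?_ ?_
      · rw [Polynomial.natDegree_le_iff_coeff_eq_zero]
        intro N hN
        rw [d.coeff_tau_hasse_sub_one, if_neg (by omega), if_neg (by omega), sub_zero]
      · rw [d.coeff_tau_hasse_sub_one, if_pos rfl, if_neg (by omega), sub_zero]
        exact d.hasse_ne_zero
    have hlc : (tau (d.hasse - 1)).leadingCoeff = d.hasse := by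
      rw [Polynomial.leadingCoeff, hnat, d.coeff_tau_hasse_sub_one, if_pos rfl, if_neg (by omega),
        sub_zero]
    rw [hT, hT', map_mul, map_mul, Polynomial.leadingCoeff_mul, Polynomial.leadingCoeff_mul,
      tau_scale, Polynomial.leadingCoeff_comp (by
        rw [Polynomial.natDegree_C_mul_X _ (by simpa [MvPolynomial.C_eq_zero] using hc0)]
        exact one_ne_zero), Polynomial.leadingCoeff_C_mul_X] at hlc
    refine d.not_sq_dvd_hasse h5 (isW_coeff R (tau R).natDegree) ?_ ⟨
      C c ^ (tau R).natDegree * (tau T').leadingCoeff, by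
        rw [← hlc, Polynomial.leadingCoeff]; ring⟩
    by_contra hzero
    have hR0 : IsW 0 R := by
      -- apply it to `P - Q`
      have e := Polynomial.eq_C_of_natDegree_eq_zero (Nat.eq_zero_of_not_pos hzero)
      exact isW_of_tau_eq (by rw [e, ← Polynomial.monomial_zero_left])
    exact not_irreducible_isW_zero hR0 hR
  have hmem : P - Q ∈ RingHom.ker d.psi := by simp [h]
  obtain ⟨S, hS⟩ := Ideal.mem_span_singleton.mp (hker ▸ hmem)
  have h1 : d.psi (scale c (P - Q)) = 0 := by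
    rw [← RingHom.mem_ker, hker, Ideal.mem_span_singleton, hS, map_mul]
    exact dvd_mul_of_dvd_left hstable _
  have hC : ∀ x : ZMod ℓ, d.psi (C x) = PowerSeries.C x := fun x => d.psi.commutes x
  rw [map_sub, map_sub, hP.scale_eq, hQ.scale_eq, map_mul, map_mul, h, ← sub_mul, hC, hC,
    -- so `g ^ k = g ^ k'`
    ← map_sub, mul_eq_zero] at h1
  have h2 : c ^ k = c ^ k' := by
    rcases h1 with h1 | h1
    · exact sub_eq_zero.mp (PowerSeries.C_injective (by rw [h1, map_zero]))
    · exact absurd h1 h0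
  have h3 : g ^ k = g ^ k' := Units.ext (by simpa using h2)
  rwa [pow_eq_pow_iff_modEq, hord] at h3

end SwDData

end Fermat.MF.Eisen
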