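import Fermat.Agent.MF.Eisen.Eisenstein

/-!
# Multiplying a congruent pair by level one forms

`exists_twist`: from a `CongPair` and a level one form a level one congruence, used in
`Discriminant` and `Three`.
-/

namespace Fermat.MF.Eisen

open UpperHalfPlane hiding I
open Fermat.MC ModularForm
open scoped MatrixGroups ModularForm Manifold

/-- `φ(q) ↦ φ(q^p)`. -/
noncomputable def spreadSer {R : Type*} [Semiring R] (p : ℕ) (φ : PowerSeries R) : PowerSeries R :=
  PowerSeries.mk (spread p fun m => φ.coeff m)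

/-- The operator `U_p` on power series. -/
noncomputable def uSer {R : Type*} [Semiring R] (p : ℕ) (φ : PowerSeries R) : PowerSeries R :=
  PowerSeries.mk fun n => φ.coeff (n * p)

/-- `q ↦ qᵖ` commutes with a change of coefficients. -/
theorem map_spreadSer {R S : Type*} [Semiring R] [Semiring S] (f : R →+* S) (p : ℕ)
    (φ : PowerSeries R) :
    PowerSeries.map f (spreadSer p φ) = spreadSer p (PowerSeries.map f φ) := by
  ext n; simp [spreadSer, spread, apply_ite f]

/-- `U_p` on series commutes with a change of coefficients. -/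
theorem map_uSer {R S : Type*} [Semiring R] [Semiring S] (f : R →+* S) (p : ℕ)
    (φ : PowerSeries R) :
    PowerSeries.map f (uSer p φ) = uSer p (PowerSeries.map f φ) := by
  ext n; simp [uSer]

/-- A constant divides a series exactly when it divides every coefficient. -/
theorem C_dvd_iff_coeff {R : Type*} [CommRing R] {a : R} {φ : PowerSeries R} :
    PowerSeries.C a ∣ φ ↔ ∀ n, a ∣ φ.coeff n := by
  constructor
  · rintro ⟨ψ, rfl⟩ n
    exact ⟨ψ.coeff n, PowerSeries.coeff_C_mul _ _ _⟩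
  · intro h
    choose b hb using h
    exact ⟨PowerSeries.mk b, by ext n; simp [PowerSeries.coeff_C_mul, hb]⟩

/-- `U_p` commutes with constants. -/
theorem uSer_C_mul {R : Type*} [Semiring R] (p : ℕ) (c : R) (φ : PowerSeries R) :
    uSer p (PowerSeries.C c * φ) = PowerSeries.C c * uSer p φ := by
  ext n; simp [uSer, PowerSeries.coeff_C_mul]

/-- The q-series of `f (p τ)` is `φ(qᵖ)`. -/
theorem qE_scaleF (p : ℕ) [NeZero p] {f : ℍ → ℂ} (hf : BddPer f) :
    qE (scaleF p f) = spreadSer p (qE f) := by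
  ext n; simp [spreadSer, coeff_qE_scaleF p hf]

/-- The q-series of `U_p f` is `uSer` of the q-series. -/
theorem qE_heckeU (p : ℕ) [NeZero p] {f : ℍ → ℂ} (hf : BddPer f) (k : ℤ) :
    qE (heckeU k p f) = uSer p (qE f) := by
  ext n; simp [uSer, coeff_qE_heckeU p hf]

variable (p : ℕ) [hp : Fact p.Prime]

/-- The Hecke operator `T_p` on the series of a level one form. -/
theorem exists_heckeT {j : ℕ} (hj : 1 ≤ j) (A : ModularForm 𝒮ℒ (j : ℤ)) (α : PowerSeries ℤ)
    (hα : qE ⇑A = PowerSeries.map (Int.castRingHom ℂ) α) :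
    ∃ F : ModularForm 𝒮ℒ (j : ℤ), qE F = PowerSeries.map (Int.castRingHom ℂ)
      (uSer p α + PowerSeries.C ((p : ℤ) ^ (j - 1)) * spreadSer p α) := by
  have : NeZero p := ⟨hp.out.ne_zero⟩
  have hA : BddPer (⇑A) := bddPer_levelOne A
  have hb : BddPer (⇑A ∣[(j : ℤ)] heckeDiagMatrix p) := by
    rw [diag_slash_eq]; exact bddPer_smul (bddPer_scaleF p hA) _
  obtain ⟨F, hF⟩ := exists_trace (isInv_diag A) hb hA 1 (by rw [one_smul]; exact diag_slash_S A)
  refine ⟨F, ?_⟩
  rw [hF, diag_slash_eq, qE_smul (bddPer_scaleF p hA), qE_scaleF p hA, one_smul, qE_heckeU p hA,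
    map_add, map_mul, map_uSer, map_spreadSer, hα, PowerSeries.map_C, add_comm,
    PowerSeries.smul_eq_C_mul]
  congr 3
  rw [map_pow, show (j : ℤ) - 1 = ((j - 1 : ℕ) : ℤ) by omega, zpow_natCast]
  simp

/-- A product of slashes by `heckeMatrix p 0` is `1/p` times the slash of the product. -/
theorem slash_heckeMatrix_zero_mul (k l : ℤ) (f g : ℍ → ℂ) :
    (f ∣[k] heckeMatrix p 0) * (g ∣[l] heckeMatrix p 0) =
      (p : ℂ)⁻¹ • ((f * g) ∣[k + l] heckeMatrix p 0) := by
  funext z
  simp only [Pi.mul_apply, Pi.smul_apply, smul_eq_mul, slash_heckeMatrix_apply _ hp.out.ne_zero]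
  ring

/-- Product of a congruent pair with a level one form, traced to level one. -/
theorem exists_twist {M : ℕ} (P : CongPair p M) {j : ℕ} (A : ModularForm 𝒮ℒ (j : ℤ))
    (α : PowerSeries ℤ) (hα : qE ⇑A = PowerSeries.map (Int.castRingHom ℂ) α) :
    ∃ (Z : ModularForm 𝒮ℒ ((2 + j : ℕ) : ℤ)) (ζ : PowerSeries ℤ),
      qE Z = PowerSeries.map (Int.castRingHom ℂ) ζ ∧
      PowerSeries.C (M : ℤ) ∣ ζ - PowerSeries.C ((p : ℤ) - 1) *
        (PowerSeries.C ((p : ℤ) ^ j) * spreadSer p α - uSer p α) := by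
  have : NeZero p := ⟨hp.out.ne_zero⟩
  have hA : BddPer (⇑A) := bddPer_levelOne A
  have hp0 : (p : ℂ) ≠ 0 := by exact_mod_cast hp.out.ne_zero
  have hb : BddPer (P.H * (⇑A ∣[(j : ℤ)] heckeDiagMatrix p)) := by
    refine P.bdd.mul ?_
    rw [diag_slash_eq]; exact bddPer_smul (bddPer_scaleF p hA) _
  have hb' : BddPer (P.H' * ⇑A) := P.bdd'.mul hA
  -- the slash by `S` of the first product
  have hS : ((P.H * (⇑A ∣[(j : ℤ)] heckeDiagMatrix p)) ∣[((2 + j : ℕ) : ℤ)] ModularGroup.S)
      = (-(p : ℂ)⁻¹) • ((P.H' * ⇑A) ∣[((2 + j : ℕ) : ℤ)] heckeMatrix p 0) := by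
    push_cast
    rw [ModularForm.mul_slash_SL2, P.slash_S, diag_slash_S A, neg_mul,
      slash_heckeMatrix_zero_mul]
    exact (_root_.neg_smul _ _).symm
  -- trace to level one
  obtain ⟨F, hF⟩ := exists_trace (k := 2 + j) (by
    push_cast; exact P.isInv.mul (isInv_diag A)) hb hb' _ hS
  refine ⟨(p : ℂ) • F, PowerSeries.C ((p : ℤ) ^ j) * (P.ser * spreadSer p α)
    - uSer p (P.ser' * α), ?_, ?_⟩
  · rw [show ⇑((p : ℂ) • F) = (p : ℂ) • ⇑F from rfl, qE_smul (bddPer_levelOne F), hF,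
      qE_mul P.bdd (by rw [diag_slash_eq]; exact bddPer_smul (bddPer_scaleF p hA) _),
      diag_slash_eq, qE_smul (bddPer_scaleF p hA), qE_scaleF p hA, qE_heckeU p hb',
      qE_mul P.bdd' hA, P.qE_H, P.qE_H', hα, map_sub, map_mul, map_mul, map_spreadSer, map_uSer,
      map_mul, PowerSeries.map_C]
    simp only [PowerSeries.smul_eq_C_mul, mul_add, ← mul_assoc, ← map_mul, mul_neg,
      mul_inv_cancel₀ hp0, map_neg, map_one, map_pow]
    have : (p : ℂ) * (p : ℂ) ^ ((j : ℤ) - 1) = (p : ℂ) ^ j := by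
      rw [← zpow_natCast (p : ℂ) j, ← zpow_one_add₀ hp0]; congr 1; ring
    have eC := congrArg (PowerSeries.C (R := ℂ)) this
    rw [map_mul, map_pow] at eC
    simp only [eq_intCast, Int.cast_natCast]
    linear_combination (PowerSeries.map (Int.castRingHom ℂ) P.ser *
      spreadSer p (PowerSeries.map (Int.castRingHom ℂ) α)) * eC
  -- the congruence
  · set c := (p : ℤ) - 1
    have h1 : PowerSeries.C (M : ℤ) ∣ P.ser - PowerSeries.C c :=
      C_dvd_iff_coeff.mpr P.congr
    have h2 : PowerSeries.C (M : ℤ) ∣ P.ser' - PowerSeries.C c :=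
      C_dvd_iff_coeff.mpr P.congr'
    have h3 : PowerSeries.C (M : ℤ) ∣ uSer p ((P.ser' - PowerSeries.C c) * α) := by
      obtain ⟨d, hd⟩ := h2.mul_right α
      exact ⟨uSer p d, by rw [hd, uSer_C_mul]⟩
    have e : uSer p ((P.ser' - PowerSeries.C c) * α)
        = uSer p (P.ser' * α) - PowerSeries.C c * uSer p α := by
      rw [← uSer_C_mul]; ext n; simp [uSer, sub_mul]
    rw [e] at h3
    have h4 := (h1.mul_right (spreadSer p α)).mul_left (PowerSeries.C ((p : ℤ) ^ j))
    have := h4.sub h3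
    convert this using 1
    ring

end Fermat.MF.Eisen
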