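import Fermat.Agent.MF.Eisen.Ramanujan
import Fermat.Agent.MF.Eisen.SwD
import Fermat.Agent.MF.Eisen.Twist
import Mathlib.NumberTheory.Bernoulli
import Mathlib.Algebra.GCDMonoid.FinsetLemmas

/-!
# Level one series modulo a prime `ℓ ≥ 5`

`exists_hasse` and `weight_modEq_of_forms`: the abstract theorem of `SwD` for integral forms, used
in `Discriminant`.
-/

namespace Fermat.MF.Eisen

open UpperHalfPlane hiding I
open Fermat.MC MvPolynomial
open scoped MatrixGroups Manifold ArithmeticFunction.sigma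

variable (ℓ : ℕ) [hℓ : Fact ℓ.Prime]

/-- Reduction of integral series modulo `ℓ`. -/
noncomputable def red : PowerSeries ℤ →+* PowerSeries (ZMod ℓ) :=
  PowerSeries.map (Int.castRingHom (ZMod ℓ))

/-- The series modulo `ℓ` of an isobaric polynomial. -/
noncomputable def psiMod : EPoly (ZMod ℓ) →ₐ[ZMod ℓ] PowerSeries (ZMod ℓ) :=
  aeval ![red ℓ e4Ser, red ℓ eisenstein6]

/-- The reduction of a constant. -/
theorem red_C (a : ℤ) : red ℓ (PowerSeries.C a) = PowerSeries.C (a : ZMod ℓ) :=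
  PowerSeries.map_C _ _

/-- Series congruent modulo a multiple of `ℓ` have the same reduction. -/
theorem red_eq_of_C_dvd {M : ℕ} (hM : ℓ ∣ M) {φ ψ : PowerSeries ℤ}
    (h : PowerSeries.C (M : ℤ) ∣ φ - ψ) : red ℓ φ = red ℓ ψ := by
  obtain ⟨χ, hχ⟩ := h
  rw [← sub_eq_zero, ← map_sub, hχ, map_mul, red_C]
  simp [(ZMod.natCast_eq_zero_iff M ℓ).mpr hM]

/-- `psiMod` of a constant. -/
theorem psiMod_C (a : ZMod ℓ) : psiMod ℓ (C a) = PowerSeries.C a := (psiMod ℓ).commutes a

/-- `psiMod` of `X` is the series of `E₄`. -/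
theorem psiMod_X_zero : psiMod ℓ (X 0) = red ℓ e4Ser := by simp [psiMod]

/-- `psiMod` of `Y` is the series of `E₆`. -/
theorem psiMod_X_one : psiMod ℓ (X 1) = red ℓ eisenstein6 := by simp [psiMod]

variable {ℓ} (h5 : 5 ≤ ℓ)

include h5 in
/-- The small integers used are units modulo `ℓ`. -/
theorem small_ne_zero {a : ℕ} (h : a = 2 ∨ a = 3 ∨ a = 4 ∨ a = 6 ∨ a = 12 ∨ a = 1728) :
    (a : ZMod ℓ) ≠ 0 := fun e => by
  rw [ZMod.natCast_eq_zero_iff] at e
  have key : ∀ q : ℕ, q.Prime → q ∣ a → q = 2 ∨ q = 3 := by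
    intro q hq hqa
    have : q ∣ 2 ^ 6 * 3 ^ 3 := by
      rcases h with rfl | rfl | rfl | rfl | rfl | rfl <;>
        exact hqa.trans (by norm_num)
    rcases hq.dvd_mul.mp this with h' | h'
    · exact Or.inl ((Nat.prime_dvd_prime_iff_eq hq Nat.prime_two).mp (hq.dvd_of_dvd_pow h'))
    · exact Or.inr ((Nat.prime_dvd_prime_iff_eq hq Nat.prime_three).mp (hq.dvd_of_dvd_pow h'))
  rcases key ℓ hℓ.out e with h' | h' <;> omega

/-- `psiMod` of `X³ - Y²` is `1728 Δ`. -/
theorem psiMod_disc : psiMod ℓ (X 0 ^ 3 - X 1 ^ 2) = PowerSeries.C (1728 : ZMod ℓ) *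
    red ℓ deltaSer := by
  rw [map_sub, map_pow, map_pow, psiMod_X_zero, psiMod_X_one, ← map_pow, ← map_pow, ← map_sub,
    e4Ser_cube_sub_sq, map_mul, map_ofNat, map_ofNat]

/-- `Δ` has no constant term. -/
theorem coeff_zero_deltaSer : deltaSer.coeff 0 = 0 := by simp [deltaSer]

/-- `Δ` starts with `q`. -/
theorem coeff_one_deltaSer : deltaSer.coeff 1 = 1 := by
  rw [deltaSer, PowerSeries.coeff_succ_X_mul, PowerSeries.coeff_zero_eq_constantCoeff_apply,
    ModularCurve.constantCoeff_dedekindEtaUnit]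

/-- The series of the Serre derivative modulo `ℓ` is `12 θ` of the series minus `E₂` times that of
the Euler derivative. -/
theorem psiMod_serreD_aux (P : EPoly (ZMod ℓ)) : psiMod ℓ (serreD P) =
    PowerSeries.C 12 * thetaOp (psiMod ℓ P) - red ℓ eisenstein2 * psiMod ℓ (eulerD P) := by
  induction P using MvPolynomial.induction_on with
  | C a => simp [serreD, eulerD, thetaOp_C]
  | add p q hp hq => simp only [map_add, thetaOp_add, hp, hq]; ring
  | mul_X p i hp =>
    rw [Derivation.leibniz, Derivation.leibniz]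
    simp only [smul_eq_mul, map_add, map_mul, thetaOp_mul]
    rw [hp]
    have key : psiMod ℓ (serreD (X i)) = PowerSeries.C 12 * thetaOp (psiMod ℓ (X i))
        - red ℓ eisenstein2 * psiMod ℓ (eulerD (X i)) := by
      have h12 : (PowerSeries.C 12 : PowerSeries (ZMod ℓ)) = 12 := map_ofNat _ _
      match i with
      | 0 =>
        have e := congrArg (red ℓ) theta_e4Ser
        simp only [map_mul, map_sub, map_ofNat, red, map_thetaOp] at e
        rw [serreD_X_zero, eulerD_X, map_neg, map_mul, map_mul, psiMod_X_zero, psiMod_X_one, h12]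
        simp only [wtVar, Matrix.cons_val_zero, map_natCast, map_ofNat, red]
        push_cast
        linear_combination (-4 : PowerSeries (ZMod ℓ)) * e
      | 1 =>
        have e := congrArg (red ℓ) theta_eisenstein6
        simp only [map_mul, map_sub, map_pow, map_ofNat, red, map_thetaOp] at e
        rw [serreD_X_one, eulerD_X, map_neg, map_mul, map_mul, map_pow, psiMod_X_zero,
          psiMod_X_one, h12]
        simp only [wtVar, Matrix.cons_val_one, map_natCast, map_ofNat, red]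
        push_cast
        linear_combination (-6 : PowerSeries (ZMod ℓ)) * e
    rw [key]
    ring

/-- `ℓ` divides the denominator of the Bernoulli number when `ℓ - 1` divides the index. -/
theorem dvd_den_bernoulli {k : ℕ} (hk : ℓ - 1 ∣ 2 * k) (hk0 : k ≠ 0) :
    ℓ ∣ (bernoulli (2 * k)).den := by
  by_contra hB
  obtain ⟨N, hN⟩ := Bernoulli.vonStaudt_clausen k
  set s := (Finset.range (2 * k + 2)).filter (fun q => q.Prime ∧ (q - 1) ∣ 2 * k)
  have hmem : ℓ ∈ s := by
    have := Nat.le_of_dvd (by omega) hk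
    simp only [s, Finset.mem_filter, Finset.mem_range]
    exact ⟨by omega, hℓ.out, hk⟩
  rw [← Finset.add_sum_erase s _ hmem] at hN
  have hrest : ¬ ℓ ∣ (∑ q ∈ s.erase ℓ, (1 : ℚ) / q).den := fun h => by
    have h' := h.trans (Finset.Rat.den_sum_dvd_prod_den _ _)
    obtain ⟨q, hq, hq'⟩ := (hℓ.out.prime.dvd_finsetProd_iff _).mp h'
    obtain ⟨hne, hqs⟩ := Finset.mem_erase.mp hq
    have hqp : q.Prime := (Finset.mem_filter.mp hqs).2.1
    rw [one_div, Rat.inv_natCast_den, if_neg hqp.ne_zero] at hq'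
    exact hne ((Nat.prime_dvd_prime_iff_eq hℓ.out hqp).mp hq').symm
  have e : (1 : ℚ) / ℓ = ((N : ℚ) - bernoulli (2 * k)) - ∑ q ∈ s.erase ℓ, (1 : ℚ) / q := by
    rw [hN]; ring
  have hd : ((1 : ℚ) / ℓ).den = ℓ := by
    rw [one_div, Rat.inv_natCast_den, if_neg hℓ.out.ne_zero]
  have h1 : ((1 : ℚ) / ℓ).den ∣ ((N : ℚ).den * (bernoulli (2 * k)).den) *
      (∑ q ∈ s.erase ℓ, (1 : ℚ) / q).den := by
    rw [e]
    exact (Rat.sub_den_dvd _ _).trans (Nat.mul_dvd_mul_right (Rat.sub_den_dvd _ _) _)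
  rw [hd, Rat.den_intCast, one_mul] at h1
  exact (hℓ.out.dvd_mul.mp h1).elim hB hrest

/-- A level one form with coefficients in `ℤ`, as an isobaric polynomial modulo `ℓ`. -/
theorem exists_poly_of_form (h5 : 5 ≤ ℓ) {k : ℕ} (f : ModularForm 𝒮ℒ (k : ℤ)) (ζ : PowerSeries ℤ)
    (hζ : qE ⇑f = PowerSeries.map (Int.castRingHom ℂ) ζ) :
    ∃ P : EPoly (ZMod ℓ), IsW k P ∧ psiMod ℓ P = red ℓ ζ := by
  have hmem := mem_monoSpan (Int.castRingHom ℂ).range k f (mem_serRing_iff.mpr fun n => by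
    rw [hζ]; simp)
  -- induct over the monomials in the standard generators
  have key : ∀ g ∈ monoSpan (Int.castRingHom ℂ).range k, BddPer g ∧ ∃ ξ : PowerSeries ℤ,
      qE g = PowerSeries.map (Int.castRingHom ℂ) ξ ∧
      ∃ P : EPoly (ZMod ℓ), IsW k P ∧ psiMod ℓ P = red ℓ ξ := by
    intro g hg
    induction hg using Submodule.span_induction with
    | mem g hg =>
      obtain ⟨i, a, b, hw, rfl⟩ := hg
      refine ⟨bddPer_monoF i a b, _, qE_monoF i a b,
        (C ((1728 : ZMod ℓ)⁻¹) * (X 0 ^ 3 - X 1 ^ 2)) ^ i * X 0 ^ a * X 1 ^ b, ?_, ?_⟩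
      · rw [← hw]
        exact ((((isW_X_zero.pow 3).sub (isW_X_one.pow 2)).C_mul _).pow i |>.mul
          (isW_X_zero.pow a)).mul (isW_X_one.pow b)
      · have h1728 : (1728 : ZMod ℓ) ≠ 0 := by
          exact_mod_cast small_ne_zero h5 (a := 1728) (by norm_num)
        rw [map_mul, map_mul, map_pow, map_pow, map_pow, map_mul, psiMod_C, psiMod_disc,
          psiMod_X_zero, psiMod_X_one, ← mul_assoc, ← map_mul, inv_mul_cancel₀ h1728, map_one,
          one_mul, ← map_pow, ← map_pow, ← map_pow, ← map_mul, ← map_mul]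
        rfl
    | zero => exact ⟨bddPer_zero, 0, by rw [qE_zero, map_zero], 0, isW_zero k, by simp⟩
    | add x y _ _ hx hy =>
      obtain ⟨hbx, ξ, hξ, P, hP, hPξ⟩ := hx
      obtain ⟨hby, ξ', hξ', Q, hQ, hQξ⟩ := hy
      exact ⟨hbx.add hby, ξ + ξ', by rw [qE_add hbx hby, hξ, hξ', map_add], P + Q, hP.add hQ,
        by rw [map_add, map_add, hPξ, hQξ]⟩
    | smul c x _ hx =>
      obtain ⟨hbx, ξ, hξ, P, hP, hPξ⟩ := hx
      obtain ⟨m, hm⟩ := c.2
      refine ⟨bddPer_smul hbx _, PowerSeries.C m * ξ, ?_, C (m : ZMod ℓ) * P, hP.C_mul _,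
        by rw [map_mul, map_mul, psiMod_C, hPξ, red_C]⟩
      rw [Subring.smul_def, qE_smul hbx, hξ, map_mul, PowerSeries.map_C,
        PowerSeries.smul_eq_C_mul, hm]
  -- an integral series is determined by its complex image
  obtain ⟨-, ξ, hξ, P, hP, hPξ⟩ := key _ hmem
  exact ⟨P, hP, by rw [hPξ, map_int_injective (hξ.symm.trans hζ)]⟩

/-- Some isobaric polynomial of weight `ℓ - 1` has series `1` modulo `ℓ`. -/
theorem exists_hasse (h5 : 5 ≤ ℓ) :
    ∃ P : EPoly (ZMod ℓ), IsW (ℓ - 1) P ∧ psiMod ℓ P = 1 := by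
  obtain ⟨t, ht⟩ : Even (ℓ - 1) := Nat.Prime.even_sub_one hℓ.out (by omega)
  have hk2 : Even (ℓ - 1) := ⟨t, ht⟩
  set B := bernoulli (ℓ - 1) with hB
  -- `ℓ` divides the denominator of the Bernoulli number, not its numerator
  have hden : ℓ ∣ B.den := by
    rw [hB, show ℓ - 1 = 2 * t by omega]
    exact dvd_den_bernoulli (by rw [show ℓ - 1 = 2 * t by omega]) (by omega)
  have hnum : ¬ (ℓ : ℤ) ∣ B.num := fun h => by
    have h' : ℓ ∣ B.num.natAbs := Int.natCast_dvd.mp h
    exact hℓ.out.not_dvd_one (B.reduced ▸ Nat.dvd_gcd h' hden)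
  have hnum0 : B.num ≠ 0 := fun h => hnum (h ▸ dvd_zero _)
  set ζ : PowerSeries ℤ := PowerSeries.mk fun n =>
    if n = 0 then B.num else -(2 * ((ℓ - 1 : ℕ) : ℤ) * B.den * (σ (ℓ - 1 - 1) n : ℕ)) with hζdef
  set f : ModularForm 𝒮ℒ ((ℓ - 1 : ℕ) : ℤ) :=
    (B.num : ℂ) • ModularForm.E (k := ℓ - 1) (by omega) with hf
  -- the Eisenstein series of weight `ℓ - 1`, times the numerator, is integral
  have hζ : qE ⇑f = PowerSeries.map (Int.castRingHom ℂ) ζ := by
    rw [hf, show ⇑((B.num : ℂ) • ModularForm.E (k := ℓ - 1) (by omega)) =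
      (B.num : ℂ) • ⇑(ModularForm.E (k := ℓ - 1) (by omega)) from rfl, qE_smul (bddPer_levelOne _)]
    ext n
    rw [PowerSeries.coeff_smul, qE, EisensteinSeries.E_qExpansion_coeff (by omega) hk2,
      PowerSeries.coeff_map, hζdef, PowerSeries.coeff_mk, smul_eq_mul, ← hB]
    have hBden : (B : ℂ) * B.den = B.num := by exact_mod_cast Rat.mul_den_eq_num B
    split_ifs with hn
    · simp
    · rw [← hBden]
      have hB0 : (B : ℂ) ≠ 0 := Rat.cast_ne_zero.mpr (Rat.num_ne_zero.mp hnum0)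
      simp only [eq_intCast, Int.cast_neg, Int.cast_mul, Int.cast_ofNat, Int.cast_natCast]
      field_simp
  obtain ⟨P, hP, hPζ⟩ := exists_poly_of_form h5 f ζ hζ
  have hcast : (B.num : ZMod ℓ) ≠ 0 := fun h => hnum ((ZMod.intCast_zmod_eq_zero_iff_dvd _ _).mp h)
  -- modulo `ℓ` it is a nonzero constant
  have hred : red ℓ ζ = PowerSeries.C (B.num : ZMod ℓ) := by
    ext n
    rw [red, PowerSeries.coeff_map, hζdef, PowerSeries.coeff_mk, PowerSeries.coeff_C, eq_intCast]
    split_ifs with hn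
    · rfl
    · push_cast
      rw [show (B.den : ZMod ℓ) = 0 from (ZMod.natCast_eq_zero_iff _ _).mpr hden]
      ring
  exact ⟨C (B.num : ZMod ℓ)⁻¹ * P, hP.C_mul _, by
    rw [map_mul, psiMod_C, hPζ, hred, ← map_mul, inv_mul_cancel₀ hcast, map_one]⟩

/-- The data of the weight argument for `ℓ ≥ 5`. -/
noncomputable def swdData (h5 : 5 ≤ ℓ) : SwDData ℓ where
  psi := psiMod ℓ
  e2 := red ℓ eisenstein2
  hasse := (exists_hasse h5).choose
  isW_hasse := (exists_hasse h5).choose_spec.1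
  psi_hasse := (exists_hasse h5).choose_spec.2
  const_disc := by
    rw [psiMod_disc, map_mul, ← PowerSeries.coeff_zero_eq_constantCoeff_apply (red ℓ deltaSer), red,
      PowerSeries.coeff_map, coeff_zero_deltaSer, map_zero, mul_zero]
  disc_ne := fun h => by
    rw [psiMod_disc] at h
    have h1 := congrArg (PowerSeries.coeff 1) h
    rw [PowerSeries.coeff_C_mul, red, PowerSeries.coeff_map, coeff_one_deltaSer, map_one, mul_one,
      map_zero] at h1
    exact small_ne_zero h5 (a := 1728) (by norm_num) (by exact_mod_cast h1)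
  psi_serreD k P hP := by
    rw [psiMod_serreD_aux, hP.eulerD_eq, map_mul, psiMod_C]
    ring
  theta_e2 := by
    have e := congrArg (red ℓ) theta_eisenstein2
    simp only [map_mul, map_sub, map_pow, map_ofNat, red, map_thetaOp] at e
    rw [psiMod_X_zero, red, map_ofNat]
    exact e

/-- Congruent nonzero integral level one series have congruent weights. -/
theorem weight_modEq_of_forms (h5 : 5 ≤ ℓ) {k k' : ℕ} (f : ModularForm 𝒮ℒ (k : ℤ))
    (f' : ModularForm 𝒮ℒ (k' : ℤ)) (ζ ζ' : PowerSeries ℤ)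
    (hζ : qE ⇑f = PowerSeries.map (Int.castRingHom ℂ) ζ)
    (hζ' : qE ⇑f' = PowerSeries.map (Int.castRingHom ℂ) ζ')
    (c : ZMod ℓ) (h : red ℓ ζ = PowerSeries.C c * red ℓ ζ') (h0 : red ℓ ζ ≠ 0) :
    k ≡ k' [MOD ℓ - 1] := by
  obtain ⟨P, hP, hPζ⟩ := exists_poly_of_form h5 f ζ hζ
  obtain ⟨Q, hQ, hQζ⟩ := exists_poly_of_form h5 f' ζ' hζ'
  refine (swdData h5).weight_modEq h5 hP (hQ.C_mul c) ?_ ?_
  · change psiMod ℓ P = psiMod ℓ (C c * Q)
    rw [map_mul, psiMod_C, hPζ, hQζ, h]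
  · change psiMod ℓ (C c * Q) ≠ 0
    rw [map_mul, psiMod_C, hQζ, ← h]
    exact h0

end Fermat.MF.Eisen
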