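import Fermat.Agent.MF.Eisen.Eisenstein

/-!
# Ramanujan's identities as identities of integral q-series

Among them are `theta_eisenstein2` and `e4Ser_cube_sub_sq`.
-/

namespace Fermat.MF.Eisen

open UpperHalfPlane hiding I
open Fermat.MC ModularForm Complex Derivative Filter
open ModularForm (E₄ E₆)
open scoped MatrixGroups ModularForm Manifold

local notation "E2" => EisensteinSeries.E2

section Theta

variable {R S : Type*} [CommRing R] [CommRing S]

/-- `q d/dq` is additive. -/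
theorem thetaOp_add (φ ψ : PowerSeries R) : thetaOp (φ + ψ) = thetaOp φ + thetaOp ψ := by
  ext n; simp [thetaOp, mul_add]

/-- `q d/dq` satisfies the Leibniz rule. -/
theorem thetaOp_mul (φ ψ : PowerSeries R) :
    thetaOp (φ * ψ) = thetaOp φ * ψ + φ * thetaOp ψ := by
  ext n
  simp only [thetaOp, PowerSeries.coeff_mk, map_add, PowerSeries.coeff_mul, Finset.mul_sum,
    ← Finset.sum_add_distrib]
  refine Finset.sum_congr rfl fun i hi => ?_
  rw [Finset.HasAntidiagonal.mem_antidiagonal] at hi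
  rw [← hi]
  push_cast
  ring

/-- `q d/dq` kills constants. -/
theorem thetaOp_C (c : R) : thetaOp (PowerSeries.C c) = 0 := by
  ext n
  rcases eq_or_ne n 0 with rfl | hn <;> simp [thetaOp, PowerSeries.coeff_C, *]

/-- `q d/dq` commutes with a change of coefficients. -/
theorem map_thetaOp (f : R →+* S) (φ : PowerSeries R) :
    PowerSeries.map f (thetaOp φ) = thetaOp (PowerSeries.map f φ) := by
  ext n; simp [thetaOp]

end Theta

/-- The series of `E₄`. -/
noncomputable abbrev e4Ser : PowerSeries ℤ := ModularCurve.eisenstein4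

/-- The series of `Δ`. -/
noncomputable def deltaSer : PowerSeries ℤ := PowerSeries.X * ModularCurve.dedekindEtaUnit

/-- The q-series of `E₄`. -/
theorem qE_E4 : qE (⇑E₄) = PowerSeries.map (Int.castRingHom ℂ) e4Ser := qExpansion_E₄

/-- The q-series of `E₆`. -/
theorem qE_E6 : qE (⇑E₆) = PowerSeries.map (Int.castRingHom ℂ) eisenstein6 := qExpansion_E₆

/-- The q-series of `Δ`. -/
theorem qE_Delta : qE ModularForm.discriminant = PowerSeries.map (Int.castRingHom ℂ) deltaSer := by
  rw [qE, qExpansion_discriminant, deltaSer, map_mul, PowerSeries.map_X]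

/-- The series of `E₄` starts with one. -/
theorem constantCoeff_e4Ser : PowerSeries.constantCoeff e4Ser = 1 := by
  rw [← PowerSeries.coeff_zero_eq_constantCoeff_apply]
  simp [e4Ser, ModularCurve.eisenstein4, -PowerSeries.coeff_zero_eq_constantCoeff]

/-- The series of `E₆` starts with one. -/
theorem constantCoeff_eisenstein6 : PowerSeries.constantCoeff eisenstein6 = 1 := by
  rw [← PowerSeries.coeff_zero_eq_constantCoeff_apply]
  simp [eisenstein6, -PowerSeries.coeff_zero_eq_constantCoeff]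

/-- The series of `E₂` starts with one. -/
theorem constantCoeff_eisenstein2 : PowerSeries.constantCoeff eisenstein2 = 1 := by
  rw [← PowerSeries.coeff_zero_eq_constantCoeff_apply]
  simp [eisenstein2, -PowerSeries.coeff_zero_eq_constantCoeff]

/-- `q d/dq` kills the constant term. -/
theorem thetaOp_constantCoeff (φ : PowerSeries ℂ) : PowerSeries.constantCoeff (thetaOp φ) = 0 := by
  rw [← PowerSeries.coeff_zero_eq_constantCoeff_apply]
  simp [thetaOp, -PowerSeries.coeff_zero_eq_constantCoeff]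

/-- The constant term of an integral series read in `ℂ`. -/
theorem constantCoeff_mapInt (φ : PowerSeries ℤ) :
    PowerSeries.constantCoeff (PowerSeries.map (Int.castRingHom ℂ) φ)
      = ((PowerSeries.constantCoeff φ : ℤ) : ℂ) := by
  rw [← PowerSeries.coeff_zero_eq_constantCoeff_apply, PowerSeries.coeff_map,
    PowerSeries.coeff_zero_eq_constantCoeff_apply]
  rfl

/-- A level one form of a weight allowing only the monomial `(0, a, b)` is a multiple of it. -/
theorem levelOne_low {k a b : ℕ} (f : ModularForm 𝒮ℒ (k : ℤ))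
    (hk : ∀ i a' b', 12 * i + 4 * a' + 6 * b' = k → i = 0 ∧ a' = a ∧ b' = b) :
    (⇑f : ℍ → ℂ) = (qE ⇑f).coeff 0 • monoF 0 a b := by
  have h := mem_monoSpan ⊤ k f (mem_serRing_iff.mpr fun n => trivial)
  have hle : monoSpan (⊤ : Subring ℂ) k ≤ Submodule.span _ {monoF 0 a b} :=
    Submodule.span_le.mpr (by
      rintro g ⟨i, a', b', hw, rfl⟩
      obtain ⟨rfl, rfl, rfl⟩ := hk i a' b' hw
      exact Submodule.subset_span rfl)
  obtain ⟨c, hc⟩ := Submodule.mem_span_singleton.mp (hle h)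
  rw [Subring.smul_def] at hc
  have h0 : (qE ⇑f).coeff 0 = c := by
    rw [← hc, qE_smul (bddPer_monoF 0 a b), qE_monoF]
    rw [PowerSeries.coeff_smul, PowerSeries.coeff_zero_eq_constantCoeff_apply, constantCoeff_mapInt,
      map_mul, map_mul, map_pow, map_pow, map_pow, constantCoeff_e4Ser, constantCoeff_eisenstein6]
    simp
  rw [h0, hc]

/-- Where the weight allows one monomial, a level one function is a multiple of that monomial. -/
theorem qE_eq_of_low {k a b : ℕ} {g : ℍ → ℂ} (hg : BddPer g)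
    (hinv : ∀ γ : SL(2, ℤ), (g ∣[(k : ℤ)] γ) = g)
    (hk : ∀ i a' b', 12 * i + 4 * a' + 6 * b' = k → i = 0 ∧ a' = a ∧ b' = b) :
    qE g = (qE g).coeff 0 • PowerSeries.map (Int.castRingHom ℂ) (e4Ser ^ a * eisenstein6 ^ b) := by
  have h := levelOne_low (levelOneForm k g hg.1
    (fun γ z => slash_eq_iff_smul.mp (hinv γ) z) hg.2.2) hk
  rw [coe_levelOneForm] at h
  have h' := congrArg qE h
  rwa [qE_smul (bddPer_monoF 0 a b), qE_monoF, pow_zero, one_mul] at h'

/-- The derivative of the correction term is minus its square. -/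
theorem D_uTerm (γ : SL(2, ℤ)) : D (uTerm γ) = fun z => -(uTerm γ z) ^ 2 := by
  funext z
  have h : HasDerivAt (uTerm γ ∘ ofComplex)
      (((2 * Real.pi * I)⁻¹ * (γ 1 0 : ℂ)) * (-(γ 1 0 : ℂ) * denom γ z ^ (-2 : ℤ))) (z : ℂ) := by
    have h0 : HasDerivAt (fun w : ℂ => ((γ 1 0 : ℂ) * w + (γ 1 1 : ℂ))⁻¹)
        (-(γ 1 0 : ℂ) * denom γ z ^ (-2 : ℤ)) (z : ℂ) := by
      have hne : (γ 1 0 : ℂ) * (z : ℂ) + (γ 1 1 : ℂ) ≠ 0 := by
        rw [← denom_SL]; exact denom_ne_zero _ z
      have := (((hasDerivAt_id (z : ℂ)).const_mul (γ 1 0 : ℂ)).add_const (γ 1 1 : ℂ)).inv hne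
      refine this.congr_deriv ?_
      rw [denom_SL, show (-2 : ℤ) = -((2 : ℕ) : ℤ) from rfl, zpow_neg, zpow_natCast]
      simp [div_eq_mul_inv]
    refine (h0.const_mul _).congr_of_eventuallyEq ?_
    filter_upwards [isOpen_upperHalfPlaneSet.mem_nhds z.im_pos] with w hw
    rw [Function.comp_apply, ofComplex_apply_of_im_pos hw, uTerm, denom_SL]
    simp [div_eq_mul_inv, mul_assoc]
  rw [show D (uTerm γ) z = (2 * Real.pi * I)⁻¹ * deriv (uTerm γ ∘ ofComplex) z from rfl, h.deriv,
    uTerm,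
    show (-2 : ℤ) = -((2 : ℕ) : ℤ) from rfl, zpow_neg, zpow_natCast]
  ring

/-- The correction term is holomorphic. -/
theorem mdiff_uTerm (γ : SL(2, ℤ)) : MDiff (uTerm γ) := by
  have h : (12 : ℂ) • uTerm γ = (E2 ∣[(2 : ℤ)] γ) - E2 := by rw [E2_slash]; abel
  have h' : uTerm γ = (12 : ℂ)⁻¹ • ((E2 ∣[(2 : ℤ)] γ) - E2) := by
    rw [← h, smul_smul]; norm_num
  rw [h', ModularForm.SL_slash]
  exact ((E2_mdifferentiable.slash _ _).sub E2_mdifferentiable).const_smul _

/-- `12 D E₂ - E₂²` has weight four. -/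
theorem ramanujanE2_slash (γ : SL(2, ℤ)) :
    (((12 : ℂ) • D E2 - E2 * E2) ∣[(4 : ℤ)] γ) = (12 : ℂ) • D E2 - E2 * E2 := by
  have h1 := normalizedDerivOfComplex_SL_slash (k := 2) E2_mdifferentiable (γ := γ)
  rw [E2_slash γ, normalizedDerivOfComplex_add _ _ E2_mdifferentiable
    ((mdiff_uTerm γ).const_smul _), normalizedDerivOfComplex_smul _ _ (mdiff_uTerm γ),
    D_uTerm] at h1
  have h2 : (E2 * E2) ∣[(4 : ℤ)] γ = (E2 + (12 : ℂ) • uTerm γ) * (E2 + (12 : ℂ) • uTerm γ) := by
    rw [show (4 : ℤ) = 2 + 2 from rfl, ModularForm.mul_slash_SL2, E2_slash]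
  rw [sub_slash, ModularForm.SL_smul_slash, h2]
  funext z
  have h3 := congrFun h1 z
  simp only [Pi.add_apply, Pi.sub_apply, Pi.mul_apply, Pi.smul_apply, smul_eq_mul] at h3 ⊢
  have e : ((2 : ℤ) : ℂ) * (2 * Real.pi * I)⁻¹ * ((γ 1 0 : ℂ) / denom γ z) = 2 * uTerm γ z := by
    rw [uTerm]; push_cast; ring
  rw [e, show (2 : ℤ) + 2 = 4 from rfl] at h3
  linear_combination (-12 : ℂ) * h3

/-- The Serre derivative of a level one form is invariant of weight `k + 2`. -/
theorem serre_slash {k : ℕ} (f : ModularForm 𝒮ℒ (k : ℤ)) (γ : SL(2, ℤ)) :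
    ((serreDerivative (k : ℂ) ⇑f) ∣[((k + 2 : ℕ) : ℤ)] γ) = serreDerivative (k : ℂ) ⇑f := by
  push_cast
  exact serreDerivative_slash_invariant (k := (k : ℤ)) (ModularFormClass.holo f)
    (levelOne_slash f γ)

/-- The q-series of the Serre derivative. -/
theorem qE_serre {k : ℕ} (f : ModularForm 𝒮ℒ (k : ℤ)) :
    BddPer (serreDerivative (k : ℂ) ⇑f) ∧ qE (serreDerivative (k : ℂ) ⇑f) =
      thetaOp (qE ⇑f) - ((k : ℂ) * 12⁻¹) • (qE E2 * qE ⇑f) := by
  have hf : BddPer (⇑f) := bddPer_levelOne f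
  have e : serreDerivative (k : ℂ) ⇑f = D ⇑f - ((k : ℂ) * 12⁻¹) • (E2 * ⇑f) := by
    funext z; simp [mul_assoc]
  rw [e]
  have h1 := bddPer_D_and_qE_D hf
  have h2 := bddPer_smul (bddPer_E2.mul hf) ((k : ℂ) * 12⁻¹)
  exact ⟨bddPer_sub h1.1 h2, by
      rw [qE_sub h1.1 h2, qE_smul (bddPer_E2.mul hf), qE_mul bddPer_E2 hf, h1.2]⟩

/-- Reading integral series in `ℂ` is injective. -/
theorem map_int_injective :
    Function.Injective (PowerSeries.map (Int.castRingHom ℂ)) :=
  PowerSeries.map_injective _ Int.cast_injective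

/-- Ramanujan's identity for `E₄`. -/
theorem theta_e4Ser :
    3 * thetaOp e4Ser = eisenstein2 * e4Ser - eisenstein6 := by
  have h := qE_eq_of_low (k := 4 + 2) (a := 0) (b := 1) (qE_serre (k := 4) E₄).1
    (serre_slash (k := 4) E₄) (by omega)
  rw [(qE_serre (k := 4) E₄).2, qE_E4, qE_E2] at h
  apply map_int_injective
  rw [map_mul, map_sub, map_mul, map_thetaOp]
  have hc : ((4 : ℕ) : ℂ) * 12⁻¹ = 3⁻¹ := by norm_num
  rw [hc] at h
  simp only [map_sub, PowerSeries.coeff_smul, PowerSeries.coeff_zero_eq_constantCoeff_apply,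
    thetaOp_constantCoeff, map_mul, constantCoeff_mapInt, constantCoeff_eisenstein2, Int.cast_one,
    constantCoeff_e4Ser, mul_one, pow_zero, pow_one, one_mul, smul_eq_mul] at h
  simp only [PowerSeries.smul_eq_C_mul, zero_sub, map_neg] at h
  have h3 : (3 : PowerSeries ℂ) * PowerSeries.C (3⁻¹ : ℂ) = 1 := by
    rw [← map_ofNat PowerSeries.C 3, ← map_mul]; norm_num
  rw [map_ofNat]
  linear_combination 3 * h + (PowerSeries.map (Int.castRingHom ℂ) eisenstein2 *
    PowerSeries.map (Int.castRingHom ℂ) e4Ser - PowerSeries.map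
      (Int.castRingHom ℂ) eisenstein6) * h3

/-- Ramanujan's identity for `E₆`. -/
theorem theta_eisenstein6 :
    2 * thetaOp eisenstein6 = eisenstein2 * eisenstein6 - e4Ser ^ 2 := by
  have h := qE_eq_of_low (k := 6 + 2) (a := 2) (b := 0) (qE_serre (k := 6) E₆).1
    (serre_slash (k := 6) E₆) (by omega)
  rw [(qE_serre (k := 6) E₆).2, qE_E6, qE_E2] at h
  apply map_int_injective
  rw [map_mul, map_sub, map_mul, map_thetaOp, map_pow]
  have hc : ((6 : ℕ) : ℂ) * 12⁻¹ = 2⁻¹ := by norm_num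
  rw [hc] at h
  simp only [map_sub, PowerSeries.coeff_smul, PowerSeries.coeff_zero_eq_constantCoeff_apply,
    thetaOp_constantCoeff, map_mul, constantCoeff_mapInt, constantCoeff_eisenstein2, Int.cast_one,
    constantCoeff_eisenstein6, mul_one, pow_zero, map_pow, smul_eq_mul] at h
  simp only [PowerSeries.smul_eq_C_mul, zero_sub, map_neg] at h
  have h2 : (2 : PowerSeries ℂ) * PowerSeries.C (2⁻¹ : ℂ) = 1 := by
    rw [← map_ofNat PowerSeries.C 2, ← map_mul]; norm_num
  rw [map_ofNat]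
  linear_combination 2 * h + (PowerSeries.map (Int.castRingHom ℂ) eisenstein2 *
    PowerSeries.map (Int.castRingHom ℂ) eisenstein6 -
      PowerSeries.map (Int.castRingHom ℂ) e4Ser ^ 2) * h2

/-- Ramanujan's identity for `E₂`. -/
theorem theta_eisenstein2 :
    12 * thetaOp eisenstein2 = eisenstein2 ^ 2 - e4Ser := by
  have hb1 := bddPer_D_and_qE_D bddPer_E2
  have hb2 := bddPer_smul hb1.1 (12 : ℂ)
  have h := qE_eq_of_low (k := 4) (a := 1) (b := 0) (bddPer_sub hb2 (bddPer_E2.mul bddPer_E2))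
    (fun γ => by push_cast; exact ramanujanE2_slash γ) (by omega)
  rw [qE_sub hb2 (bddPer_E2.mul bddPer_E2), qE_smul hb1.1, qE_mul bddPer_E2 bddPer_E2, hb1.2,
    qE_E2] at h
  apply map_int_injective
  rw [map_mul, map_sub, map_pow, map_thetaOp, map_ofNat]
  simp only [map_sub, PowerSeries.coeff_smul, PowerSeries.coeff_zero_eq_constantCoeff_apply,
    thetaOp_constantCoeff, map_mul, constantCoeff_mapInt, constantCoeff_eisenstein2,
      Int.cast_one, mul_one, pow_zero, pow_one, smul_eq_mul, mul_zero] at h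
  simp only [PowerSeries.smul_eq_C_mul, zero_sub, map_neg, map_one, map_ofNat] at h
  linear_combination h

/-- `E₄³ - E₆² = 1728 Δ`. -/
theorem e4Ser_cube_sub_sq : e4Ser ^ 3 - eisenstein6 ^ 2 = 1728 * deltaSer := by
  apply map_int_injective
  rw [map_sub, map_mul, map_pow, map_pow, map_ofNat, ← qE_E4, ← qE_E6, ← qE_Delta,
    ← qE_pow bddPer_E₄, ← qE_pow bddPer_E₆, ← qE_sub (bddPer_E₄.pow 3) (bddPer_E₆.pow 2),
    ← map_ofNat (PowerSeries.C (R := ℂ)), ← PowerSeries.smul_eq_C_mul,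
    ← qE_smul bddPer_discriminant]
  congr 1
  funext z
  simp [ModularForm.discriminant_eq_E₄_cube_sub_E₆_sq]
  ring

end Fermat.MF.Eisen
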