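import Fermat.Agent.MC.Expansions
import Fermat.Agent.MF.Eisen.Dyadic

/-!
# The prime `2` in an Eisenstein congruence

When `p ≡ 7 (mod 8)` a congruence modulo `16` would make `(h E₄ - c E₆) / 8` integral at all cusps
for every conjugate `h` of half the weight two form. On the family of `Dyadic` this makes a
polynomial in `π` integral whose coefficient of `π ^ (3 (p + 1))` is `(36 c / 8) ^ (p + 1)`.
-/

namespace Fermat.MF.Eisen

open UpperHalfPlane hiding I
open Fermat.MC
open ModularForm (E₄ E₆ heckeMatrix)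
open scoped MatrixGroups ModularForm Manifold

variable (p : ℕ) [hp : Fact p.Prime]

/-- Functions whose expansion in `q^(1/p)` has coefficients in `O`. -/
noncomputable def goodRing (O : Subring ℂ) : Subring (ℍ → ℂ) :=
  haveI : NeZero p := ⟨hp.out.ne_zero⟩
  { carrier := {f | BddPer (scaleF p f) ∧ qE (scaleF p f) ∈ serRing O}
    mul_mem' := fun {f g} hf hg => by
      have e : scaleF p (f * g) = scaleF p f * scaleF p g := rfl
      exact ⟨e ▸ hf.1.mul hg.1, by rw [e, qE_mul hf.1 hg.1]; exact mul_mem hf.2 hg.2⟩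
    one_mem' := by
      have e : scaleF p (1 : ℍ → ℂ) = 1 := rfl
      exact ⟨e ▸ BddPer.const 1, by rw [e, qE_one]; exact one_mem _⟩
    add_mem' := fun {f g} hf hg => by
      have e : scaleF p (f + g) = scaleF p f + scaleF p g := rfl
      exact ⟨e ▸ hf.1.add hg.1, by rw [e, qE_add hf.1 hg.1]; exact add_mem hf.2 hg.2⟩
    zero_mem' := by
      have e : scaleF p (0 : ℍ → ℂ) = 0 := rfl
      exact ⟨e ▸ bddPer_zero, by rw [e, qE_zero]; exact zero_mem _⟩
    neg_mem' := fun {f} hf => by
      have e : scaleF p (-f) = 0 - scaleF p f := by funext τ; simp [scaleF]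
      exact ⟨e ▸ bddPer_sub bddPer_zero hf.1,
        by rw [e, qE_sub bddPer_zero hf.1, qE_zero]; exact sub_mem (zero_mem _) hf.2⟩ }

/-- Membership in `goodRing`, unfolded. -/
theorem mem_goodRing [NeZero p] {O : Subring ℂ} {f : ℍ → ℂ} :
    f ∈ goodRing p O ↔ BddPer (scaleF p f) ∧ qE (scaleF p f) ∈ serRing O := Iff.rfl

omit hp in
/-- A function whose scaling is periodic and bounded at `∞` is holomorphic and bounded at `∞`. -/
theorem mdiff_of_scaleF [NeZero p] {f : ℍ → ℂ} (hf : BddPer (scaleF p f)) :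
    MDiff f ∧ IsBoundedAtImInfty f := by
  set g : {x : ℝ // 0 < x} := ⟨(p : ℝ)⁻¹, inv_pos.mpr (Nat.cast_pos.mpr (NeZero.pos p))⟩ with hg
  have e : f = scaleF p f ∘ affH g 0 := by
    funext τ
    simp only [scaleF, Function.comp_apply]
    congr 1
    ext
    simp only [coe_affH, posN, hg]
    have : (p : ℂ) ≠ 0 := Nat.cast_ne_zero.mpr (NeZero.ne p)
    push_cast
    field_simp
    simp
  rw [e]
  exact ⟨mdiff_comp_affH hf.1 _ _, hf.2.2.comp_tendsto (tendsto_affH _ _)⟩

/-- An invariant member of `goodRing` is a level one form with coefficients in `O`. -/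
theorem exists_form_of_good {O : Subring ℂ} {f : ℍ → ℂ} (hf : f ∈ goodRing p O) (k : ℕ)
    (hinv : ∀ (γ : SL(2, ℤ)) τ, f (γ • τ) = denom γ τ ^ (k : ℤ) * f τ) :
    ∃ F : ModularForm 𝒮ℒ (k : ℤ), ⇑F = f ∧ qE ⇑F ∈ serRing O := by
  have : NeZero p := ⟨hp.out.ne_zero⟩
  obtain ⟨hb, hser⟩ := (mem_goodRing p).mp hf
  obtain ⟨hm, hbd⟩ := mdiff_of_scaleF p hb
  refine ⟨levelOneForm k f hm hinv hbd, rfl, mem_serRing_iff.mpr fun n => ?_⟩
  have h := mem_serRing_iff.mp hser (p * n)
  rw [coe_levelOneForm]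
  have hF : BddPer f := bddPer_levelOne (levelOneForm k f hm hinv hbd)
  rw [coeff_qE_scaleF p hF, spread, if_pos (dvd_mul_right p n),
    Nat.mul_div_cancel_left _ hp.out.pos] at h
  exact h

/-- The translate `τ ↦ f (τ + b)`. -/
noncomputable def shiftF (b : ℝ) (f : ℍ → ℂ) : ℍ → ℂ := f ∘ affH ⟨1, one_pos⟩ b

/-- A translate of a periodic bounded function is one. -/
theorem bddPer_shiftF {f : ℍ → ℂ} (hf : BddPer f) (b : ℝ) : BddPer (shiftF b f) :=
  hf.trH b

/-- Translating by `b` multiplies the `n`-th coefficient by `e ^ (2 π i n b)`. -/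
theorem coeff_qE_shiftF {f : ℍ → ℂ} (hf : BddPer f) (b : ℝ) (n : ℕ) :
    (qE (shiftF b f)).coeff n = Function.Periodic.qParam 1 (b : ℂ) ^ n * (qE f).coeff n := by
  have h := qS_trH_coeff_eq hf b n
  simpa [qS, qE, shiftF, trH, mul_comm] using h

variable {p} {M : ℕ}

/-- Half the form of a congruent pair, translated by the coset representatives. -/
noncomputable def halfConj (P : CongPair p M) (x : Option (Fin p)) : ℍ → ℂ :=
  ((2 : ℂ)⁻¹ • P.H) ∣[(2 : ℤ)] (cosetRep x)⁻¹

/-- The half conjugates are permuted by level one with the factor of weight two. -/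
theorem exists_perm_halfConj (P : CongPair p M) (γ : SL(2, ℤ)) :
    ∃ σ : Equiv.Perm (Option (Fin p)), ∀ x τ,
      halfConj P x (γ • τ) = denom γ τ ^ (2 : ℤ) * halfConj P (σ x) τ := by
  classical
  have : NeZero p := ⟨hp.out.ne_zero⟩
  set e := Equiv.ofBijective _ (cosetRep_bijective (p := p)) with he
  refine ⟨(e.trans (MulAction.toPerm γ⁻¹)).trans e.symm, fun x τ => ?_⟩
  set y := ((e.trans (MulAction.toPerm γ⁻¹)).trans e.symm) x with hy
  have hq : (QuotientGroup.mk (γ⁻¹ * cosetRep x) : Fermat.MF.CosetX p)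
      = QuotientGroup.mk (cosetRep y) := by
    have h1 : e y = γ⁻¹ • e x := by simp [hy]
    exact h1.symm
  have h := slash_rep_congr (P.isInv.smul ((2 : ℂ)⁻¹)) hq
  rw [mul_inv_rev, inv_inv, SlashAction.slash_mul] at h
  have h' := congrFun h τ
  rw [ModularForm.SL_slash_apply] at h'
  have hd : (denom γ τ : ℂ) ≠ 0 := denom_ne_zero _ τ
  change halfConj P x (γ • τ) = _ * halfConj P y τ
  rw [show halfConj P y τ = halfConj P x (γ • τ) * denom γ τ ^ (-2 : ℤ) from h'.symm,
    mul_comm, mul_assoc, ← zpow_add₀ hd]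
  simp

omit hp in
/-- At the trivial representative `halfConj` is half the form. -/
theorem halfConj_none (P : CongPair p M) : halfConj P none = (2 : ℂ)⁻¹ • P.H := by
  simp [halfConj, cosetRep]

/-- The rescaled half conjugates are multiples of translates of one form. -/
theorem halfConj_some [NeZero p] (P : CongPair p M) (j : Fin p) :
    scaleF p (halfConj P (some j))
      = (-(p : ℂ)⁻¹ * (2 : ℂ)⁻¹) • shiftF ((j : ℝ) / p) P.H' := by
  have e : halfConj P (some j) = -((2 : ℂ)⁻¹ • (P.H' ∣[(2 : ℤ)] heckeMatrix p (j : ℕ))) := by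
    rw [halfConj, ModularForm.SL_smul_slash, cosetRep, inv_inv, SlashAction.slash_mul, P.slash_S,
      SlashAction.neg_slash, ModularForm.SL_slash (f := P.H' ∣[(2 : ℤ)] heckeMatrix p 0),
      ← SlashAction.slash_mul _ (heckeMatrix p 0), heckeMatrix_zero_mul_T_pow]
    exact smul_neg _ _
  funext τ
  rw [e]
  simp only [scaleF, shiftF, Function.comp_apply, Pi.neg_apply, Pi.smul_apply, smul_eq_mul,
    ModularForm.slash_heckeMatrix_apply _ hp.out.ne_zero]
  have : heckeMatrix p (j : ℕ) • affH (posN p) 0 τ = affH ⟨1, one_pos⟩ ((j : ℝ) / p) τ := by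
    ext
    rw [ModularForm.coe_heckeMatrix_smul hp.out.ne_zero, coe_scalePoint, coe_affH]
    have hp0 : (p : ℂ) ≠ 0 := Nat.cast_ne_zero.mpr hp.out.ne_zero
    push_cast
    field_simp
  rw [this]
  ring

/-- The combination that is integral at all cusps. -/
noncomputable def combConj (P : CongPair p M) (c : ℤ) (x : Option (Fin p)) : ℍ → ℂ :=
  (8 : ℂ)⁻¹ • (halfConj P x * ⇑E₄ - (c : ℂ) • ⇑E₆)

omit hp in
/-- The scaling of `combConj`, written out. -/
theorem scaleF_combConj (P : CongPair p M) (c : ℤ) (x : Option (Fin p)) [NeZero p] :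
    scaleF p (combConj P c x) = (8 : ℂ)⁻¹ • (scaleF p (halfConj P x) * scaleF p ⇑E₄
      - (c : ℂ) • scaleF p ⇑E₆) := rfl

omit hp in
/-- `q ↦ qᵖ` fixes constants and commutes with scalars. -/
private theorem spread_C_add {R : Type*} [CommRing R] (a c : R) (φ : PowerSeries R) :
    spreadSer p (PowerSeries.C a + PowerSeries.C c * φ)
      = PowerSeries.C a + PowerSeries.C c * spreadSer p φ := by
  ext n
  simp only [spreadSer, spread, map_add, PowerSeries.coeff_mk, PowerSeries.coeff_C_mul,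
    PowerSeries.coeff_C]
  by_cases h : p ∣ n
  · simp only [if_pos h]
    have : n / p = 0 ↔ n = 0 :=
      ⟨fun h0 => by rw [← Nat.div_mul_cancel h, h0, zero_mul], fun h0 => by simp [h0]⟩
    simp [this]
  · simp only [if_neg h, mul_zero, add_zero]
    rw [if_neg (fun h0 => h (by subst h0; exact dvd_zero p))]

omit hp in
/-- `q ↦ qᵖ` fixes `1` and commutes with scalars. -/
private theorem spread_one_add {R : Type*} [CommRing R] (c : R) (φ : PowerSeries R) :
    spreadSer p (1 + PowerSeries.C c * φ) = 1 + PowerSeries.C c * spreadSer p φ := by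
  simpa using spread_C_add (p := p) 1 c φ

omit hp in
/-- `q ↦ qᵖ` keeps the coefficients in `O`. -/
private theorem spreadSer_mem_serRing {O : Subring ℂ} {φ : PowerSeries ℂ} (hφ : φ ∈ serRing O) :
    spreadSer p φ ∈ serRing O :=
  mem_serRing_iff.mpr fun n => by
    simp only [spreadSer, spread, PowerSeries.coeff_mk]
    split_ifs
    · exact mem_serRing_iff.mp hφ _
    · exact zero_mem _

omit hp in
/-- The series of the scaled `E₄`. -/
private theorem qE_scaleF_E₄ [NeZero p] : qE (scaleF p ⇑E₄)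
    = 1 + PowerSeries.C 240 * spreadSer p (PowerSeries.map (Int.castRingHom ℂ) (sigSer 3)) := by
  rw [qE_scaleF p bddPer_E₄, qE_E4, e4Ser_eq, ← map_ofNat (PowerSeries.C (R := ℤ)) 240, map_add,
    map_one, map_mul, PowerSeries.map_C, spread_one_add]
  norm_num

omit hp in
/-- The series of the scaled `E₆`. -/
private theorem qE_scaleF_E₆ [NeZero p] : qE (scaleF p ⇑E₆)
    = 1 + PowerSeries.C (-504) * spreadSer p (PowerSeries.map (Int.castRingHom ℂ) (sigSer 5)) := by
  rw [qE_scaleF p bddPer_E₆, qE_E6, eisenstein6_eq, sub_eq_add_neg, ← neg_mul,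
    ← map_ofNat (PowerSeries.C (R := ℤ)) 504, ← map_neg PowerSeries.C, map_add, map_one, map_mul,
    PowerSeries.map_C, spread_one_add]
  norm_num

omit hp in
/-- Half of a series congruent to `2 c` modulo `16` is congruent to `c` modulo `8`. -/
private theorem qE_half_eq {f : ℍ → ℂ} (hf : BddPer f) {φ X : PowerSeries ℤ} {c : ℤ}
    (hser : qE f = PowerSeries.map (Int.castRingHom ℂ) φ)
    (hX : φ - PowerSeries.C (2 * c) = PowerSeries.C 16 * X) :
    qE ((2 : ℂ)⁻¹ • f)
      = PowerSeries.C (c : ℂ) + PowerSeries.C 8 * PowerSeries.map (Int.castRingHom ℂ) X := by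
  rw [qE_smul hf, hser, eq_add_of_sub_eq hX]
  ext n
  simp only [PowerSeries.coeff_smul, map_add, PowerSeries.coeff_map, PowerSeries.coeff_C_mul,
    PowerSeries.coeff_C, Int.coe_castRingHom, smul_eq_mul]
  split_ifs <;> push_cast <;> ring

/-- A conjugate with series `u c + 8 u X` and `(u - 1) c / 8` integral gives members of
`goodRing`. -/
private theorem conj_mem_goodRing_of_qE [NeZero p] {O : Subring ℂ} (P : CongPair p M)
    (x : Option (Fin p)) {c : ℤ} {u : ℂ} {X : PowerSeries ℂ}
    (hg : BddPer (scaleF p (halfConj P x))) (hu : u ∈ O) (hX : X ∈ serRing O)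
    (hu8 : (u - 1) * (c : ℂ) * (8 : ℂ)⁻¹ ∈ O)
    (hser : qE (scaleF p (halfConj P x)) = PowerSeries.C (u * c) + PowerSeries.C (8 * u) * X) :
    halfConj P x ∈ goodRing p O ∧ combConj P c x ∈ goodRing p O := by
  have hU4 := spreadSer_mem_serRing (p := p) (map_int_mem_serRing O (sigSer 3))
  have hU6 := spreadSer_mem_serRing (p := p) (map_int_mem_serRing O (sigSer 5))
  set U4 := spreadSer p (PowerSeries.map (Int.castRingHom ℂ) (sigSer 3))
  set U6 := spreadSer p (PowerSeries.map (Int.castRingHom ℂ) (sigSer 5))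
  have hb4 := bddPer_scaleF p bddPer_E₄
  have hb6 := bddPer_scaleF p bddPer_E₆
  have hC : ∀ a : ℤ, ((a : ℤ) : ℂ) ∈ O := intCast_mem O
  refine ⟨(mem_goodRing p).mpr ⟨hg, ?_⟩, (mem_goodRing p).mpr ?_⟩
  · rw [hser]
    exact add_mem (C_mem_serRing (mul_mem hu (hC c)))
      (mul_mem (C_mem_serRing (mul_mem (by exact_mod_cast hC 8) hu)) hX)
  · rw [scaleF_combConj]
    have h1 := bddPer_sub (hg.mul hb4) (bddPer_smul hb6 (c : ℂ))
    refine ⟨bddPer_smul h1 _, ?_⟩
    rw [qE_smul h1, qE_sub (hg.mul hb4) (bddPer_smul hb6 _), qE_mul hg hb4, qE_smul hb6, hser,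
      qE_scaleF_E₄, qE_scaleF_E₆]
    have e : (8 : ℂ)⁻¹ • ((PowerSeries.C (u * c) + PowerSeries.C (8 * u) * X)
          * (1 + PowerSeries.C 240 * U4) - (c : ℂ) • (1 + PowerSeries.C (-504) * U6))
        = PowerSeries.C ((u - 1) * c * (8 : ℂ)⁻¹) + PowerSeries.C u * X *
          (1 + PowerSeries.C 240 * U4)
          + PowerSeries.C (30 * u * (c : ℂ)) * U4 + PowerSeries.C (63 * (c : ℂ)) * U6 := by
      simp only [PowerSeries.smul_eq_C_mul, map_mul, map_sub, map_one, map_neg, map_ofNat]
      have h8 : PowerSeries.C (8 : ℂ)⁻¹ * 8 = 1 := by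
        rw [← map_ofNat (PowerSeries.C (R := ℂ)) 8, ← map_mul]; norm_num
      linear_combination (PowerSeries.C u * X * (1 + 240 * U4) + 30 * PowerSeries.C u *
        PowerSeries.C (c : ℂ) * U4 + 63 * PowerSeries.C (c : ℂ) * U6) * h8
    rw [e]
    refine add_mem (add_mem (add_mem (C_mem_serRing hu8) (mul_mem (mul_mem (C_mem_serRing hu) hX)
      (add_mem (one_mem _) (mul_mem (C_mem_serRing (by exact_mod_cast hC 240)) hU4))))
      (mul_mem (C_mem_serRing (mul_mem (mul_mem (by exact_mod_cast hC 30) hu) (hC c))) hU4))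
      (mul_mem (C_mem_serRing (mul_mem (by exact_mod_cast hC 63) (hC c))) hU6)

/-- Both families lie in `goodRing`. -/
theorem conj_mem_goodRing {O : Subring ℂ} (hroot : ∀ z : ℂ, ∀ n, 0 < n → z ^ n = 1 → z ∈ O)
    (hodd : ∀ a : ℤ, Odd a → (a : ℂ)⁻¹ ∈ O) {t : ℕ} (ht : p + 1 = 8 * t) (hM : 16 ∣ M)
    (P : CongPair p M) (x : Option (Fin p)) :
    halfConj P x ∈ goodRing p O ∧ combConj P (4 * t - 1) x ∈ goodRing p O := by
  have : NeZero p := ⟨hp.out.ne_zero⟩
  set c : ℤ := 4 * t - 1 with hc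
  have hpc : (p : ℤ) - 1 = 2 * c := by
    have : ((p : ℤ) + 1) = 8 * t := by exact_mod_cast ht
    rw [hc]; linarith
  -- `H` and `H'` modulo sixteen
  have h16 : PowerSeries.C (16 : ℤ) ∣ PowerSeries.C (M : ℤ) :=
    map_dvd _ (by exact_mod_cast hM)
  obtain ⟨X0, hX0⟩ := h16.trans (C_dvd_iff_coeff.mpr P.congr)
  obtain ⟨X1, hX1⟩ := h16.trans (C_dvd_iff_coeff.mpr P.congr')
  rw [hpc] at hX0 hX1
  cases x with
  -- the diagonal representative
  | none =>
    have hb : BddPer ((2 : ℂ)⁻¹ • P.H) := bddPer_smul P.bdd _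
    refine conj_mem_goodRing_of_qE P none (by rw [halfConj_none]; exact bddPer_scaleF p hb)
      (one_mem _) (spreadSer_mem_serRing (p := p) (map_int_mem_serRing O X0)) (by simp) ?_
    rw [halfConj_none, qE_scaleF p hb, qE_half_eq P.bdd P.qE_H hX0, spread_C_add, one_mul,
      mul_one]
  -- the others: a root of unity and the inverse of `p`
  | some j =>
    have hp0 : (p : ℂ) ≠ 0 := Nat.cast_ne_zero.mpr hp.out.ne_zero
    set b : ℝ := (j : ℝ) / p with hb
    set z := Function.Periodic.qParam 1 (b : ℂ) with hz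
    have hzO : z ∈ O := by
      refine hroot z p hp.out.pos ?_
      rw [hz, Function.Periodic.qParam, ← Complex.exp_nat_mul]
      have : (p : ℂ) * (2 * Real.pi * Complex.I * (b : ℂ) / ((1 : ℝ) : ℂ))
          = ((j : ℕ) : ℤ) * (2 * Real.pi * Complex.I) := by
        rw [hb]; push_cast; field_simp
      rw [this, Complex.exp_int_mul_two_pi_mul_I]
    have hpinv : (p : ℂ)⁻¹ ∈ O := by
      have := hodd (p : ℤ) (by rw [Int.odd_iff]; omega)
      simpa using this
    have hb' : BddPer ((2 : ℂ)⁻¹ • P.H') := bddPer_smul P.bdd' _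
    refine conj_mem_goodRing_of_qE P (some j)
      (X := PowerSeries.mk fun n => z ^ n * (PowerSeries.map (Int.castRingHom ℂ) X1).coeff n)
      (by rw [halfConj_some]; exact bddPer_smul (bddPer_shiftF P.bdd' b) _)
      (neg_mem hpinv) (mem_serRing_iff.mpr fun n => ?_) ?_ ?_
    · rw [PowerSeries.coeff_mk]
      exact mul_mem (pow_mem hzO n) (mem_serRing_iff.mp (map_int_mem_serRing O _) n)
    · have : (-(p : ℂ)⁻¹ - 1) * (c : ℂ) * (8 : ℂ)⁻¹ = -((p : ℂ)⁻¹ * ((t * c : ℤ) : ℂ)) := by
        have h8 : (p : ℂ) + 1 = 8 * t := by exact_mod_cast ht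
        push_cast
        field_simp
        linear_combination -(c : ℂ) * h8
      rw [this]
      exact neg_mem (mul_mem hpinv (intCast_mem _ _))
    · have e : (-(p : ℂ)⁻¹ * (2 : ℂ)⁻¹) • shiftF b P.H'
          = (-(p : ℂ)⁻¹) • shiftF b ((2 : ℂ)⁻¹ • P.H') := by
        funext τ; simp [shiftF]; ring
      rw [halfConj_some, e, qE_smul (bddPer_shiftF hb' b)]
      ext n
      rw [PowerSeries.coeff_smul, coeff_qE_shiftF hb', qE_half_eq P.bdd' P.qE_H' hX1, map_add,
        map_add, PowerSeries.coeff_C_mul, PowerSeries.coeff_C_mul, PowerSeries.coeff_mk,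
        PowerSeries.coeff_C, PowerSeries.coeff_C, smul_eq_mul, ← hz]
      rcases eq_or_ne n 0 with rfl | hn
      · simp [mul_add]; ring
      · simp [hn]; ring

/-- The number of times each value is taken. -/
def tally (s : Option (Fin p) → Fin 3) (i : Fin 3) : ℕ :=
  (Finset.univ.filter fun x => s x = i).card

omit hp in
/-- A product over a colouring, by the tally of the colours. -/
theorem prod_eq_prod_pow_tally (u : Fin 3 → ℂ) (s : Option (Fin p) → Fin 3) :
    ∏ x, u (s x) = ∏ i, u i ^ tally s i := by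
  rw [← Finset.prod_fiberwise_of_maps_to (g := s) (t := Finset.univ) (fun _ _ => Finset.mem_univ _)]
  refine Finset.prod_congr rfl fun i _ => ?_
  rw [Finset.prod_congr rfl (g := fun _ => u i) (fun x hx => by rw [(Finset.mem_filter.mp hx).2]),
    Finset.prod_const, tally]

/-- The three families multiplied out in the argument at `2`. -/
noncomputable def twoFam (P : CongPair p M) (c : ℤ) : Fin 3 → Option (Fin p) → ℍ → ℂ :=
  ![combConj P c, halfConj P, fun _ => 1]

/-- The weights `6`, `2`, `0` of the three families. -/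
def twoWt : Fin 3 → ℕ := ![6, 2, 0]

/-- The symmetrised product with given tally. -/
noncomputable def tallySum (P : CongPair p M) (c : ℤ) (n : Fin 3 → ℕ) : ℍ → ℂ :=
  ∑ s ∈ Finset.univ.filter (fun s : Option (Fin p) → Fin 3 => tally s = n), ∏ x, twoFam P c (s x) x

/-- The families are permuted, up to their weights, by `SL(2, ℤ)`. -/
theorem exists_perm_twoFam (P : CongPair p M) (c : ℤ) (γ : SL(2, ℤ)) :
    ∃ σ : Equiv.Perm (Option (Fin p)), ∀ i x τ,
      twoFam P c i x (γ • τ) = denom γ τ ^ twoWt i * twoFam P c i (σ x) τ := by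
  obtain ⟨σ, hσ⟩ := exists_perm_halfConj P γ
  refine ⟨σ, fun i x τ => ?_⟩
  have h4 := smul_eq_denom_zpow E₄ γ τ
  have h6 := smul_eq_denom_zpow E₆ γ τ
  fin_cases i
  · change combConj P c x (γ • τ) = denom γ τ ^ (6 : ℕ) * combConj P c (σ x) τ
    rw [← zpow_natCast]
    change combConj P c x (γ • τ) = denom γ τ ^ (6 : ℤ) * combConj P c (σ x) τ
    simp only [combConj, Pi.smul_apply, Pi.sub_apply, Pi.mul_apply, smul_eq_mul, hσ, h4, h6]
    have e : denom γ τ ^ (6 : ℤ) = denom γ τ ^ (2 : ℤ) * denom γ τ ^ (4 : ℤ) := by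
      rw [← zpow_add₀ (denom_ne_zero _ τ)]; norm_num
    linear_combination (-((8 : ℂ)⁻¹ * halfConj P (σ x) τ * E₄ τ)) * e
  · change halfConj P x (γ • τ) = denom γ τ ^ (2 : ℕ) * halfConj P (σ x) τ
    rw [← zpow_natCast]; exact hσ x τ
  · simp [twoFam, twoWt]

/-- The symmetrised products are invariant. -/
theorem tallySum_smul (P : CongPair p M) (c : ℤ) (n : Fin 3 → ℕ) (γ : SL(2, ℤ)) (τ : ℍ) :
    tallySum P c n (γ • τ) =
      denom γ τ ^ (((∑ i, twoWt i * n i : ℕ)) : ℤ) * tallySum P c n τ := by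
  classical
  obtain ⟨σ, hσ⟩ := exists_perm_twoFam P c γ
  rw [zpow_natCast, tallySum]
  simp only [Finset.sum_apply, Finset.prod_apply, Finset.mul_sum]
  refine Finset.sum_equiv (Equiv.arrowCongr σ (Equiv.refl _)) (fun s => ?_) (fun s hs => ?_)
  · simp only [Finset.mem_filter, Finset.mem_univ, true_and]
    have : tally (Equiv.arrowCongr σ (Equiv.refl (Fin 3)) s) = tally s := by
      funext i
      refine (Finset.card_equiv σ fun x => ?_).symm
      simp
    rw [this]
  · rw [Finset.mem_filter] at hs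
    simp only [hσ, Finset.prod_mul_distrib]
    congr 1
    · rw [prod_eq_prod_pow_tally (fun i => denom γ τ ^ twoWt i) s, hs.2,
        ← Finset.prod_pow_eq_pow_sum]
      exact Finset.prod_congr rfl fun i _ => by rw [← pow_mul]
    · refine Fintype.prod_equiv σ _ _ fun x => ?_
      simp

/-- The symmetrised products are polynomials with coefficients in `O` on the family of
`Realises`. -/
theorem exists_tallyPoly {O : Subring ℂ} (hroot : ∀ z : ℂ, ∀ n, 0 < n → z ^ n = 1 → z ∈ O)
    (hodd : ∀ a : ℤ, Odd a → (a : ℂ)⁻¹ ∈ O) {t : ℕ} (ht : p + 1 = 8 * t) (hM : 16 ∣ M)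
    (P : CongPair p M) (n : Fin 3 → ℕ) :
    ∃ R ∈ polyRing O, ∀ x lam τ, Realises x lam τ →
      R.eval x = lam ^ (∑ i, twoWt i * n i) * tallySum P (4 * t - 1) n τ := by
  have hgood : ∀ i x, twoFam P (4 * t - 1) i x ∈ goodRing p O := by
    intro i x
    fin_cases i
    · exact (conj_mem_goodRing hroot hodd ht hM P x).2
    · exact (conj_mem_goodRing hroot hodd ht hM P x).1
    · exact one_mem _
  obtain ⟨F, hF, hFser⟩ := exists_form_of_good p
    (show tallySum P (4 * t - 1) n ∈ goodRing p O from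
      sum_mem fun s _ => prod_mem fun x _ => hgood _ x) _ (tallySum_smul P _ n)
  obtain ⟨R, hR, h⟩ := exists_famValue O F hFser
  exact ⟨R, hR, fun x lam τ hr => by rw [h x lam τ hr, hF]⟩

omit hp in
/-- The product over the cosets, expanded by tallies. -/
theorem sum_tally_eval_eq_prod (P : CongPair p M) (c : ℤ) {R : (Fin 3 → ℕ) → Polynomial ℂ}
    (hR : ∀ n x lam τ, Realises x lam τ →
      (R n).eval x = lam ^ (∑ i, twoWt i * n i) * tallySum P c n τ)
    (u : Fin 3 → ℂ) {x lam : ℂ} {τ : ℍ} (hr : Realises x lam τ) :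
    ∑ n ∈ Finset.univ.image (tally (p := p)), (∏ i, u i ^ n i) * (R n).eval x
      = ∏ y, ∑ i, u i * lam ^ twoWt i * twoFam P c i y τ := by
  classical
  rw [Fintype.prod_sum, ← Finset.sum_fiberwise_of_maps_to (g := tally (p := p))
    (t := Finset.univ.image (tally (p := p)))
    (fun s _ => Finset.mem_image_of_mem _ (Finset.mem_univ _))]
  refine Finset.sum_congr rfl fun n _ => ?_
  rw [hR n x lam τ hr, tallySum]
  simp only [Finset.sum_apply, Finset.prod_apply, Finset.mul_sum]
  refine Finset.sum_congr rfl fun s hs => ?_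
  rw [Finset.prod_mul_distrib, Finset.prod_mul_distrib, prod_eq_prod_pow_tally u s,
    prod_eq_prod_pow_tally (fun i => lam ^ twoWt i) s, (Finset.mem_filter.mp hs).2,
    ← Finset.prod_pow_eq_pow_sum,
    Finset.prod_congr rfl (fun i _ => (pow_mul lam (twoWt i) (n i)))]
  ring

omit hp in
/-- The polynomial of the tally concentrated on the constant family is `1`. -/
theorem tallyPoly_top (P : CongPair p M) (c : ℤ) {R : Polynomial ℂ}
    (hR : ∀ x lam τ, Realises x lam τ → R.eval x =
      lam ^ (∑ i, twoWt i * ![0, 0, Fintype.card (Option (Fin p))] i) *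
        tallySum P c ![0, 0, Fintype.card (Option (Fin p))] τ) : R = 1 := by
  classical
  rw [← sub_eq_zero]
  refine eq_zero_of_realises fun x lam τ hr => ?_
  have hfil : (Finset.univ.filter fun s : Option (Fin p) → Fin 3 =>
      tally s = ![0, 0, Fintype.card (Option (Fin p))]) = {fun _ => 2} := by
    ext s
    simp only [Finset.mem_filter, Finset.mem_univ, true_and, Finset.mem_singleton]
    constructor
    · intro h
      funext y
      have h0 := congrFun h 0
      have h1 := congrFun h 1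
      simp [tally, Finset.card_eq_zero, Finset.filter_eq_empty_iff] at h0 h1
      have := @h0 y; have := @h1 y
      omega
    · rintro rfl
      funext i
      fin_cases i <;> simp [tally]
  rw [Polynomial.eval_sub, hR x lam τ hr, tallySum]
  simp only [hfil, Finset.sum_singleton, twoFam, twoWt, Fin.sum_univ_three]
  simp

omit hp in
/-- At `0` only the tally concentrated on the constant family survives. -/
theorem coeff_zero_sum_tally {R : (Fin 3 → ℕ) → Polynomial ℂ}
    (hR : R ![0, 0, Fintype.card (Option (Fin p))] = 1) {w : Polynomial ℂ} :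
    (∑ n ∈ Finset.univ.image (tally (p := p)),
      (∏ i, (![0, Polynomial.X, w] : Fin 3 → Polynomial ℂ) i ^ n i) * R n).coeff 0 =
      w.eval 0 ^ Fintype.card (Option (Fin p)) := by
  classical
  rw [Polynomial.coeff_zero_eq_eval_zero, Polynomial.eval_finsetSum,
    Finset.sum_eq_single (![0, 0, Fintype.card (Option (Fin p))] : Fin 3 → ℕ)]
  · rw [Polynomial.eval_mul, hR]
    simp [Fin.prod_univ_three]
  · intro n hn hne
    obtain ⟨s, -, rfl⟩ := Finset.mem_image.mp hn
    have hsum : tally s 0 + tally s 1 + tally s 2 = Fintype.card (Option (Fin p)) := by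
      have := Finset.card_eq_sum_card_fiberwise (f := s) (s := Finset.univ) (t := Finset.univ)
        (fun _ _ => Finset.mem_univ _)
      rw [Fin.sum_univ_three, Finset.card_univ] at this
      exact this.symm
    by_cases h0 : tally s 0 = 0
    · have h1 : tally s 1 ≠ 0 := by
        intro h1
        apply hne
        funext i
        simp only [h0, h1, Fintype.card_option, Fintype.card_fin, zero_add, add_zero] at hsum
        fin_cases i <;> simp [h0, h1, hsum]
      simp [Fin.prod_univ_three, zero_pow h1, h0]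
    · simp [Fin.prod_univ_three, zero_pow h0]
  · intro h
    exact absurd (Finset.mem_image.mpr ⟨fun _ => 2, Finset.mem_univ _, by
      funext i; fin_cases i <;> simp [tally]⟩) h

/-- A dyadic ring cannot contain `a` with `2 ^ (m + 1) * a` a power of an odd integer. -/
theorem inv_two_mem_of_pow {O : Subring ℂ} (hodd : ∀ a : ℤ, Odd a → (a : ℂ)⁻¹ ∈ O) {b : ℤ}
    (hb : Odd b) {a : ℂ} (ha : a ∈ O) {m : ℕ} (h : (2 : ℂ) ^ (m + 1) * a = (b : ℂ) ^ (m + 1)) :
    (2 : ℂ)⁻¹ ∈ O := by
  have hne : (b : ℂ) ≠ 0 := by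
    refine Int.cast_ne_zero.mpr ?_
    intro h0; rw [h0] at hb; simp at hb
  have : (2 : ℂ)⁻¹ = (2 : ℂ) ^ m * a * ((b : ℂ)⁻¹) ^ (m + 1) := by
    rw [inv_pow, eq_mul_inv_iff_mul_eq₀ (pow_ne_zero _ hne), ← h, pow_succ]
    field_simp
  rw [this]
  exact mul_mem (mul_mem (pow_mem (natCast_mem O 2) m) ha) (pow_mem (hodd b hb) _)

/-- No Eisenstein congruence modulo `16` when `8 ∣ p + 1`. -/
theorem false_of_congPair_two (P : CongPair p M) (hM : 16 ∣ M) (h8 : 8 ∣ p + 1) : False := by
  classical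
  obtain ⟨t, ht⟩ := h8
  obtain ⟨O, hroot, hodd, h2⟩ := exists_dyadic
  set c : ℤ := 4 * t - 1 with hc
  choose R hRmem hReval using exists_tallyPoly hroot hodd ht hM P
  set idx : Finset (Fin 3 → ℕ) := Finset.univ.image (tally (p := p))
  set N := Fintype.card (Option (Fin p)) with hN
  set w : Polynomial ℂ := Polynomial.C (36 * (c : ℂ)) - Polynomial.C (c : ℂ) *
    Polynomial.X ^ 3 with hw
  set u1 : Fin 3 → Polynomial ℂ :=
    ![1, Polynomial.C 3 * Polynomial.X, Polynomial.C (27 * (c : ℂ))] with hu1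
  set u2 : Fin 3 → Polynomial ℂ := ![0, Polynomial.X, w] with hu2
  set L : Polynomial ℂ := ∑ n ∈ idx, (∏ i, u1 i ^ n i) * R n with hL
  set E : Polynomial ℂ := ∑ n ∈ idx, (∏ i, u2 i ^ n i) * R n with hE
  have hLmem : L ∈ polyRing O := by
    refine sum_mem fun n _ => mul_mem (prod_mem fun i _ => pow_mem ?_ _) (hRmem n)
    fin_cases i
    · exact one_mem _
    · exact mul_mem (C_mem_polyRing (natCast_mem O 3)) (X_mem_polyRing O)
    · exact C_mem_polyRing (mul_mem (natCast_mem O 27) (intCast_mem O c))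
  have hkey : Polynomial.C (8 : ℂ) ^ N * L = Polynomial.X ^ (3 * N) * E := by
    rw [← sub_eq_zero]
    refine eq_zero_of_realises fun x lam τ hr => ?_
    rw [hL, hE, Polynomial.eval_sub, Polynomial.eval_mul, Polynomial.eval_mul,
      Polynomial.eval_finsetSum, Polynomial.eval_finsetSum]
    simp only [Polynomial.eval_mul, Polynomial.eval_prod, Polynomial.eval_pow, Polynomial.eval_C,
      Polynomial.eval_X]
    rw [sum_tally_eval_eq_prod P c hReval (fun i => (u1 i).eval x) hr,
      sum_tally_eval_eq_prod P c hReval (fun i => (u2 i).eval x) hr,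
      sub_eq_zero, hN, ← Finset.card_univ, pow_mul, ← Finset.prod_const, ← Finset.prod_const,
      ← Finset.prod_mul_distrib, ← Finset.prod_mul_distrib]
    refine Finset.prod_congr rfl fun y _ => ?_
    obtain ⟨h4, h6, -⟩ := hr
    simp only [famA, famB, Polynomial.eval_sub, Polynomial.eval_add, Polynomial.eval_mul,
      Polynomial.eval_pow, Polynomial.eval_X, Polynomial.eval_ofNat] at h4 h6
    simp only [Fin.sum_univ_three, hu1, hu2, twoFam, twoWt, hw, Matrix.cons_val_zero,
      Matrix.cons_val_one, Matrix.cons_val_two, Matrix.head_cons, Matrix.tail_cons,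
      Polynomial.eval_one, Polynomial.eval_zero, Polynomial.eval_mul, Polynomial.eval_C,
      Polynomial.eval_X, Polynomial.eval_sub, Polynomial.eval_pow, combConj, Pi.smul_apply,
      Pi.sub_apply, Pi.mul_apply, Pi.one_apply, smul_eq_mul]
    linear_combination (lam ^ 2 * halfConj P y τ) * h4 - (c : ℂ) * h6
  have hE0 : E.coeff 0 = (36 * (c : ℂ)) ^ N := by
    rw [hE, hu2, coeff_zero_sum_tally (tallyPoly_top P c (hReval _)), hw]
    simp [hN]
  have hcoef : (8 : ℂ) ^ N * L.coeff (3 * N) = (36 * (c : ℂ)) ^ N := by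
    have h := congrArg (fun q => q.coeff (3 * N)) hkey
    simp only [← map_pow, Polynomial.coeff_C_mul] at h
    have h' := Polynomial.coeff_X_pow_mul E (3 * N) 0
    rw [zero_add] at h'
    rw [h, h', hE0]
  have hpow : (2 : ℂ) ^ N * L.coeff (3 * N) = ((9 * c : ℤ) : ℂ) ^ N := by
    refine mul_left_cancel₀ (pow_ne_zero N (show (4 : ℂ) ≠ 0 by norm_num)) ?_
    rw [← mul_assoc, ← mul_pow, ← mul_pow]
    norm_num
    rw [hcoef]
    ring
  -- the odd integer `9 c` would be divisible by `2`
  have hN1 : N = p + 1 := by simp [hN]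
  rw [hN1] at hpow
  exact h2 (inv_two_mem_of_pow hodd ⟨18 * t - 5, by rw [hc]; ring⟩
    (coeff_mem_of_mem_polyRing hLmem _) hpow)

end Fermat.MF.Eisen
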