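import Mathlib.Algebra.MvPolynomial.PDeriv
import Mathlib.Algebra.Polynomial.Derivative
import Mathlib.Algebra.Polynomial.Degree.TrailingDegree
import Mathlib.RingTheory.Polynomial.UniqueFactorization

/-!
# The weighted grading of `F[X, Y]` with weights `4, 6`

The grading is seen through `P ↦ P(X T⁴, Y T⁶)`.
-/

namespace Fermat.MF.Eisen

open MvPolynomial

variable {F : Type*} [Field F]

/-- Polynomials in the two Eisenstein variables. -/
abbrev EPoly (F : Type*) [Field F] : Type _ := MvPolynomial (Fin 2) F

/-- `P ↦ P(X T⁴, Y T⁶)`. -/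
noncomputable def tau : EPoly F →ₐ[F] Polynomial (EPoly F) :=
  aeval ![Polynomial.monomial 4 (X 0), Polynomial.monomial 6 (X 1)]

/-- `tau` of a constant. -/
theorem tau_C (c : F) : tau (C c : EPoly F) = Polynomial.C (C c) := by
  rw [tau, aeval_C]; rfl

/-- `tau` of `X`. -/
theorem tau_X_zero : tau (X 0 : EPoly F) = Polynomial.monomial 4 (X 0) := by simp [tau]

/-- `tau` of `Y`. -/
theorem tau_X_one : tau (X 1 : EPoly F) = Polynomial.monomial 6 (X 1) := by simp [tau]

/-- Isobaric polynomials of weight `k`. -/
def IsW (k : ℕ) (P : EPoly F) : Prop := tau P = Polynomial.monomial k P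

/-- The weights of the variables. -/
def wtVar : Fin 2 → ℕ := ![4, 6]

/-- The variables are isobaric. -/
theorem isW_X (i : Fin 2) : IsW (wtVar i) (X i : EPoly F) := by
  fin_cases i
  · exact tau_X_zero
  · exact tau_X_one

/-- `X` has weight four. -/
theorem isW_X_zero : IsW 4 (X 0 : EPoly F) := tau_X_zero

/-- `Y` has weight six. -/
theorem isW_X_one : IsW 6 (X 1 : EPoly F) := tau_X_one

/-- Constants have weight zero. -/
theorem isW_C (c : F) : IsW 0 (C c : EPoly F) := tau_C c

/-- Zero has every weight. -/
theorem isW_zero (k : ℕ) : IsW k (0 : EPoly F) := by simp [IsW]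

/-- One has weight zero. -/
theorem isW_one : IsW 0 (1 : EPoly F) := by simpa using isW_C (F := F) 1

/-- A sum of isobaric polynomials of weight `k` has weight `k`. -/
theorem IsW.add {k : ℕ} {P Q : EPoly F} (hP : IsW k P) (hQ : IsW k Q) : IsW k (P + Q) := by
  rw [IsW, map_add, hP, hQ, map_add]

/-- The negative of an isobaric polynomial has the same weight. -/
theorem IsW.neg {k : ℕ} {P : EPoly F} (hP : IsW k P) : IsW k (-P) := by
  rw [IsW, map_neg, hP, map_neg]

/-- A difference of isobaric polynomials of weight `k` has weight `k`. -/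
theorem IsW.sub {k : ℕ} {P Q : EPoly F} (hP : IsW k P) (hQ : IsW k Q) : IsW k (P - Q) := by
  rw [sub_eq_add_neg]; exact hP.add hQ.neg

/-- Weights add under products. -/
theorem IsW.mul {k l : ℕ} {P Q : EPoly F} (hP : IsW k P) (hQ : IsW l Q) : IsW (k + l) (P * Q) := by
  rw [IsW, map_mul, hP, hQ, Polynomial.monomial_mul_monomial]

/-- Weights multiply under powers. -/
theorem IsW.pow {k : ℕ} {P : EPoly F} (hP : IsW k P) : ∀ n : ℕ, IsW (k * n) (P ^ n)
  | 0 => by simpa using isW_one
  | n + 1 => by rw [pow_succ, Nat.mul_succ]; exact (hP.pow n).mul hP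

/-- A scalar multiple has the same weight. -/
theorem IsW.C_mul {k : ℕ} {P : EPoly F} (hP : IsW k P) (c : F) : IsW k (C c * P) := by
  simpa using (isW_C c).mul hP

/-- A nonzero polynomial has at most one weight. -/
theorem IsW.unique {k l : ℕ} {P : EPoly F} (hk : IsW k P) (hl : IsW l P) (h0 : P ≠ 0) : k = l := by
  by_contra hne
  have := congrArg (Polynomial.coeff · k) (hk.symm.trans hl)
  simp [Polynomial.coeff_monomial, Ne.symm hne, h0] at this

/-- Setting `T = 1` in `tau P` gives back `P`. -/
theorem eval_one_tau (P : EPoly F) : (tau P).eval 1 = P := by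
  induction P using MvPolynomial.induction_on with
  | C a => simp
  | add p q hp hq => simp [hp, hq]
  | mul_X p i hp => rw [map_mul, Polynomial.eval_mul, hp, isW_X i]; simp

/-- If `tau P` is a monomial of degree `k` then `P` has weight `k`. -/
theorem isW_of_tau_eq {P Q : EPoly F} {k : ℕ} (h : tau P = Polynomial.monomial k Q) :
    IsW k P := by
  have := eval_one_tau P
  rw [h] at this
  simp at this
  rw [IsW, h, this]

/-- The monomial `Xᵃ Yᵇ` has weight `4 a + 6 b`. -/
theorem tau_monomial (d : Fin 2 →₀ ℕ) (c : F) :
    IsW (4 * d 0 + 6 * d 1) (monomial d c : EPoly F) := by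
  have e : (monomial d c : EPoly F) = C c * (X 0 ^ d 0 * X 1 ^ d 1) := by
    rw [monomial_eq, Finsupp.prod_fintype _ _ (fun i => pow_zero _), Fin.prod_univ_two]
  rw [e]
  exact ((isW_X_zero.pow _).mul (isW_X_one.pow _)).C_mul c

/-- `tau` sorts the coefficients by weight. -/
theorem coeff_coeff_tau (P : EPoly F) (k : ℕ) (d : Fin 2 →₀ ℕ) :
    ((tau P).coeff k).coeff d = if 4 * d 0 + 6 * d 1 = k then P.coeff d else 0 := by
  classical
  induction P using MvPolynomial.induction_on' with
  | monomial e c =>
    rw [tau_monomial e c, Polynomial.coeff_monomial]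
    by_cases hed : e = d
    · subst hed
      split_ifs <;> simp
    · split_ifs <;> simp [hed]
  | add p q hp hq =>
    rw [map_add, Polynomial.coeff_add, MvPolynomial.coeff_add, hp, hq, MvPolynomial.coeff_add]
    split_ifs <;> simp

/-- The coefficient of `Tⁱ` in `tau P` has weight `i`. -/
theorem isW_coeff (P : EPoly F) (i : ℕ) : IsW i ((tau P).coeff i) := by
  refine Polynomial.ext fun j => MvPolynomial.ext _ _ fun d => ?_
  rw [coeff_coeff_tau, coeff_coeff_tau, Polynomial.coeff_monomial]
  by_cases hij : i = j
  · subst hij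
    rw [if_pos rfl, coeff_coeff_tau]
    split_ifs <;> rfl
  · rw [if_neg hij, MvPolynomial.coeff_zero]
    split_ifs with h1 h2 <;> first | rfl | exact absurd (h2.symm.trans h1) hij

/-- The monomials of an isobaric polynomial have its weight. -/
theorem IsW.weight_eq {k : ℕ} {P : EPoly F} (hP : IsW k P) {d : Fin 2 →₀ ℕ}
    (hd : P.coeff d ≠ 0) : 4 * d 0 + 6 * d 1 = k := by
  by_contra hne
  have := coeff_coeff_tau P k d
  rw [hP, if_neg hne] at this
  simp at this
  exact hd this

/-- A nonzero isobaric polynomial of weight less than `12` does not vanish at `(1, 1)`. -/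
theorem IsW.eval_ne_zero {k : ℕ} {P : EPoly F} (hP : IsW k P) (hk : k < 12) (h0 : P ≠ 0) :
    eval (fun _ => (1 : F)) P ≠ 0 := by
  obtain ⟨d, hd⟩ := MvPolynomial.ne_zero_iff.mp h0
  have e : P = monomial d (P.coeff d) := by
    classical
    ext d'
    rw [coeff_monomial]
    split_ifs with h
    · rw [h]
    · by_contra hd'
      apply h
      have h1 := hP.weight_eq hd
      have h2 := hP.weight_eq hd'
      ext i
      fin_cases i <;> simp <;> omega
  rw [e, eval_monomial]
  simpa [Finsupp.prod] using hd

/-- There is no nonzero polynomial of weight two. -/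
theorem eq_zero_of_isW_two {P : EPoly F} (hP : IsW 2 P) : P = 0 := by
  ext d
  by_contra hd
  have := hP.weight_eq hd
  omega

/-- A factor of a nonzero isobaric polynomial is isobaric. -/
theorem isW_of_mul {k : ℕ} {P Q : EPoly F} (h : IsW k (P * Q)) (h0 : P * Q ≠ 0) :
    ∃ i, i ≤ k ∧ IsW i P ∧ IsW (k - i) Q := by
  have hP : tau P ≠ 0 := fun e => left_ne_zero_of_mul h0 (by
    rw [← eval_one_tau P, e, Polynomial.eval_zero])
  have hQ : tau Q ≠ 0 := fun e => right_ne_zero_of_mul h0 (by
    rw [← eval_one_tau Q, e, Polynomial.eval_zero])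
  rw [IsW, map_mul] at h
  have h1 := congrArg Polynomial.natDegree h
  have h2 := congrArg Polynomial.natTrailingDegree h
  rw [Polynomial.natDegree_mul hP hQ, Polynomial.natDegree_monomial_eq _ h0] at h1
  rw [Polynomial.natTrailingDegree_mul hP hQ, Polynomial.natTrailingDegree_monomial h0] at h2
  have h3 := Polynomial.natTrailingDegree_le_natDegree (tau P)
  have h4 := Polynomial.natTrailingDegree_le_natDegree (tau Q)
  have key : ∀ R : EPoly F, (tau R).natTrailingDegree = (tau R).natDegree →
      IsW (tau R).natDegree R := by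
    intro R hR
    refine isW_of_tau_eq (Q := (tau R).coeff (tau R).natDegree) (Polynomial.ext fun j => ?_)
    rw [Polynomial.coeff_monomial]
    split_ifs with hj
    · rw [hj]
    · rcases lt_or_gt_of_ne hj with hlt | hlt
      · exact Polynomial.coeff_eq_zero_of_natDegree_lt hlt
      · exact Polynomial.coeff_eq_zero_of_lt_natTrailingDegree (hR.symm ▸ hlt)
  refine ⟨(tau P).natDegree, by omega, key P (by omega), ?_⟩
  have : k - (tau P).natDegree = (tau Q).natDegree := by omega
  rw [this]
  exact key Q (by omega)

/-- The scaling `X ↦ c⁴ X`, `Y ↦ c⁶ Y`. -/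
noncomputable def scale (c : F) : EPoly F →ₐ[F] EPoly F :=
  aeval ![C (c ^ 4) * X 0, C (c ^ 6) * X 1]

/-- The scaling of a variable. -/
theorem scale_X (c : F) (i : Fin 2) : scale c (X i) = C (c ^ wtVar i) * X i := by
  fin_cases i <;> simp [scale, wtVar]

/-- The scalings compose multiplicatively. -/
theorem scale_mul (c d : F) : (scale c).comp (scale d) = scale (c * d) :=
  algHom_ext fun i => by
    rw [AlgHom.comp_apply, scale_X, map_mul, algHom_C, scale_X, scale_X, mul_pow]
    simp [mul_comm, mul_assoc]

/-- Scaling by one is the identity. -/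
theorem scale_one : scale (1 : F) = AlgHom.id F (EPoly F) :=
  algHom_ext fun i => by simp [scale_X]

/-- Evaluating `tau P` at a constant is scaling. -/
theorem eval_C_tau (c : F) (P : EPoly F) : (tau P).eval (C c) = scale c P := by
  induction P using MvPolynomial.induction_on with
  | C a => simp
  | add p q hp hq => simp [hp, hq]
  | mul_X p i hp =>
    rw [map_mul, map_mul, Polynomial.eval_mul, hp, isW_X i, scale_X]
    simp [mul_comm]

/-- Scaling multiplies weight `k` by `cᵏ`. -/
theorem IsW.scale_eq {k : ℕ} {P : EPoly F} (hP : IsW k P) (c : F) :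
    scale c P = C (c ^ k) * P := by
  rw [← eval_C_tau, hP]
  simp [mul_comm]

/-- `tau` of a scaled polynomial rescales `T`. -/
theorem tau_scale (c : F) (P : EPoly F) :
    tau (scale c P) = (tau P).comp (Polynomial.C (C c) * Polynomial.X) := by
  induction P using MvPolynomial.induction_on with
  | C a => simp
  | add p q hp hq => simp [hp, hq]
  | mul_X p i hp =>
    rw [map_mul, map_mul, map_mul, Polynomial.mul_comp, hp, isW_X i, scale_X, map_mul, tau_C,
      isW_X i]
    simp only [← Polynomial.C_mul_X_pow_eq_monomial, Polynomial.mul_comp, Polynomial.C_comp,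
      Polynomial.X_pow_comp, mul_pow, map_pow]
    ring

/-- The derivation `12 θ - k E₂` on isobaric polynomials. -/
noncomputable def serreD : Derivation F (EPoly F) (EPoly F) :=
  mkDerivation F ![-(C 4 * X 1), -(C 6 * X 0 ^ 2)]

/-- The derivation at `X` is `-4 Y`. -/
theorem serreD_X_zero : serreD (X 0 : EPoly F) = -(C 4 * X 1) := by simp [serreD]

/-- The derivation at `Y` is `-6 X²`. -/
theorem serreD_X_one : serreD (X 1 : EPoly F) = -(C 6 * X 0 ^ 2) := by simp [serreD]

/-- The Euler derivation. -/
noncomputable def eulerD : Derivation F (EPoly F) (EPoly F) :=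
  mkDerivation F ![C 4 * X 0, C 6 * X 1]

/-- The Euler derivation multiplies each variable by its weight. -/
theorem eulerD_X (i : Fin 2) : eulerD (X i : EPoly F) = C (wtVar i : F) * X i := by
  fin_cases i <;> simp [eulerD, wtVar]

/-- The Euler derivation is the derivative of `tau` at `T = 1`. -/
theorem eulerD_eq_derivative (P : EPoly F) :
    (Polynomial.derivative (tau P)).eval 1 = eulerD P := by
  induction P using MvPolynomial.induction_on with
  | C a => simp [eulerD]
  | add p q hp hq => simp [hp, hq]
  | mul_X p i hp =>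
    rw [map_mul, Polynomial.derivative_mul, Polynomial.eval_add, Polynomial.eval_mul,
      Polynomial.eval_mul, hp, eval_one_tau, isW_X i, Derivation.leibniz, eulerD_X,
      Polynomial.derivative_monomial, Polynomial.eval_monomial, eval_one_tau]
    simp [mul_comm]
    ring

/-- The Euler derivation multiplies weight `k` by `k`. -/
theorem IsW.eulerD_eq {k : ℕ} {P : EPoly F} (hP : IsW k P) : eulerD P = C (k : F) * P := by
  rw [← eulerD_eq_derivative, hP, Polynomial.derivative_monomial]
  simp [mul_comm]

/-- The Serre derivative raises the weight by two on each isobaric part. -/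
theorem isW_serreD_coeff (P : EPoly F) : ∀ i, IsW (i + 2) (serreD ((tau P).coeff i)) := by
  induction P using MvPolynomial.induction_on with
  | C a =>
    intro i
    rw [tau_C, Polynomial.coeff_C]
    split_ifs <;> simp [serreD, isW_zero]
  | add p q hp hq =>
    intro i
    rw [map_add, Polynomial.coeff_add, map_add]
    exact (hp i).add (hq i)
  | mul_X p n hp =>
    intro i
    rw [map_mul, isW_X n, ← Polynomial.C_mul_X_pow_eq_monomial, ← mul_assoc,
      Polynomial.coeff_mul_X_pow']
    split_ifs with h
    · rw [Polynomial.coeff_mul_C, Derivation.leibniz, smul_eq_mul, smul_eq_mul]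
      have h1 := isW_coeff p (i - wtVar n)
      refine IsW.add ?_ ?_
      · have : IsW (wtVar n + 2) (serreD (X n : EPoly F)) := by
          match n with
          | 0 => rw [serreD_X_zero]; exact (isW_X_one.C_mul 4).neg
          | 1 => rw [serreD_X_one]; exact ((isW_X_zero.pow 2).C_mul 6).neg
        have := h1.mul this
        rwa [show i - wtVar n + (wtVar n + 2) = i + 2 by omega] at this
      · have := (isW_X n).mul (hp (i - wtVar n))
        rwa [show wtVar n + (i - wtVar n + 2) = i + 2 by omega] at this
    · rw [map_zero]; exact isW_zero _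

/-- The derivation raises the weight by two. -/
theorem IsW.serreD {k : ℕ} {P : EPoly F} (hP : IsW k P) : IsW (k + 2) (serreD P) := by
  have := isW_serreD_coeff P k
  rwa [hP, Polynomial.coeff_monomial, if_pos rfl] at this

end Fermat.MF.Eisen
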